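import Mathlib

set_option autoImplicit false

/-!
# Kummer extensions are unramified away from the degree and the radicand

`L = K(x)`, `x ^ n = a`: a prime `P` of the integral closure `B` of a Dedekind domain `A` with
`n ∉ P` is unramified over `A` as soon as `(a) = I ^ n * J` with `J ⊄ P ∩ A` (e.g. `a` a unit at
`P ∩ A`, or `(a)` an `n`-th power at `P ∩ A`).  Proof by Mathlib's different ideal.
-/

namespace Fermat.Agent.CFT.Glob.KummerUnram

open Polynomial nonZeroDivisors

section scale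
variable {A : Type*} (K : Type*) [CommRing A] [IsDedekindDomain A] [Field K] [Algebra A K]
  [IsFractionRing A K]

/-- If `(a) = I ^ n * J` with `J` not contained in the prime `𝔭`, then `a` can be rescaled by an
`n`-th power `c ^ n`, `c ∈ Kˣ`, to an element of `A` outside `𝔭`. -/
lemma exists_scale (a : A) (ha0 : a ≠ 0) (n : ℕ) (I J : Ideal A)
    (ha : Ideal.span {a} = I ^ n * J) (𝔭 : Ideal A) [h𝔭p : 𝔭.IsPrime] (hJ : ¬ J ≤ 𝔭) :
    ∃ (c : K) (r : A), c ≠ 0 ∧ algebraMap A K r = c ^ n * algebraMap A K a ∧ r ∉ 𝔭 := by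
  by_cases hn : n = 0
  · subst hn
    refine ⟨1, a, one_ne_zero, by simp, fun h => hJ ?_⟩
    rw [pow_zero, Ideal.one_eq_top, Ideal.top_mul] at ha
    rw [← ha]
    exact (Ideal.span_singleton_le_iff_mem _).mpr h
  by_cases h𝔭 : 𝔭 = ⊥
  · exact ⟨1, a, one_ne_zero, by simp, by rw [h𝔭]; simpa using ha0⟩
  have hI : I ≠ ⊥ := by
    rintro rfl
    apply ha0
    rw [Ideal.bot_pow hn, Ideal.bot_mul] at ha
    simpa using ha
  obtain ⟨c, hc⟩ := IsDedekindDomain.exists_add_spanSingleton_mul_eq (K := K)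
    (a := (𝔭 : FractionalIdeal A⁰ K)) (b := (I : FractionalIdeal A⁰ K)) (c := 1)
    FractionalIdeal.coeIdeal_le_one (by simpa using h𝔭) (by simpa using hI)
  have hF : FractionalIdeal.spanSingleton A⁰ c * (I : FractionalIdeal A⁰ K) ≤ 1 := by
    rw [← hc]; exact le_add_self
  obtain ⟨I', hI'⟩ := FractionalIdeal.le_one_iff_exists_coeIdeal.mp hF
  have hsup : 𝔭 ⊔ I' = ⊤ := by
    apply FractionalIdeal.coeIdeal_injective (K := K)
    simp only [FractionalIdeal.coeIdeal_sup, hI', hc, FractionalIdeal.coeIdeal_top]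
  have hc0 : c ≠ 0 := by
    rintro rfl
    rw [FractionalIdeal.spanSingleton_zero, zero_mul, FractionalIdeal.coeIdeal_eq_zero] at hI'
    rw [hI', sup_bot_eq] at hsup
    exact h𝔭p.ne_top hsup
  have key : FractionalIdeal.spanSingleton A⁰ (c ^ n * algebraMap A K a) =
      ((I' ^ n * J : Ideal A) : FractionalIdeal A⁰ K) := by
    rw [← FractionalIdeal.spanSingleton_mul_spanSingleton, ← FractionalIdeal.spanSingleton_pow,
      ← FractionalIdeal.coeIdeal_span_singleton, ha, FractionalIdeal.coeIdeal_mul,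
      FractionalIdeal.coeIdeal_pow, FractionalIdeal.coeIdeal_mul, FractionalIdeal.coeIdeal_pow,
      hI', mul_pow, mul_assoc]
  have hmem : c ^ n * algebraMap A K a ∈ ((I' ^ n * J : Ideal A) : FractionalIdeal A⁰ K) := by
    rw [← key]; exact FractionalIdeal.mem_spanSingleton_self _ _
  obtain ⟨r, hr, hrc⟩ := (FractionalIdeal.mem_coeIdeal _).mp hmem
  refine ⟨c, r, hc0, hrc, ?_⟩
  intro hr𝔭
  have hspan : Ideal.span {r} = I' ^ n * J := by
    apply FractionalIdeal.coeIdeal_injective (K := K)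
    show ((Ideal.span {r} : Ideal A) : FractionalIdeal A⁰ K) = _
    rw [FractionalIdeal.coeIdeal_span_singleton, hrc, key]
  have hle : I' ^ n * J ≤ 𝔭 := by
    rw [← hspan]; exact (Ideal.span_singleton_le_iff_mem _).mpr hr𝔭
  rcases (Ideal.IsPrime.mul_le h𝔭p).mp hle with h | h
  · have h' : I' ≤ 𝔭 := Ideal.IsPrime.le_of_pow_le h
    exact h𝔭p.ne_top (by rw [← hsup]; exact (sup_eq_left.mpr h').symm)
  · exact hJ h

end scale

section KU1
variable (A K L : Type*) {B : Type*} [CommRing A] [Field K] [CommRing B] [Field L]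
  [Algebra A K] [Algebra B L] [Algebra A B] [Algebra K L] [Algebra A L]
  [IsScalarTower A K L] [IsScalarTower A B L]
  [IsDomain A] [IsFractionRing A K] [FiniteDimensional K L] [Algebra.IsSeparable K L]
  [IsIntegralClosure B A L] [IsIntegrallyClosed A] [IsDedekindDomain B] [Module.IsTorsionFree A B]

omit [Algebra A L] [IsScalarTower A B L] [Field L] [Algebra B L] in
/-- the value at `x` of the derivative of the minimal polynomial of an `n`-th root `x` of `a`
divides `n x ^ (n - 1)` -/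
lemma aeval_derivative_minpoly_dvd (x : B) (hint : IsIntegral A x) (n : ℕ) (a : A)
    (hx : x ^ n = algebraMap A B a) :
    aeval x (derivative (minpoly A x)) ∣ (n : B) * x ^ (n - 1) := by
  have h0 : aeval x (X ^ n - C a : A[X]) = 0 := by simp [hx]
  obtain ⟨g, hg⟩ := minpoly.isIntegrallyClosed_dvd hint h0
  have hd := congrArg (fun f => aeval x (derivative f)) hg
  simp only [derivative_sub, derivative_X_pow, derivative_C, sub_zero, derivative_mul, map_add,
    map_mul, minpoly.aeval, zero_mul, add_zero, map_pow, aeval_X, map_natCast] at hd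
  exact ⟨aeval x g, by rw [← hd]⟩

/-- **(KU1a)** a prime of `B` not containing `n a` does not divide the different of `B / A` when
`L = K(x)`, `x ^ n = a`. -/
theorem not_dvd_differentIdeal_of_pow_eq (x : B)
    (hgen : Algebra.adjoin K {algebraMap B L x} = ⊤) (n : ℕ) (a : A)
    (hx : x ^ n = algebraMap A B a) (P : Ideal B) [P.IsPrime]
    (hP : (n : B) * algebraMap A B a ∉ P) : ¬ P ∣ differentIdeal A B := by
  intro h
  have hmem : aeval x (derivative (minpoly A x)) ∈ P :=
    (Ideal.dvd_iff_le.mp h) (aeval_derivative_mem_differentIdeal A K L x hgen)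
  obtain ⟨c, hc⟩ := aeval_derivative_minpoly_dvd A x (IsIntegralClosure.isIntegral A L x) n a hx
  have h1 : (n : B) * x ^ (n - 1) ∈ P := by rw [hc]; exact P.mul_mem_right _ hmem
  apply hP
  rcases Nat.eq_zero_or_pos n with h0 | hpos
  · subst h0; simp
  · have h2 : (n : B) * algebraMap A B a = (n : B) * x ^ (n - 1) * x := by
      rw [← hx, mul_assoc, ← pow_succ, Nat.sub_add_cancel hpos]
    rw [h2]; exact P.mul_mem_right _ h1


end KU1

section KU1b
variable (A K L : Type*) {B : Type*} [CommRing A] [Field K] [CommRing B] [Field L]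
  [Algebra A K] [Algebra B L] [Algebra A B] [Algebra K L] [Algebra A L]
  [IsScalarTower A K L] [IsScalarTower A B L]
  [IsDedekindDomain A] [IsFractionRing A K] [FiniteDimensional K L] [Algebra.IsSeparable K L]
  [IsIntegralClosure B A L] [IsDedekindDomain B] [Module.IsTorsionFree A B]

/-- **(KU1b, core form)** `L = K(x)`, `x ^ n = u ∈ K`: a prime `P` of `B` with `n ∉ P` does not
divide the different of `B / A` as soon as `u` can be rescaled by an `n`-th power `c ^ n`,
`c ∈ Kˣ`, to an element `r` of `A` outside `P ∩ A` ("`u` is a unit times an `n`-th power at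
`P ∩ A`"). -/
theorem not_dvd_differentIdeal_of_scaled (x : L) (hgen : Algebra.adjoin K {x} = ⊤) (n : ℕ)
    (u : K) (hx : x ^ n = algebraMap K L u) (P : Ideal B) [hP : P.IsPrime] (hn : (n : B) ∉ P)
    (c : K) (r : A) (hc0 : c ≠ 0) (hrc : algebraMap A K r = c ^ n * u) (hr : r ∉ P.under A) :
    ¬ P ∣ differentIdeal A B := by
  have hn0 : n ≠ 0 := by rintro rfl; exact hn (by simp)
  set y : L := algebraMap K L c * x with hydef
  have hy : y ^ n = algebraMap A L r := by
    rw [hydef, mul_pow, hx, ← map_pow, IsScalarTower.algebraMap_apply A K L r, hrc, map_mul]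
  have hyint : IsIntegral A y :=
    IsIntegral.of_pow (Nat.pos_of_ne_zero hn0) (hy ▸ isIntegral_algebraMap)
  obtain ⟨y', hy'⟩ := (IsIntegralClosure.isIntegral_iff (A := B)).mp hyint
  have hy'n : y' ^ n = algebraMap A B r := by
    apply IsIntegralClosure.algebraMap_injective B A L
    rw [map_pow, hy', hy, ← IsScalarTower.algebraMap_apply]
  have hgen' : Algebra.adjoin K {algebraMap B L y'} = ⊤ := by
    rw [hy', eq_top_iff, ← hgen]
    apply Algebra.adjoin_le
    intro z hz
    have hz' : z = x := hz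
    rw [hz']
    have hxy : x = c⁻¹ • y := by
      rw [hydef, Algebra.smul_def, ← mul_assoc, ← map_mul, inv_mul_cancel₀ hc0, map_one, one_mul]
    rw [hxy]
    exact (Algebra.adjoin K {y}).smul_mem (Algebra.subset_adjoin (Set.mem_singleton y)) c⁻¹
  refine not_dvd_differentIdeal_of_pow_eq A K L y' hgen' n r hy'n P ?_
  intro h
  rcases hP.mem_or_mem h with h1 | h1
  · exact hn h1
  · exact hr (Ideal.mem_comap.mpr h1)

/-- **(KU1b)** `L = K(x)`, `x ^ n = a`, `(a) = I ^ n * J`: a prime `P` of `B` with `n ∉ P` and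
`J ⊄ P ∩ A` does not divide the different of `B / A`. -/
theorem not_dvd_differentIdeal_of_span_eq (x : L) (hgen : Algebra.adjoin K {x} = ⊤) (n : ℕ)
    (a : A) (ha0 : a ≠ 0) (hx : x ^ n = algebraMap A L a) (I J : Ideal A)
    (ha : Ideal.span {a} = I ^ n * J) (P : Ideal B) [hP : P.IsPrime] (hn : (n : B) ∉ P)
    (hJ : ¬ J ≤ P.under A) : ¬ P ∣ differentIdeal A B := by
  obtain ⟨c, r, hc0, hrc, hr⟩ := exists_scale K a ha0 n I J ha (P.under A) hJ
  exact not_dvd_differentIdeal_of_scaled A K L x hgen n (algebraMap A K a)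
    (by rw [hx, ← IsScalarTower.algebraMap_apply]) P hn c r hc0 hrc hr

end KU1b

section tower
variable (A B C : Type*) [CommRing A] [CommRing B] [CommRing C] [Algebra A B] [Algebra B C]
  [Algebra A C] [IsScalarTower A B C] [IsDedekindDomain A] [IsDedekindDomain B]
  [IsDedekindDomain C] [Module.Finite A B] [Module.Finite A C] [Module.Finite B C]
  [Module.IsTorsionFree A B] [Module.IsTorsionFree A C] [Module.IsTorsionFree B C]

attribute [local instance] FractionRing.liftAlgebra FractionRing.isScalarTower_liftAlgebra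

/-- transitivity of "does not divide the different" in a tower -/
theorem not_dvd_differentIdeal_tower [Algebra.IsSeparable (FractionRing A) (FractionRing C)]
    (P : Ideal C) [hP : P.IsPrime] (h1 : ¬ P ∣ differentIdeal B C)
    (h2 : ¬ P.under B ∣ differentIdeal A B) : ¬ P ∣ differentIdeal A C := by
  rw [differentIdeal_eq_differentIdeal_mul_differentIdeal A B C, Ideal.dvd_iff_le,
    Ideal.IsPrime.mul_le hP]
  rintro (h | h)
  · exact h1 (Ideal.dvd_iff_le.mpr h)
  · exact h2 (Ideal.dvd_iff_le.mpr (Ideal.map_le_iff_le_comap.mp h))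

end tower

section NumberField
open NumberField

variable {L L' : Type*} [Field L] [NumberField L] [Field L'] [NumberField L'] [Algebra L L']

attribute [local instance] FractionRing.liftAlgebra FractionRing.isScalarTower_liftAlgebra

/-- **(KU2, relative, core form)** `L' = L(x)`, `x ^ n = u ∈ L`: a prime `P` of `𝓞 L'` with
`n ∉ P` is unramified over `𝓞 L` as soon as `c ^ n * u ∈ 𝓞 L ∖ (P ∩ 𝓞 L)` for some `c ∈ Lˣ`. -/
theorem isUnramifiedAt_of_scaled (x : L') (hgen : Algebra.adjoin L {x} = ⊤) (n : ℕ) (u : L)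
    (hx : x ^ n = algebraMap L L' u) (P : Ideal (𝓞 L')) [P.IsPrime] (hn : (n : 𝓞 L') ∉ P)
    (c : L) (r : 𝓞 L) (hc0 : c ≠ 0) (hrc : (r : L) = c ^ n * u) (hr : r ∉ P.under (𝓞 L)) :
    Algebra.IsUnramifiedAt (𝓞 L) P := by
  rw [← not_dvd_differentIdeal_iff]
  exact not_dvd_differentIdeal_of_scaled (𝓞 L) L L' x hgen n u hx P hn c r hc0 hrc hr

/-- **(KU2, absolute, core form)** in the same situation, if `P ∩ 𝓞 L` is unramified over `ℤ`
then so is `P`. -/
theorem isUnramifiedAt_int_of_scaled (x : L') (hgen : Algebra.adjoin L {x} = ⊤) (n : ℕ) (u : L)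
    (hx : x ^ n = algebraMap L L' u) (P : Ideal (𝓞 L')) [P.IsPrime] (hn : (n : 𝓞 L') ∉ P)
    (c : L) (r : 𝓞 L) (hc0 : c ≠ 0) (hrc : (r : L) = c ^ n * u) (hr : r ∉ P.under (𝓞 L))
    (hL : Algebra.IsUnramifiedAt ℤ (P.under (𝓞 L))) : Algebra.IsUnramifiedAt ℤ P := by
  rw [← not_dvd_differentIdeal_iff] at hL ⊢
  exact not_dvd_differentIdeal_tower ℤ (𝓞 L) (𝓞 L') P
    (not_dvd_differentIdeal_of_scaled (𝓞 L) L L' x hgen n u hx P hn c r hc0 hrc hr) hL

/-- **(KU2, relative)** `L' = L(x)`, `x ^ n = α ∈ 𝓞 L`, `(α) = I ^ n * J`: a prime `P` of `𝓞 L'`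
with `n ∉ P` and `J ⊄ P ∩ 𝓞 L` is unramified over `𝓞 L`. -/
theorem isUnramifiedAt_of_pow_eq (x : L') (hgen : Algebra.adjoin L {x} = ⊤) (n : ℕ) (α : 𝓞 L)
    (hα0 : α ≠ 0) (hx : x ^ n = algebraMap L L' (α : L)) (I J : Ideal (𝓞 L))
    (hα : Ideal.span {α} = I ^ n * J) (P : Ideal (𝓞 L')) [P.IsPrime] (hn : (n : 𝓞 L') ∉ P)
    (hJ : ¬ J ≤ P.under (𝓞 L)) : Algebra.IsUnramifiedAt (𝓞 L) P := by
  rw [← not_dvd_differentIdeal_iff]
  exact not_dvd_differentIdeal_of_span_eq (𝓞 L) L L' x hgen n α hα0 (by rw [hx]; rfl) I J hα P hn hJ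

/-- **(KU2, absolute)** in the same situation, if `P ∩ 𝓞 L` is unramified over `ℤ` then so is
`P`. -/
theorem isUnramifiedAt_int_of_pow_eq (x : L') (hgen : Algebra.adjoin L {x} = ⊤) (n : ℕ) (α : 𝓞 L)
    (hα0 : α ≠ 0) (hx : x ^ n = algebraMap L L' (α : L)) (I J : Ideal (𝓞 L))
    (hα : Ideal.span {α} = I ^ n * J) (P : Ideal (𝓞 L')) [P.IsPrime] (hn : (n : 𝓞 L') ∉ P)
    (hJ : ¬ J ≤ P.under (𝓞 L)) (hL : Algebra.IsUnramifiedAt ℤ (P.under (𝓞 L))) :
    Algebra.IsUnramifiedAt ℤ P := by
  rw [← not_dvd_differentIdeal_iff] at hL ⊢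
  exact not_dvd_differentIdeal_tower ℤ (𝓞 L) (𝓞 L') P
    (not_dvd_differentIdeal_of_span_eq (𝓞 L) L L' x hgen n α hα0 (by rw [hx]; rfl) I J hα P hn hJ)
    hL

end NumberField

end Fermat.Agent.CFT.Glob.KummerUnram
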