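import Mathlib
import Fermat.Agent.CFT.Glob.KummerUnram

set_option autoImplicit false

/-!
# `𝓞 L ⧸ (q)` is reduced iff no prime over `q` divides the different

Bridge between the predicate `IsReduced (𝓞 L ⧸ Ideal.span {(q : 𝓞 L)})` ("`q` is unramified in
`L`") and Mathlib's different ideal / `Algebra.IsUnramifiedAt ℤ P`, and the Kummer step of
`KummerUnram` restated for the `IsReduced` predicate.
-/

namespace Fermat.Agent.CFT.Glob.UnramReduced

section Dedekind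
variable {R : Type*} [CommRing R] [IsDedekindDomain R]

/-- an ideal of a Dedekind domain contained in no square of a maximal ideal is radical -/
lemma isRadical_of_forall_not_le_sq (I : Ideal R)
    (h : ∀ P : Ideal R, P.IsMaximal → ¬ I ≤ P ^ 2) : I.IsRadical := by
  obtain ⟨K, hK⟩ := Ideal.dvd_iff_le.mpr (Ideal.le_radical : I ≤ I.radical)
  by_cases hKtop : K = ⊤
  · rw [hKtop, Ideal.mul_top] at hK
    rw [hK]
    exact Ideal.radical_isRadical I
  · obtain ⟨P, hP, hKP⟩ := Ideal.exists_le_maximal K hKtop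
    exfalso
    apply h P hP
    have h1 : I ≤ P := by
      calc I = I.radical * K := hK
        _ ≤ K := Ideal.mul_le_right
        _ ≤ P := hKP
    have h2 : I.radical ≤ P := (Ideal.IsPrime.radical_le_iff hP.isPrime).mpr h1
    calc I = I.radical * K := hK
      _ ≤ P * P := Ideal.mul_mono h2 hKP
      _ = P ^ 2 := (pow_two P).symm

/-- a nonzero radical ideal of a Dedekind domain is contained in no square of a prime ideal -/
lemma not_le_sq_of_isRadical (I : Ideal R) (hI0 : I ≠ ⊥) (hI : I.IsRadical) (P : Ideal R)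
    (hP : P.IsPrime) : ¬ I ≤ P ^ 2 := by
  intro hle
  obtain ⟨Q, hQ⟩ := Ideal.dvd_iff_le.mpr hle
  have hN : P * Q ≤ I := by
    intro y hy
    apply hI
    refine ⟨2, ?_⟩
    have h1 : y ^ 2 ∈ (P * Q) * (P * Q) := by rw [pow_two]; exact Ideal.mul_mem_mul hy hy
    have h2 : (P * Q) * (P * Q) ≤ I := by
      calc (P * Q) * (P * Q) = (P ^ 2 * Q) * Q := by rw [pow_two]; ac_rfl
        _ ≤ P ^ 2 * Q := Ideal.mul_le_left
        _ = I := hQ.symm
    exact h2 h1
  have hPQ0 : P * Q ≠ 0 := by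
    intro h0
    apply hI0
    rw [hQ, pow_two, mul_assoc, h0, mul_zero]
    rfl
  have h3 : (P * Q) * P ∣ (P * Q) * 1 := by
    rw [mul_one]
    refine Ideal.dvd_iff_le.mpr ?_
    calc P * Q ≤ I := hN
      _ = P ^ 2 * Q := hQ
      _ = (P * Q) * P := by rw [pow_two]; ac_rfl
  have h4 : P ∣ 1 := (mul_dvd_mul_iff_left hPQ0).mp h3
  have h5 : (1 : Ideal R) ≤ P := Ideal.dvd_iff_le.mp h4
  exact hP.ne_top (top_le_iff.mp (by rwa [Ideal.one_eq_top] at h5))

end Dedekind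

section NumberField
open NumberField

variable (L : Type*) [Field L] [NumberField L]

attribute [local instance] FractionRing.liftAlgebra FractionRing.isScalarTower_liftAlgebra

omit [NumberField L] in
lemma span_natCast_eq_map (q : ℕ) :
    Ideal.span {(q : 𝓞 L)} = Ideal.map (algebraMap ℤ (𝓞 L)) (Ideal.span {(q : ℤ)}) := by
  rw [Ideal.map_span, Set.image_singleton]
  simp

/-- **Bridge**: `(q)` is a radical ideal of `𝓞 L` iff no prime of `𝓞 L` over `q` divides the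
different of `𝓞 L / ℤ`. -/
theorem isRadical_span_iff (q : ℕ) (hq : q.Prime) :
    (Ideal.span {(q : 𝓞 L)}).IsRadical ↔
      ∀ P : Ideal (𝓞 L), P.IsPrime → (q : 𝓞 L) ∈ P → ¬ P ∣ differentIdeal ℤ (𝓞 L) := by
  have hq0 : (q : 𝓞 L) ≠ 0 := by exact_mod_cast hq.ne_zero
  have hI0 : Ideal.span {(q : 𝓞 L)} ≠ ⊥ := by simpa using hq0
  have hpmax : (Ideal.span {(q : ℤ)}).IsMaximal :=
    PrincipalIdealRing.isMaximal_of_irreducible (Nat.prime_iff_prime_int.mp hq).irreducible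
  have hp0 : Ideal.span {(q : ℤ)} ≠ ⊥ := by simpa using hq.ne_zero
  have : Finite (ℤ ⧸ Ideal.span {(q : ℤ)}) := Ideal.finiteQuotientOfFreeOfNeBot _ hp0
  constructor
  · intro hrad P hP hqP
    have hPbot : P ≠ ⊥ := by
      rintro rfl
      exact hq0 (by simpa using hqP)
    have hPmax : P.IsMaximal := hP.isMaximal hPbot
    have hle : Ideal.span {(q : 𝓞 L)} ≤ P := (Ideal.span_singleton_le_iff_mem _).mpr hqP
    obtain ⟨Q, hQ⟩ := Ideal.dvd_iff_le.mpr hle
    have hcop : IsCoprime P Q := by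
      rw [Ideal.isCoprime_iff_sup_eq]
      by_contra hne
      have hQP : Q ≤ P := by
        by_contra hQP
        exact hne (hPmax.1.2 (P ⊔ Q)
          (lt_of_le_not_ge le_sup_left (fun h => hQP (le_sup_right.trans h))))
      apply not_le_sq_of_isRadical _ hI0 hrad P hP
      calc Ideal.span {(q : 𝓞 L)} = P * Q := hQ
        _ ≤ P * P := Ideal.mul_mono le_rfl hQP
        _ = P ^ 2 := (pow_two P).symm
    exact not_dvd_differentIdeal_of_isCoprime ℤ P Q hcop
      (by rw [← hQ, span_natCast_eq_map])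
  · intro h
    apply isRadical_of_forall_not_le_sq
    intro P hPmax hle
    have hP : P.IsPrime := hPmax.isPrime
    have hqP : (q : 𝓞 L) ∈ P :=
      Ideal.pow_le_self two_ne_zero (hle (Ideal.mem_span_singleton_self _))
    apply h P hP hqP
    have hdvd : P ^ 2 ∣ Ideal.map (algebraMap ℤ (𝓞 L)) (Ideal.span {(q : ℤ)}) := by
      rw [← span_natCast_eq_map]
      exact Ideal.dvd_iff_le.mpr hle
    have := pow_sub_one_dvd_differentIdeal ℤ P 2 hp0 hdvd
    simpa using this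

/-- **Bridge** (`IsReduced` form). -/
theorem isReduced_quotient_span_iff (q : ℕ) (hq : q.Prime) :
    IsReduced (𝓞 L ⧸ Ideal.span {(q : 𝓞 L)}) ↔
      ∀ P : Ideal (𝓞 L), P.IsPrime → (q : 𝓞 L) ∈ P → ¬ P ∣ differentIdeal ℤ (𝓞 L) := by
  rw [← Ideal.isRadical_iff_quotient_reduced]
  exact isRadical_span_iff L q hq

/-- **Bridge** (`Algebra.IsUnramifiedAt` form). -/
theorem isReduced_quotient_span_iff_isUnramifiedAt (q : ℕ) (hq : q.Prime) :
    IsReduced (𝓞 L ⧸ Ideal.span {(q : 𝓞 L)}) ↔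
      ∀ (P : Ideal (𝓞 L)) [P.IsPrime], (q : 𝓞 L) ∈ P → Algebra.IsUnramifiedAt ℤ P := by
  rw [isReduced_quotient_span_iff L q hq]
  constructor
  · intro h P hP hqP
    exact not_dvd_differentIdeal_iff.mp (h P hP hqP)
  · intro h P hP hqP
    exact not_dvd_differentIdeal_iff.mpr (h P hqP)

end NumberField

section Kummer
open NumberField

variable {L L' : Type*} [Field L] [NumberField L] [Field L'] [NumberField L'] [Algebra L L']

attribute [local instance] FractionRing.liftAlgebra FractionRing.isScalarTower_liftAlgebra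

/-- **Kummer step, `IsReduced` form (core)**: `L' = L(x)`, `x ^ n = u ∈ L`, `q ∤ n` a prime
unramified in `L`, and `u` is a unit times an `n`-th power at every prime of `L` over `q`
(witnessed by `c ^ n * u ∈ 𝓞 L ∖ 𝔭`).  Then `q` is unramified in `L'`. -/
theorem isReduced_of_kummer (q : ℕ) (hq : q.Prime) (n : ℕ) (hqn : ¬ q ∣ n) (x : L')
    (hgen : Algebra.adjoin L {x} = ⊤) (u : L) (hx : x ^ n = algebraMap L L' u)
    (hu : ∀ 𝔭 : Ideal (𝓞 L), 𝔭.IsPrime → (q : 𝓞 L) ∈ 𝔭 →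
      ∃ (c : L) (r : 𝓞 L), c ≠ 0 ∧ (r : L) = c ^ n * u ∧ r ∉ 𝔭)
    (hL : IsReduced (𝓞 L ⧸ Ideal.span {(q : 𝓞 L)})) :
    IsReduced (𝓞 L' ⧸ Ideal.span {(q : 𝓞 L')}) := by
  rw [isReduced_quotient_span_iff L' q hq]
  rw [isReduced_quotient_span_iff L q hq] at hL
  intro P hP hqP
  have hq𝔭 : (q : 𝓞 L) ∈ P.under (𝓞 L) := by
    rw [Ideal.under, Ideal.mem_comap]
    simpa using hqP
  have h𝔭 : (P.under (𝓞 L)).IsPrime := inferInstance
  obtain ⟨c, r, hc0, hrc, hr⟩ := hu _ h𝔭 hq𝔭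
  have hn : (n : 𝓞 L') ∉ P := by
    intro hnP
    have hcop : IsCoprime (q : ℤ) (n : ℤ) :=
      Nat.isCoprime_iff_coprime.mpr ((Nat.Prime.coprime_iff_not_dvd hq).mpr hqn)
    obtain ⟨a, b, hab⟩ := hcop
    have h1 : ((a * q + b * n : ℤ) : 𝓞 L') ∈ P := by
      push_cast
      exact P.add_mem (P.mul_mem_left _ hqP) (P.mul_mem_left _ hnP)
    rw [hab] at h1
    exact hP.ne_top ((Ideal.eq_top_iff_one _).mpr (by simpa using h1))
  exact KummerUnram.not_dvd_differentIdeal_tower ℤ (𝓞 L) (𝓞 L') P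
    (KummerUnram.not_dvd_differentIdeal_of_scaled (𝓞 L) L L' x hgen n u hx P hn c r hc0 hrc hr)
    (hL _ h𝔭 hq𝔭)

/-- **Kummer step, `IsReduced` form (ideal version)**: `L' = L(x)`, `x ^ n = α ∈ 𝓞 L`,
`(α) = I ^ n * J` with `J` prime to `q`, `q ∤ n` unramified in `L`.  Then `q` is unramified in
`L'`.  (`I = ⊤`: `α` is a unit at `q`; `J = ⊤`: `(α)` is an `n`-th power.) -/
theorem isReduced_of_kummer_span (q : ℕ) (hq : q.Prime) (n : ℕ) (hqn : ¬ q ∣ n) (x : L')
    (hgen : Algebra.adjoin L {x} = ⊤) (α : 𝓞 L) (hα0 : α ≠ 0)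
    (hx : x ^ n = algebraMap L L' (α : L)) (I J : Ideal (𝓞 L))
    (hα : Ideal.span {α} = I ^ n * J)
    (hJ : ∀ 𝔭 : Ideal (𝓞 L), 𝔭.IsPrime → (q : 𝓞 L) ∈ 𝔭 → ¬ J ≤ 𝔭)
    (hL : IsReduced (𝓞 L ⧸ Ideal.span {(q : 𝓞 L)})) :
    IsReduced (𝓞 L' ⧸ Ideal.span {(q : 𝓞 L')}) := by
  refine isReduced_of_kummer q hq n hqn x hgen (α : L) hx ?_ hL
  intro 𝔭 h𝔭 hq𝔭
  obtain ⟨c, r, hc0, hrc, hr⟩ := KummerUnram.exists_scale L α hα0 n I J hα 𝔭 (hJ 𝔭 h𝔭 hq𝔭)
  exact ⟨c, r, hc0, hrc, hr⟩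

end Kummer

end Fermat.Agent.CFT.Glob.UnramReduced
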