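import Mathlib

/-!
# The Galois action on `L ⊗[k] M`

`k ⊆ K ⊆ L` fields, `G = Gal(L/K)`, `M` a commutative `k`-algebra.  `G` acts on `L ⊗[k] M`
through the left factor (`tensorAction`), the invariants are the image of `K ⊗[k] M`
(`exists_of_forall_smul_eq`), and `L ⊗[k] M` is Artinian and reduced when `M` is a field and
`L/k` is finite separable.
-/

namespace Fermat.Agent.CFT.Glob.GaloisTensor

open scoped TensorProduct

section Action

variable (k K L M : Type*) [CommRing k] [Field K] [Field L] [Algebra k K] [Algebra k L]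
  [Algebra K L] [IsScalarTower k K L] [CommRing M] [Algebra k M]

/-- `σ ↦ σ ⊗ id` as a monoid homomorphism into the algebra automorphisms of `L ⊗[k] M`. -/
noncomputable def actEquiv : (L ≃ₐ[K] L) →* ((L ⊗[k] M) ≃ₐ[k] (L ⊗[k] M)) where
  toFun σ := Algebra.TensorProduct.congr (σ.restrictScalars k) AlgEquiv.refl
  map_one' := by
    apply AlgEquiv.ext
    intro x
    induction x using TensorProduct.induction_on with
    | zero => simp
    | tmul l m => simp
    | add x y hx hy => simp only [map_add, hx, hy]
  map_mul' σ τ := by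
    apply AlgEquiv.ext
    intro x
    induction x using TensorProduct.induction_on with
    | zero => simp
    | tmul l m => simp
    | add x y hx hy => simp only [map_add, hx, hy]

@[simp]
theorem actEquiv_tmul (σ : L ≃ₐ[K] L) (l : L) (m : M) :
    actEquiv k K L M σ (l ⊗ₜ[k] m) = σ l ⊗ₜ[k] m := by
  simp [actEquiv]

/-- Mathlib's canonical action of `Gal(L/K)` on `L ⊗[k] M` (`TensorProduct.leftDistribMulAction`)
is `σ ⊗ id`. -/
theorem smul_eq_actEquiv (σ : L ≃ₐ[K] L) (x : L ⊗[k] M) : σ • x = actEquiv k K L M σ x := by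
  induction x using TensorProduct.induction_on with
  | zero => simp
  | tmul l m => rw [TensorProduct.smul_tmul', actEquiv_tmul]; rfl
  | add x y hx hy => rw [smul_add, hx, hy, map_add]

theorem smul_tmul (σ : L ≃ₐ[K] L) (l : L) (m : M) : σ • (l ⊗ₜ[k] m) = σ l ⊗ₜ[k] m := by
  rw [smul_eq_actEquiv, actEquiv_tmul]

/-- The action of `Gal(L/K)` on `L ⊗[k] M` through the left factor, as a `MulSemiringAction`
extending Mathlib's canonical `DistribMulAction` on the tensor product. -/
@[reducible]
noncomputable def tensorAction : MulSemiringAction (L ≃ₐ[K] L) (L ⊗[k] M) :=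
  { (inferInstance : DistribMulAction (L ≃ₐ[K] L) (L ⊗[k] M)) with
    smul_one := fun σ => by rw [smul_eq_actEquiv, map_one]
    smul_mul := fun σ x y => by rw [smul_eq_actEquiv, smul_eq_actEquiv, smul_eq_actEquiv, map_mul] }

/-- The base change of the inclusion `K → L`. -/
noncomputable def baseMap : K ⊗[k] M →ₐ[k] L ⊗[k] M :=
  Algebra.TensorProduct.map (IsScalarTower.toAlgHom k K L) (AlgHom.id k M)

@[simp]
theorem baseMap_tmul (c : K) (m : M) :
    baseMap k K L M (c ⊗ₜ[k] m) = algebraMap K L c ⊗ₜ[k] m := by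
  simp [baseMap]

theorem actEquiv_baseMap (σ : L ≃ₐ[K] L) (y : K ⊗[k] M) :
    actEquiv k K L M σ (baseMap k K L M y) = baseMap k K L M y := by
  induction y using TensorProduct.induction_on with
  | zero => simp
  | tmul c m => simp
  | add x y hx hy => simp only [map_add, hx, hy]

/-- **Invariants.**  If `M` is free over `k` and `L/K` is finite Galois, an element of
`L ⊗[k] M` fixed by `Gal(L/K)` comes from `K ⊗[k] M`. -/
theorem exists_of_forall_actEquiv_eq [Module.Free k M] [FiniteDimensional K L] [IsGalois K L]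
    (x : L ⊗[k] M) (hx : ∀ σ : L ≃ₐ[K] L, actEquiv k K L M σ x = x) :
    ∃ y : K ⊗[k] M, baseMap k K L M y = x := by
  classical
  let 𝒞 := Module.Free.chooseBasis k M
  obtain ⟨b, rfl⟩ := TensorProduct.eq_repr_basis_right (M := L) 𝒞 x
  have hfix : ∀ (σ : L ≃ₐ[K] L) i, σ (b i) = b i := by
    intro σ i
    have h1 : actEquiv k K L M σ (b.sum fun i m => m ⊗ₜ[k] 𝒞 i) =
        (b.mapRange σ (map_zero σ)).sum fun i m => m ⊗ₜ[k] 𝒞 i := by
      rw [Finsupp.sum_mapRange_index (fun i => by simp), Finsupp.sum, map_sum]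
      simp [Finsupp.sum]
    have h2 := (hx σ).symm.trans h1
    have h3 : b = b.mapRange σ (map_zero σ) := by
      apply TensorProduct.sum_tmul_basis_right_injective (M := L) 𝒞
      rw [Finsupp.lsum_apply, Finsupp.lsum_apply]
      exact h2
    have := congrArg (fun f => f i) h3
    simpa using this.symm
  have hmem : ∀ i, ∃ c : K, algebraMap K L c = b i := fun i =>
    (IsGalois.mem_range_algebraMap_iff_fixed (F := K) (E := L) (b i)).2 (fun σ => hfix σ i)
  choose c hc using hmem
  refine ⟨∑ i ∈ b.support, c i ⊗ₜ[k] 𝒞 i, ?_⟩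
  rw [map_sum, Finsupp.sum]
  refine Finset.sum_congr rfl (fun i _ => ?_)
  rw [baseMap_tmul, hc]

/-- The algebra structure of `L ⊗[k] M` over `K ⊗[k] M`. -/
@[reducible]
noncomputable def baseAlgebra : Algebra (K ⊗[k] M) (L ⊗[k] M) :=
  (baseMap k K L M).toRingHom.toAlgebra

theorem baseAlgebra_algebraMap (y : K ⊗[k] M) :
    letI := baseAlgebra k K L M
    algebraMap (K ⊗[k] M) (L ⊗[k] M) y = baseMap k K L M y := rfl

/-- `Gal(L/K)` acts `K ⊗[k] M`-linearly. -/
theorem smulCommClass :
    letI := baseAlgebra k K L M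
    SMulCommClass (L ≃ₐ[K] L) (K ⊗[k] M) (L ⊗[k] M) := by
  let _ := baseAlgebra k K L M
  refine ⟨fun σ y x => ?_⟩
  rw [Algebra.smul_def, Algebra.smul_def, smul_eq_actEquiv, smul_eq_actEquiv]
  show actEquiv k K L M σ (baseMap k K L M y * x) = baseMap k K L M y * actEquiv k K L M σ x
  rw [map_mul, actEquiv_baseMap]

/-- `(L ⊗[k] M)^Gal(L/K) = K ⊗[k] M`, in Mathlib's vocabulary. -/
theorem isInvariant [Module.Free k M] [FiniteDimensional K L] [IsGalois K L] :
    letI := baseAlgebra k K L M
    letI := tensorAction k K L M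
    Algebra.IsInvariant (K ⊗[k] M) (L ⊗[k] M) (L ≃ₐ[K] L) := by
  let _ := baseAlgebra k K L M
  let _ := tensorAction k K L M
  exact ⟨fun x hx => exists_of_forall_actEquiv_eq k K L M x
    (fun σ => (smul_eq_actEquiv k K L M σ x).symm.trans (hx σ))⟩

end Action

section Field

variable (k K L M : Type*) [Field k] [Field K] [Field L] [Algebra k K] [Algebra k L]
  [Algebra K L] [IsScalarTower k K L] [CommRing M] [Algebra k M]

/-- `l ↦ l ⊗ₜ 1` is injective. -/
theorem tmul_one_injective [Nontrivial M] :
    Function.Injective (fun l : L => l ⊗ₜ[k] (1 : M)) :=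
  Algebra.TensorProduct.includeLeft_injective (R := k) (S := k) (A := L) (B := M)
    (algebraMap k M).injective

/-- The action on `L ⊗[k] M` is faithful. -/
theorem actEquiv_injective [Nontrivial M] : Function.Injective (actEquiv k K L M) := by
  intro σ τ h
  apply AlgEquiv.ext
  intro l
  apply tmul_one_injective k L M
  have := congrArg (fun e => e (l ⊗ₜ[k] (1 : M))) h
  simpa using this

/-- The canonical action on `L ⊗[k] M` is faithful. -/
theorem faithfulSMul [Nontrivial M] : FaithfulSMul (L ≃ₐ[K] L) (L ⊗[k] M) := by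
  refine ⟨fun {σ τ} h => ?_⟩
  apply actEquiv_injective k K L M
  apply AlgEquiv.ext
  intro x
  rw [← smul_eq_actEquiv, ← smul_eq_actEquiv, h]

variable (F : Type*) [Field F] [Algebra k F]

/-- `L ⊗[k] F` is reduced for `L/k` finite separable and `F` a field. -/
theorem isReduced [FiniteDimensional k L] [Algebra.IsSeparable k L] : IsReduced (L ⊗[k] F) := by
  have : Algebra.FormallyUnramified k L := Algebra.FormallyUnramified.of_isSeparable k L
  have : IsReduced (F ⊗[k] L) := Algebra.FormallyUnramified.isReduced_of_field F (F ⊗[k] L)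
  exact isReduced_of_injective (Algebra.TensorProduct.comm k L F)
    (Algebra.TensorProduct.comm k L F).injective

/-- `L ⊗[k] F` is Artinian for `L/k` finite and `F` a field. -/
theorem isArtinianRing [FiniteDimensional k L] : IsArtinianRing (L ⊗[k] F) := by
  have : IsArtinianRing (F ⊗[k] L) := IsArtinianRing.of_finite F (F ⊗[k] L)
  exact (Algebra.TensorProduct.comm k F L).toRingEquiv.isArtinianRing

end Field

end Fermat.Agent.CFT.Glob.GaloisTensor
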