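import Mathlib
import Fermat.Agent.CFT.Coh.Defs
import Fermat.Agent.CFT.Triv.ClassAt
import Fermat.Agent.CFT.Glob.TopBridge.Transfer
import Fermat.Agent.CFT.Global.Plan
import Fermat.Agent.CFT.Global.ExistPlan

/-!
# P3 / CFT, layer Global: the consumer forms of the reciprocity exports

The Global plan states its two reciprocity exports on `groupCohomology`:
`Plan.ClassFormationP` ([F1]) and `Plan.LocalGlobalInj` ([F2]).  Formation / Top consume them in
cocycle form (`Triv.IsPClassModule`) and for the `S`-idele class module `classRepS`.  This file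
does the (purely formal) translation.

Generic bridges (any group `G`, any `C : Rep ℤ G`):

* `isClassAt_comp_equiv`     : `Triv.IsClassAt` is invariant under an isomorphism of the source;
* `isClassAt_subtype_of_H2`  : `H¹(H, C) = 0`, `|H²(H, C)| = |H|`, `H²(H, C)` generated by the
                               restriction of `[σ]`  ⟹  `IsClassAt C σ H.subtype`;
* `isPClassModule_of_subgroups` : `IsClassAt` at all `p`-subgroups ⟹ `IsPClassModule`;
* `isPClassModule_of_H2`     : the combination.

Exports: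

* (E1) `exists_pClassModule` : `Plan.ClassFormationP` ⟹ `C_L` is a `p`-class module;
* (E2) `sClassModule` : `Plan.ClassFormationP → Plan.SClassCompare → ExistPlan.SClassModule`
       (`C_S(L)` is a `p`-class module for `L` unramified outside `S ≠ ∅`);
* [LGI] `localGlobalInjS` : `Plan.LocalGlobalInj → Plan.SClassCompare →` injectivity of
       `H²(G, ∏_{w' ∈ G·w} L_{w'}ˣ) → H²(G, C_S(L))` for `p`-groups `G`, with the cocycle form
       `localGlobalInjS_cocycle`.
-/

set_option autoImplicit false

open CategoryTheory groupCohomology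

namespace Fermat.Agent.CFT.Glob.ClassExport

open Fermat.Agent.CFT Fermat.Agent.CFT.Triv Fermat.Agent.CFT.Global

/-! ## Generic bridges -/

section Generic

variable {G : Type} [Group G]

/-- `Triv.IsClassAt` only depends on the source group up to isomorphism. -/
theorem isClassAt_comp_equiv (C : Rep.{0} ℤ G) (σ : cocycles₂ C) {H H' : Type} [Group H]
    [Group H'] (f : H →* G) (e : H' ≃* H) (h : IsClassAt C σ f) :
    IsClassAt C σ (f.comp e.toMonoidHom) := by
  rw [Glob.TopBridge.isClassAt_iff] at h ⊢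
  obtain ⟨h1, h2, h3⟩ := h
  refine ⟨fun c hc => ?_, fun τ hτ => ?_, fun k hk => ?_⟩
  · obtain ⟨a, ha⟩ := h1 (fun x => c (e.symm x)) (fun g x => by
      have := hc (e.symm g) (e.symm x)
      simpa using this)
    exact ⟨a, fun g => by simpa using ha (e g)⟩
  · obtain ⟨k, b, hb⟩ := h2 (fun x => τ (e.symm x.1, e.symm x.2)) (fun g x y => by
      have := hτ (e.symm g) (e.symm x) (e.symm y)
      simpa using this)
    refine ⟨k, fun x => b (e x), fun g x => ?_⟩
    simpa using hb (e g) (e x)
  · obtain ⟨b, hb⟩ := hk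
    have := h3 k ⟨fun x => b (e.symm x), fun g x => by
      simpa using hb (e.symm g) (e.symm x)⟩
    rwa [Nat.card_congr e.toEquiv]

/-- From `groupCohomology` to cocycles: if `H¹(H, C) = 0`, `|H²(H, C)| = |H|` and `H²(H, C)` is
generated by the restriction of the class of `σ`, then `(C, σ)` satisfies the class-module axioms
at the subgroup `H`. -/
theorem isClassAt_subtype_of_H2 (C : Rep.{0} ℤ G) (σ : cocycles₂ C) (H : Subgroup G) [Finite H]
    (h1 : Limits.IsZero (groupCohomology (Rep.res H.subtype C) 1))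
    (hcard : Nat.card (groupCohomology (Rep.res H.subtype C) 2) = Nat.card H)
    (hgen : ∀ y : groupCohomology (Rep.res H.subtype C) 2,
      ∃ k : ℤ, y = k • (Coh.rest C H 2).hom (H2π C σ)) :
    IsClassAt C σ H.subtype := by
  -- the restricted cocycle
  set σH : cocycles₂ (Rep.res H.subtype C) := mapCocycles₂ H.subtype (𝟙 _) σ with hσH
  have hσHval : (⇑σH : H × H → C) = ⇑σ ∘ Prod.map H.subtype H.subtype := rfl
  have hrest : (Coh.rest C H 2).hom (H2π C σ) = H2π _ σH :=
    H2π_comp_map_apply H.subtype (𝟙 _) σ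
  refine ⟨fun c => ?_, fun τ => ?_, fun k hk => ?_⟩
  · have : Subsingleton (groupCohomology (Rep.res H.subtype C) 1) :=
      ModuleCat.subsingleton_of_isZero h1
    exact (H1π_eq_zero_iff c).1 (Subsingleton.elim _ _)
  · obtain ⟨k, hk⟩ := hgen (H2π _ τ)
    rw [hrest, ← map_zsmul, H2π_eq_iff] at hk
    obtain ⟨b, hb⟩ := hk
    refine ⟨k, b, ?_⟩
    have hb' : (d₁₂ (Rep.res H.subtype C)).hom b = ⇑τ - ⇑(k • σH) := hb
    rw [hb', ← hσHval]
    funext x
    show τ x = (k • ⇑σH) x + (τ x - (k • σH) x)
    have : ((k • σH : cocycles₂ (Rep.res H.subtype C)) : H × H → C) x = (k • ⇑σH) x := rfl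
    rw [this]
    abel
  · obtain ⟨b, hb⟩ := hk
    -- `k • res [σ] = 0`
    have hzero : k • (Coh.rest C H 2).hom (H2π C σ) = 0 := by
      rw [hrest, ← map_zsmul, H2π_eq_zero_iff]
      refine ⟨b, ?_⟩
      show (d₁₂ (Rep.res H.subtype C)).hom b = ⇑(k • σH)
      rw [← hb, ← hσHval]
      rfl
    -- the order of `res [σ]` is `|H|`
    set x := (Coh.rest C H 2).hom (H2π C σ) with hx
    have htop : AddSubgroup.zmultiples x = ⊤ := by
      rw [eq_top_iff]
      intro y _
      obtain ⟨k, hk⟩ := hgen y
      exact AddSubgroup.mem_zmultiples_iff.2 ⟨k, hk.symm⟩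
    have hord : addOrderOf x = Nat.card H := by
      rw [← Nat.card_zmultiples, htop, ← hcard]
      exact Nat.card_congr (Equiv.Set.univ _)
    rw [← hord]
    exact addOrderOf_dvd_iff_zsmul_eq_zero.2 hzero

/-- The class-module axioms at all `p`-subgroups give a `p`-class module. -/
theorem isPClassModule_of_subgroups (p : ℕ) (C : Rep.{0} ℤ G) (σ : cocycles₂ C)
    (h : ∀ H : Subgroup G, IsPGroup p H → IsClassAt C σ H.subtype) : IsPClassModule p C σ := by
  intro H _ _ f hf hH
  have hr : IsPGroup p f.range := hH.of_equiv (MonoidHom.ofInjective hf)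
  have := isClassAt_comp_equiv C σ f.range.subtype (MonoidHom.ofInjective hf) (h f.range hr)
  have e : f.range.subtype.comp (MonoidHom.ofInjective hf).toMonoidHom = f := by
    ext x
    rfl
  rwa [e] at this

/-- `groupCohomology` form ⟹ cocycle form of the `p`-class module axioms. -/
theorem isPClassModule_of_H2 [Finite G] (p : ℕ) (C : Rep.{0} ℤ G) (σ : cocycles₂ C)
    (h : ∀ H : Subgroup G, IsPGroup p H →
      Limits.IsZero (groupCohomology (Rep.res H.subtype C) 1) ∧
      Nat.card (groupCohomology (Rep.res H.subtype C) 2) = Nat.card H ∧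
      ∀ y : groupCohomology (Rep.res H.subtype C) 2,
        ∃ k : ℤ, y = k • (Coh.rest C H 2).hom (H2π C σ)) :
    IsPClassModule p C σ :=
  isPClassModule_of_subgroups p C σ fun H hH =>
    isClassAt_subtype_of_H2 C σ H (h H hH).1 (h H hH).2.1 (h H hH).2.2

/-- Transport of the `groupCohomology` form of the class-module axioms along a morphism
`φ : C ⟶ C'` which induces bijections on `H¹(H, -)` and `H²(H, -)`. -/
theorem h2Form_of_bijective (C C' : Rep.{0} ℤ G) (φ : C ⟶ C') (σ : groupCohomology C 2)
    (H : Subgroup G)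
    (hb1 : Function.Bijective
      ((groupCohomology.functor ℤ H 1).map ((Rep.resFunctor H.subtype).map φ)).hom)
    (hb2 : Function.Bijective
      ((groupCohomology.functor ℤ H 2).map ((Rep.resFunctor H.subtype).map φ)).hom)
    (h1 : Limits.IsZero (groupCohomology (Rep.res H.subtype C) 1))
    (hcard : Nat.card (groupCohomology (Rep.res H.subtype C) 2) = Nat.card H)
    (hgen : ∀ y : groupCohomology (Rep.res H.subtype C) 2,
      ∃ k : ℤ, y = k • (Coh.rest C H 2).hom σ) :
    Limits.IsZero (groupCohomology (Rep.res H.subtype C') 1) ∧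
    Nat.card (groupCohomology (Rep.res H.subtype C') 2) = Nat.card H ∧
    ∀ y : groupCohomology (Rep.res H.subtype C') 2,
      ∃ k : ℤ, y = k • (Coh.rest C' H 2).hom ((groupCohomology.map (MonoidHom.id G) φ 2).hom σ) := by
  refine ⟨?_, ?_, fun y => ?_⟩
  · have : Subsingleton (groupCohomology (Rep.res H.subtype C) 1) :=
      ModuleCat.subsingleton_of_isZero h1
    have : Subsingleton (groupCohomology (Rep.res H.subtype C') 1) :=
      ⟨fun a b => by
        obtain ⟨a', rfl⟩ := hb1.2 a
        obtain ⟨b', rfl⟩ := hb1.2 b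
        exact congrArg _
          (Subsingleton.elim (α := groupCohomology (Rep.res H.subtype C) 1) a' b')⟩
    exact ModuleCat.isZero_of_subsingleton _
  · rw [← hcard]
    exact (Nat.card_congr (Equiv.ofBijective _ hb2)).symm
  · obtain ⟨y', rfl⟩ := hb2.2 y
    obtain ⟨k, hk⟩ := hgen y'
    refine ⟨k, ?_⟩
    -- naturality of restriction in the coefficients
    have e1 : Coh.rest C H 2 ≫
        (groupCohomology.functor ℤ H 2).map ((Rep.resFunctor H.subtype).map φ) =
        groupCohomology.map H.subtype ((Rep.resFunctor H.subtype).map φ) 2 :=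
      (map_comp H.subtype (MonoidHom.id H) (𝟙 _) ((Rep.resFunctor H.subtype).map φ) 2).symm.trans
        (map_congr rfl rfl 2)
    have e2 : groupCohomology.map (MonoidHom.id G) φ 2 ≫ Coh.rest C' H 2 =
        groupCohomology.map H.subtype ((Rep.resFunctor H.subtype).map φ) 2 :=
      (map_comp (MonoidHom.id G) H.subtype φ (𝟙 _) 2).symm.trans (map_congr rfl rfl 2)
    have e3 : ((groupCohomology.functor ℤ H 2).map ((Rep.resFunctor H.subtype).map φ)).hom
        ((Coh.rest C H 2).hom σ) =
        (Coh.rest C' H 2).hom ((groupCohomology.map (MonoidHom.id G) φ 2).hom σ) :=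
      congrArg (fun f => f.hom σ) (e1.trans e2.symm)
    rw [← e3, hk]
    exact map_zsmul
      ((groupCohomology.functor ℤ H 2).map ((Rep.resFunctor H.subtype).map φ)).hom k _

/-- Cocycle form of the injectivity of `H²(G, A) → H²(G, B)`. -/
theorem coboundary_of_injective {A B : Rep.{0} ℤ G} (φ : A ⟶ B)
    (hinj : Function.Injective ((groupCohomology.functor ℤ G 2).map φ).hom)
    (τ : cocycles₂ A) (h : (fun x : G × G => φ.hom (τ x)) ∈ coboundaries₂ B) :
    ⇑τ ∈ coboundaries₂ A := by
  have e : (⇑(mapCocycles₂ (MonoidHom.id G) φ τ) : G × G → B) =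
      fun x : G × G => φ.hom (τ x) := rfl
  have key : ((groupCohomology.functor ℤ G 2).map φ).hom (H2π _ τ) = 0 :=
    (H2π_comp_map_apply (MonoidHom.id G) φ τ).trans ((H2π_eq_zero_iff _).2 (by rw [e]; exact h))
  exact (H2π_eq_zero_iff τ).1 (hinj (key.trans (map_zero _).symm))

end Generic

/-! ## The exports -/

section Exports

/-- **(E1)** `C_L` is a `p`-class module: the cocycle form of `Plan.ClassFormationP`. -/
theorem exists_pClassModule (hF : Plan.ClassFormationP) (p : ℕ) [Fact p.Prime] (hp : p ≠ 2)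
    (G L : Type) [Group G] [Fintype G] [Field L] [NumberField L] [MulSemiringAction G L]
    [FaithfulSMul G L] :
    ∃ σ : cocycles₂ (classRep G L), IsPClassModule p (classRep G L) σ := by
  obtain ⟨σ, hσ⟩ := hF p hp G L
  obtain ⟨σ₀, rfl⟩ : ∃ σ₀ : cocycles₂ (classRep G L), H2π _ σ₀ = σ :=
    H2_induction_on (C := fun x => ∃ σ₀ : cocycles₂ (classRep G L), H2π _ σ₀ = x) σ
      (fun σ₀ => ⟨σ₀, rfl⟩)
  exact ⟨σ₀, isPClassModule_of_H2 p _ σ₀ fun H hH => hσ H hH⟩

/-- **(E2)** `C_S(L)` is a `p`-class module for `L` unramified outside `S ≠ ∅`: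
`ExistPlan.SClassModule` ([EX.g]) from `Plan.ClassFormationP` and `Plan.SClassCompare`. -/
theorem sClassModule (hF : Plan.ClassFormationP) (hG3 : Plan.SClassCompare) :
    ExistPlan.SClassModule := by
  intro p _ hp G L _ _ _ _ _ _ S hS hUn
  obtain ⟨σ, hσ⟩ := hF p hp G L
  obtain ⟨σS, hσS⟩ : ∃ σS : cocycles₂ (classRepS G L S), H2π _ σS =
      (groupCohomology.map (MonoidHom.id G) (classToClassS G L S) 2).hom σ :=
    H2_induction_on (C := fun x => ∃ σ₀ : cocycles₂ (classRepS G L S), H2π _ σ₀ = x) _
      (fun σ₀ => ⟨σ₀, rfl⟩)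
  refine ⟨σS, isPClassModule_of_H2 p _ σS fun H hH => ?_⟩
  rw [hσS]
  let _ : Fintype ↥H := Fintype.ofFinite _
  have hcmp := (hG3 (↥H) L S hS hUn).1
  obtain ⟨h1, hcard, hgen⟩ := hσ H hH
  exact h2Form_of_bijective (classRep G L) (classRepS G L S) (classToClassS G L S) σ H
    (hcmp 1 le_rfl) (hcmp 2 (by norm_num)) h1 hcard hgen

/-- **[LGI]** Local–global injectivity for the `S`-idele class module: for a `p`-group Galois
pair `(G, L)` with `L` unramified outside `S ≠ ∅`, the map
`H²(G, ∏_{w' ∈ G·w} L_{w'}ˣ) → H²(G, C_S(L))` is injective. -/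
theorem localGlobalInjS (hF2 : Plan.LocalGlobalInj) (hG3 : Plan.SClassCompare)
    (p : ℕ) [Fact p.Prime] (hp : p ≠ 2)
    (G L : Type) [Group G] [Fintype G] [Field L] [NumberField L] [MulSemiringAction G L]
    [FaithfulSMul G L] (hG : IsPGroup p G) (S : Finset Nat.Primes) (hS : S.Nonempty)
    (hUn : UnramOutside S L) (q : Nat.Primes) (m : Ideal (SemiLocal L q)) (hm : m.IsMaximal) :
    Function.Injective ((groupCohomology.functor ℤ G 2).map (orbitToClassS G L q m S)).hom := by
  have e : orbitToClassS G L q m S = orbitToClass G L q m ≫ classToClassS G L S := rfl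
  rw [e, Functor.map_comp]
  exact ((hG3 G L S hS hUn).1 2 (by norm_num)).1.comp (hF2 p hp G L hG q m hm)

/-- **[LGI]**, cocycle form: a `2`-cocycle of a `p`-group `G` with values in the block
`∏_{w' ∈ G·w} L_{w'}ˣ` whose image in `C_S(L)` is a coboundary is a coboundary. -/
theorem localGlobalInjS_cocycle (hF2 : Plan.LocalGlobalInj) (hG3 : Plan.SClassCompare)
    (p : ℕ) [Fact p.Prime] (hp : p ≠ 2)
    (G L : Type) [Group G] [Fintype G] [Field L] [NumberField L] [MulSemiringAction G L]
    [FaithfulSMul G L] (hG : IsPGroup p G) (S : Finset Nat.Primes) (hS : S.Nonempty)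
    (hUn : UnramOutside S L) (q : Nat.Primes) (m : Ideal (SemiLocal L q)) (hm : m.IsMaximal)
    (τ : cocycles₂ (orbitRep G L q m))
    (h : (fun x : G × G => (orbitToClassS G L q m S).hom (τ x)) ∈
      coboundaries₂ (classRepS G L S)) :
    ⇑τ ∈ coboundaries₂ (orbitRep G L q m) :=
  coboundary_of_injective (orbitToClassS G L q m S)
    (localGlobalInjS hF2 hG3 p hp G L hG S hS hUn q m hm) τ h

end Exports

end Fermat.Agent.CFT.Glob.ClassExport
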