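import Mathlib
import Fermat.Agent.CFT.Coh.InfRes2

/-!
# `p`-class modules for non-`p` Galois groups: the abstract descent (cocycle level)

Pure algebra on functions `G × G → V` in the vocabulary of `Coh/InfRes2` (`IsCoc ρ F`,
`dOne ρ x`, `H1Van ρ S`).

* `descent_exists`, `descent_injective`, `descent_injective_one`: inflation–restriction in
  degrees `≤ 2` for a SURJECTION `π : Gt →* G` together with a "Galois descent"
  `j : C → A` (injective, equivariant, with range the `ker π`-invariants), instead of the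
  literal quotient `G ⧸ S` and invariants `A^S`.
* `IsClassCoc ρ s`: cocycle form of the class-module axioms at one group
  (`H¹ = 0`, `s` generates `H²`, `s` has order at least `|H|`).
* `classCoc_descent`: one layer (`Gt` a `p`-group in the application).
* `class_of_pLayers`: the theorem for a non-`p` group `G = Gt / N`.
-/

set_option autoImplicit false

namespace Fermat.Agent.CFT.Glob.ClassP

open Fermat.Agent.CFT.Coh.InfRes2Core

section Basic

variable {k H V : Type*} [CommRing k] [Group H] [AddCommGroup V] [Module k V]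
  (ρ : Representation k H V)

lemma dOne_add_apply (x y : H → V) (g h : H) :
    dOne ρ (x + y) (g, h) = dOne ρ x (g, h) + dOne ρ y (g, h) := by
  simp only [dOne_apply, Pi.add_apply, map_add]
  abel

lemma dOne_sub_apply (x y : H → V) (g h : H) :
    dOne ρ (x - y) (g, h) = dOne ρ x (g, h) - dOne ρ y (g, h) := by
  simp only [dOne_apply, Pi.sub_apply, map_sub]
  abel

lemma dOne_zsmul_apply (z : ℤ) (x : H → V) (g h : H) :
    dOne ρ (z • x) (g, h) = z • dOne ρ x (g, h) := by
  simp only [dOne_apply, Pi.smul_apply, map_zsmul, smul_add, smul_sub]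

lemma isCoc_zsmul {F : H × H → V} (hF : IsCoc ρ F) (z : ℤ) : IsCoc ρ (z • F) := by
  intro g h j
  have e := hF g h j
  simp only [Pi.smul_apply, map_zsmul]
  rw [← smul_add, ← smul_add, e]

lemma isCoc_sub {F F' : H × H → V} (hF : IsCoc ρ F) (hF' : IsCoc ρ F') : IsCoc ρ (F - F') := by
  intro g h j
  have e := hF g h j
  have e' := hF' g h j
  simp only [Pi.sub_apply, map_sub]
  linear_combination (norm := abel) e - e'

/-- For a `2`-cocycle `F`: `F (1, b) = F (1, 1)`. -/
lemma isCoc_one_left {F : H × H → V} (hF : IsCoc ρ F) (b : H) : F (1, b) = F (1, 1) := by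
  have e := hF 1 1 b
  simp only [one_mul, map_one, Module.End.one_apply] at e
  exact (add_left_cancel e).symm

/-- For a `2`-cocycle `F`: `F (a, 1) = a • F (1, 1)`. -/
lemma isCoc_one_right {F : H × H → V} (hF : IsCoc ρ F) (a : H) : F (a, 1) = ρ a (F (1, 1)) := by
  have e := hF a 1 1
  simp only [mul_one] at e
  exact add_right_cancel e

/-- `H²` of a finite group is killed by the order of the group (explicit averaging). -/
theorem card_zsmul_eq_dOne [Finite H] {F : H × H → V} (hF : IsCoc ρ F) :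
    ∃ x : H → V, ∀ a b, (Nat.card H : ℤ) • F (a, b) = dOne ρ x (a, b) := by
  classical
  have : Fintype H := Fintype.ofFinite H
  refine ⟨fun g => ∑ h : H, F (g, h), fun a b => ?_⟩
  simp only [dOne_apply, map_sum]
  rw [← Finset.sum_sub_distrib, ← Finset.sum_add_distrib]
  have h1 : ∀ h : H, ρ a (F (b, h)) - F (a * b, h) + F (a, h)
      = F (a, b) - F (a, b * h) + F (a, h) := by
    intro h
    have e := hF a b h
    linear_combination (norm := abel) -e
  rw [Finset.sum_congr rfl (fun h _ => h1 h), Finset.sum_add_distrib, Finset.sum_sub_distrib]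
  have h2 : ∑ h : H, F (a, b * h) = ∑ h : H, F (a, h) :=
    Fintype.sum_equiv (Equiv.mulLeft b) _ _ (fun h => rfl)
  rw [h2, Finset.sum_const, Finset.card_univ, Nat.card_eq_fintype_card, natCast_zsmul]
  abel

end Basic

section Descent

variable {k Gt G A C : Type*} [CommRing k] [Group Gt] [Group G]
  [AddCommGroup A] [Module k A] [AddCommGroup C] [Module k C]
  (ρA : Representation k Gt A) (ρC : Representation k G C) (π : Gt →* G) (j : C →+ A)

/-- Inflation of a coboundary along `(π, j)` is the coboundary of the inflated cochain. -/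
lemma infl_dOne (hjπ : ∀ g c, j (ρC (π g) c) = ρA g (j c)) (y : G → C) (g h : Gt) :
    j (dOne ρC y (π g, π h)) = dOne ρA (fun g => j (y (π g))) (g, h) := by
  simp only [dOne_apply, map_add, map_sub, hjπ, map_mul]

/-- Inflation of a `2`-cocycle along `(π, j)` is a `2`-cocycle. -/
lemma isCoc_infl (hjπ : ∀ g c, j (ρC (π g) c) = ρA g (j c)) {τ : G × G → C}
    (hτ : IsCoc ρC τ) : IsCoc ρA (fun q : Gt × Gt => j (τ (π q.1, π q.2))) := by
  intro g h l
  have e := congrArg j (hτ (π g) (π h) (π l))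
  simp only [map_add, hjπ, ← map_mul] at e
  exact e

/-- **Inflation–restriction, existence, for a surjection with descent.**  A `2`-cocycle `X`
of `Gt` in `A` whose restriction to `ker π` is a coboundary is cohomologous to the inflation
of a `2`-cocycle of `G` in `C`. -/
theorem descent_exists (hπ : Function.Surjective π) (hj : Function.Injective j)
    (hjπ : ∀ g c, j (ρC (π g) c) = ρA g (j c))
    (hjr : ∀ a : A, (∀ n ∈ π.ker, ρA n a = a) → ∃ c, j c = a)
    (h1 : H1Van ρA π.ker) (X : Gt × Gt → A) (hX : IsCoc ρA X) (u : π.ker → A)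
    (hu : ∀ n m : π.ker, X ((n : Gt), (m : Gt)) = ρA n (u m) - u (n * m) + u n) :
    ∃ (σ : G × G → C) (x : Gt → A), IsCoc ρC σ ∧
      ∀ g h, j (σ (π g, π h)) = X (g, h) + dOne ρA x (g, h) := by
  obtain ⟨x, hF, hl, hr, hinv⟩ := exists_inflated ρA π.ker h1 X hX u hu
  have key : ∀ g g' h h', π g = π g' → π h = π h' →
      (X + dOne ρA x) (g, h) = (X + dOne ρA x) (g', h') := by
    intro g g' h h' e1 e2
    have m1 : g⁻¹ * g' ∈ π.ker := by
      rw [MonoidHom.mem_ker, map_mul, map_inv, e1, inv_mul_cancel]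
    have m2 : h⁻¹ * h' ∈ π.ker := by
      rw [MonoidHom.mem_ker, map_mul, map_inv, e2, inv_mul_cancel]
    have a1 := hl g h _ m1
    have a2 := hr g' h _ m2
    rw [mul_inv_cancel_left] at a1 a2
    rw [← a1, a2]
  choose cfun hcfun using fun (g h : Gt) => hjr ((X + dOne ρA x) (g, h))
    (fun n hn => hinv g h n hn)
  have hσ : ∀ g h, j (cfun (Function.surjInv hπ (π g)) (Function.surjInv hπ (π h)))
      = (X + dOne ρA x) (g, h) := by
    intro g h
    rw [hcfun]
    exact key _ _ _ _ (Function.surjInv_eq hπ _) (Function.surjInv_eq hπ _)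
  refine ⟨fun q => cfun (Function.surjInv hπ q.1) (Function.surjInv hπ q.2), x, ?_, ?_⟩
  · intro a b c
    obtain ⟨ga, rfl⟩ := hπ a
    obtain ⟨gb, rfl⟩ := hπ b
    obtain ⟨gc, rfl⟩ := hπ c
    apply hj
    simp only [map_add, hjπ, ← map_mul, hσ]
    exact hF ga gb gc
  · intro g h
    simp only [hσ, Pi.add_apply]

/-- **Inflation is injective on `H²`, for a surjection with descent.** -/
theorem descent_injective (hπ : Function.Surjective π) (hj : Function.Injective j)
    (hjπ : ∀ g c, j (ρC (π g) c) = ρA g (j c))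
    (hjr : ∀ a : A, (∀ n ∈ π.ker, ρA n a = a) → ∃ c, j c = a)
    (h1 : H1Van ρA π.ker) (τ : G × G → C) (hτ : IsCoc ρC τ) (x : Gt → A)
    (hx : ∀ g h, j (τ (π g, π h)) = dOne ρA x (g, h)) :
    ∃ y : G → C, ∀ a b, τ (a, b) = dOne ρC y (a, b) := by
  have hc : ∀ n ∈ π.ker, ρA n (j (τ (1, 1))) = j (τ (1, 1)) := by
    intro n hn
    rw [← hjπ, MonoidHom.mem_ker.mp hn, map_one, Module.End.one_apply]
  obtain ⟨y', hy', hy'r, hy'inv⟩ := exists_descended ρA π.ker h1
    (fun q => j (τ (π q.1, π q.2))) x (fun g h => by rw [hx, dOne_apply]) (j (τ (1, 1))) hc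
    (fun n hn g => by
      show j (τ (π n, π g)) = j (τ (1, 1))
      rw [MonoidHom.mem_ker.mp hn, isCoc_one_left ρC hτ])
    (fun n hn g => by
      show j (τ (π g, π n)) = ρA g (j (τ (1, 1)))
      rw [MonoidHom.mem_ker.mp hn, isCoc_one_right ρC hτ, hjπ])
  choose yfun hyfun using fun g : Gt => hjr (y' g) (fun n hn => hy'inv g n hn)
  have hy : ∀ g, j (yfun (Function.surjInv hπ (π g))) = y' g := by
    intro g
    rw [hyfun]
    have m1 : g⁻¹ * Function.surjInv hπ (π g) ∈ π.ker := by
      rw [MonoidHom.mem_ker, map_mul, map_inv, Function.surjInv_eq hπ, inv_mul_cancel]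
    have := hy'r g _ m1
    rw [mul_inv_cancel_left] at this
    exact this
  refine ⟨fun a => yfun (Function.surjInv hπ a), fun a b => ?_⟩
  obtain ⟨ga, rfl⟩ := hπ a
  obtain ⟨gb, rfl⟩ := hπ b
  apply hj
  have e := hy' ga gb
  simp only at e
  rw [e, dOne_apply, map_add, map_sub, hjπ, ← map_mul, hy, hy, hy]

/-- Inflation is injective on `H¹`, for a surjection with descent. -/
theorem descent_injective_one (hπ : Function.Surjective π) (hj : Function.Injective j)
    (hjπ : ∀ g c, j (ρC (π g) c) = ρA g (j c))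
    (hjr : ∀ a : A, (∀ n ∈ π.ker, ρA n a = a) → ∃ c, j c = a)
    (c : G → C) (hc : ∀ a b, c (a * b) = ρC a (c b) + c a) (v : A)
    (hv : ∀ g, j (c (π g)) = ρA g v - v) : ∃ c₀ : C, ∀ a, c a = ρC a c₀ - c₀ := by
  have c1 : c 1 = 0 := by
    have := hc 1 1
    simpa using this
  obtain ⟨c₀, hc₀⟩ := hjr v (fun n hn => by
    have := hv n
    rw [MonoidHom.mem_ker.mp hn, c1, map_zero] at this
    exact (sub_eq_zero.mp this.symm))
  refine ⟨c₀, fun a => ?_⟩
  obtain ⟨g, rfl⟩ := hπ a
  apply hj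
  rw [hv, map_sub, hjπ, hc₀]

end Descent

section ClassCoc

/-- Cocycle form of the class-module axioms at one group `H` acting on `V` through `ρ`:
`s` is a `2`-cocycle, `H¹(H, V) = 0`, the class of `s` generates `H²(H, V)`, and it has
order at least `|H|`. -/
def IsClassCoc {k H V : Type*} [CommRing k] [Group H] [AddCommGroup V] [Module k V]
    (ρ : Representation k H V) (s : H × H → V) : Prop :=
  IsCoc ρ s ∧
  (∀ c : H → V, (∀ a b, c (a * b) = ρ a (c b) + c a) → ∃ v : V, ∀ a, c a = ρ a v - v) ∧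
  (∀ T : H × H → V, IsCoc ρ T →
    ∃ (m : ℤ) (b : H → V), ∀ x y, T (x, y) = m • s (x, y) + dOne ρ b (x, y)) ∧
  (∀ m : ℤ, (∃ b : H → V, ∀ x y, m • s (x, y) = dOne ρ b (x, y)) → (Nat.card H : ℤ) ∣ m)

variable {k Gt G A C : Type*} [CommRing k] [Group Gt] [Finite Gt] [Group G]
  [AddCommGroup A] [Module k A] [AddCommGroup C] [Module k C]
  (ρA : Representation k Gt A) (ρC : Representation k G C) (π : Gt →* G) (j : C →+ A)

/-- **One layer.**  `π : Gt →* G` a surjection with descent `j`, `s` a class cocycle of `Gt`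
whose restriction to `ker π` has order at least `nN = |ker π|`, `σ₀` a `2`-cocycle of `G` whose
inflation is cohomologous to `(c * nN) • s` with `c * c' ≡ 1` modulo `|Gt|`.  Then `c' • σ₀`
is a class cocycle of `G`, and it is cohomologous to every `2`-cocycle `sG` of `G` whose
inflation is cohomologous to `nN • s`. -/
theorem classCoc_descent (hπ : Function.Surjective π) (hj : Function.Injective j)
    (hjπ : ∀ g c, j (ρC (π g) c) = ρA g (j c))
    (hjr : ∀ a : A, (∀ n ∈ π.ker, ρA n a = a) → ∃ c, j c = a)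
    (h1 : H1Van ρA π.ker)
    (s : Gt × Gt → A) (hs : IsClassCoc ρA s)
    (nN : ℕ) (hcard : Nat.card Gt = nN * Nat.card G)
    (hsN : ∀ m : ℤ, (∃ b : Gt → A, ∀ n n' : Gt, π n = 1 → π n' = 1 →
        m • s (n, n') = ρA n (b n') - b (n * n') + b n) → (nN : ℤ) ∣ m)
    (c c' : ℤ) (hcc : (Nat.card Gt : ℤ) ∣ c * c' - 1)
    (σ₀ : G × G → C) (hσ₀ : IsCoc ρC σ₀)
    (hσs : ∃ b : Gt → A, ∀ g h,
      j (σ₀ (π g, π h)) = (c * nN) • s (g, h) + dOne ρA b (g, h)) :
    IsClassCoc ρC (c' • σ₀) ∧
    ∀ sG : G × G → C, IsCoc ρC sG →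
      (∃ b : Gt → A, ∀ g h, j (sG (π g, π h)) = (nN : ℤ) • s (g, h) + dOne ρA b (g, h)) →
      ∃ y : G → C, ∀ a b, (c' • σ₀) (a, b) = sG (a, b) + dOne ρC y (a, b) := by
  obtain ⟨hsc, hsh1, hsgen, hsord⟩ := hs
  obtain ⟨b₁, hb₁⟩ := hσs
  obtain ⟨t, ht⟩ := hcc
  obtain ⟨xs, hxs⟩ := card_zsmul_eq_dOne ρA hsc
  have hσ' : IsCoc ρC (c' • σ₀) := isCoc_zsmul ρC hσ₀ c'
  have hnN : (nN : ℤ) ≠ 0 := by
    have hpos : 0 < Nat.card Gt := Nat.card_pos
    rw [hcard] at hpos
    have : nN ≠ 0 := fun h => by simp [h] at hpos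
    exact_mod_cast this
  refine ⟨⟨hσ', ?_, ?_, ?_⟩, ?_⟩
  · -- `H¹ = 0`
    intro c₁ hc₁
    obtain ⟨v, hv⟩ := hsh1 (fun g => j (c₁ (π g))) (fun a b => by
      simp only [map_mul, hc₁, map_add, hjπ])
    exact descent_injective_one ρA ρC π j hπ hj hjπ hjr c₁ hc₁ v hv
  · -- generation
    intro T hT
    obtain ⟨m, b, hmb⟩ := hsgen _ (isCoc_infl ρA ρC π j hjπ hT)
    have hdvd : (nN : ℤ) ∣ m := by
      apply hsN
      refine ⟨fun g => j (T (1, 1)) - b g, fun n n' hn hn' => ?_⟩
      have e := hmb n n'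
      simp only [hn, hn'] at e
      have hinv : ρA n (j (T (1, 1))) = j (T (1, 1)) := by
        rw [← hjπ, hn, map_one, Module.End.one_apply]
      rw [dOne_apply] at e
      simp only [map_sub, hinv]
      linear_combination (norm := abel) -e
    obtain ⟨m', rfl⟩ := hdvd
    have hτ : IsCoc ρC (T - m' • (c' • σ₀)) := isCoc_sub ρC hT (isCoc_zsmul ρC hσ' m')
    obtain ⟨y, hy⟩ := descent_injective ρA ρC π j hπ hj hjπ hjr h1 _ hτ
      ((-(m' * nN * t)) • xs + b - (m' * c') • b₁) (fun g h => by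
        have e1 := hmb g h
        have e2 := hb₁ g h
        have e3 := hxs g h
        simp only at e1
        simp only [Pi.sub_apply, Pi.smul_apply, map_sub, map_zsmul]
        rw [dOne_sub_apply, dOne_add_apply, dOne_zsmul_apply, dOne_zsmul_apply]
        linear_combination (norm := module) e1 - (m' * c') • e2 - (m' * nN * t) • e3
          - (m' * nN) • ht • s (g, h))
    refine ⟨m', y, fun x y' => ?_⟩
    have e := hy x y'
    simp only [Pi.sub_apply, Pi.smul_apply] at e ⊢
    linear_combination (norm := abel) e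
  · -- order
    rintro m ⟨y, hy⟩
    have h2 : (Nat.card Gt : ℤ) ∣ m * c' * c * nN := by
      apply hsord
      refine ⟨(fun g => j (y (π g))) - (m * c') • b₁, fun g h => ?_⟩
      have e0 := congrArg j (hy (π g) (π h))
      rw [infl_dOne ρA ρC π j hjπ] at e0
      have e2 := hb₁ g h
      simp only [Pi.smul_apply, map_zsmul] at e0
      rw [dOne_sub_apply, dOne_zsmul_apply]
      linear_combination (norm := module) e0 - (m * c') • e2
    have h3 : (Nat.card Gt : ℤ) ∣ m * nN := by
      have e : m * c' * c * nN = m * nN + (Nat.card Gt : ℤ) * (m * nN * t) := by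
        linear_combination (m * nN) * ht
      rw [e] at h2
      exact (Int.dvd_add_left (dvd_mul_right _ _)).mp h2
    rw [hcard] at h3
    push_cast at h3
    rw [mul_comm m] at h3
    exact (mul_dvd_mul_iff_left hnN).mp h3
  · -- normalisation
    rintro sG hsG ⟨b₄, hb₄⟩
    have hτ : IsCoc ρC (c' • σ₀ - sG) := isCoc_sub ρC hσ' hsG
    obtain ⟨y, hy⟩ := descent_injective ρA ρC π j hπ hj hjπ hjr h1 _ hτ
      ((t * nN) • xs + c' • b₁ - b₄) (fun g h => by
        have e2 := hb₁ g h
        have e3 := hxs g h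
        have e4 := hb₄ g h
        simp only [Pi.sub_apply, Pi.smul_apply, map_sub, map_zsmul]
        rw [dOne_sub_apply, dOne_add_apply, dOne_zsmul_apply, dOne_zsmul_apply]
        linear_combination (norm := module) c' • e2 - e4 + (t * nN) • e3
          + (nN : ℤ) • ht • s (g, h))
    refine ⟨y, fun a b => ?_⟩
    have e := hy a b
    simp only [Pi.sub_apply, Pi.smul_apply] at e ⊢
    linear_combination (norm := abel) e

end ClassCoc

section Layers

variable {k Gt G A C : Type*} [CommRing k] [Group Gt] [Finite Gt] [Group G]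
  [AddCommGroup A] [Module k A] [AddCommGroup C] [Module k C]
  (ρA : Representation k Gt A) (ρC : Representation k G C) (π : Gt →* G) (j : C →+ A)

omit [Finite Gt] in
/-- The preimage of a subgroup under a surjection has `|ker| * |H|` elements. -/
lemma card_comap_eq [Finite Gt] (hπ : Function.Surjective π) (H : Subgroup G) :
    Nat.card (H.comap π) = Nat.card π.ker * Nat.card H := by
  have : Finite G := Finite.of_surjective π hπ
  have e1 : Nat.card Gt = (H.comap π).index * Nat.card (H.comap π) :=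
    (Subgroup.index_mul_card _).symm
  have e2 : (H.comap π).index = H.index := Subgroup.index_comap_of_surjective H hπ
  have e3 : Nat.card G = H.index * Nat.card H := (Subgroup.index_mul_card H).symm
  have e4 : Nat.card Gt = Nat.card (Gt ⧸ π.ker) * Nat.card π.ker :=
    Subgroup.card_eq_card_quotient_mul_card_subgroup _
  have e5 : Nat.card (Gt ⧸ π.ker) = Nat.card G :=
    Nat.card_congr (QuotientGroup.quotientKerEquivOfSurjective π hπ).toEquiv
  have hidx : H.index ≠ 0 := Subgroup.index_ne_zero_of_finite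
  apply Nat.eq_of_mul_eq_mul_left (Nat.pos_of_ne_zero hidx)
  rw [← e2, ← e1, e4, e5, e3, e2]
  ring

/-- **`p`-class module for a non-`p` group.**  `π : Gt →* G` a surjection of finite groups
with descent `j : C → A` and `ker π` a `p`-group (`Gt = Gal(LZ/K)`, `G = Gal(L/K)`,
`A = C_S(LZ)`, `C = C_S(L)`); for every `p`-subgroup `U ⊇ ker π` of `Gt` a class cocycle
`s U` of `U` in `A` (fundamental cocycle of the `p`-extension `LZ/(LZ)^U`) whose restriction to
`ker π` still has order at least `|ker π|`; `X` a `2`-cocycle of `Gt` in `A` (inflation of the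
fundamental cocycle of a cyclic `Z/K` of degree `|G|_p`) with `X|U ∼ (c * |ker π|) • s U` for
all these `U`, where `p ∤ c` (base-change law).

Then there is a `2`-cocycle `σ` of `G` in `C` which is a class cocycle on EVERY `p`-subgroup
`H ≤ G`, and whose restriction to `H` is cohomologous to every `2`-cocycle `sH` of `H` with
`inflation(sH) ∼ |ker π| • s (π⁻¹ H)` (i.e. to the fundamental cocycle of `L/L^H`). -/
theorem class_of_pLayers (p : ℕ) [Fact p.Prime]
    (hπ : Function.Surjective π) (hj : Function.Injective j)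
    (hjπ : ∀ g c, j (ρC (π g) c) = ρA g (j c))
    (hjr : ∀ a : A, (∀ n ∈ π.ker, ρA n a = a) → ∃ c, j c = a)
    (hN : IsPGroup p π.ker)
    (X : Gt × Gt → A) (hX : IsCoc ρA X) (c : ℤ) (hc : ¬ (p : ℤ) ∣ c)
    (s : ∀ U : Subgroup Gt, U × U → A)
    (hs : ∀ U : Subgroup Gt, IsPGroup p U → ∀ hNU : π.ker ≤ U,
      IsClassCoc (ρA.comp U.subtype) (s U) ∧
      (∀ m : ℤ, (∃ b : Gt → A, ∀ (n n' : Gt) (hn : π n = 1) (hn' : π n' = 1),
          m • s U (⟨n, hNU (MonoidHom.mem_ker.mpr hn)⟩, ⟨n', hNU (MonoidHom.mem_ker.mpr hn')⟩)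
            = ρA n (b n') - b (n * n') + b n) →
        (Nat.card π.ker : ℤ) ∣ m) ∧
      (∃ b : U → A, ∀ g h : U, X ((g : Gt), (h : Gt)) =
          (c * Nat.card π.ker) • s U (g, h) + dOne (ρA.comp U.subtype) b (g, h))) :
    ∃ σ : G × G → C, IsCoc ρC σ ∧ ∀ H : Subgroup G, IsPGroup p H →
      IsClassCoc (ρC.comp H.subtype) (fun q : H × H => σ ((q.1 : G), (q.2 : G))) ∧
      ∀ sH : H × H → C, IsCoc (ρC.comp H.subtype) sH →
        (∃ b : H.comap π → A, ∀ u u' : H.comap π,
          j (sH (π.subgroupComap H u, π.subgroupComap H u')) =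
            (Nat.card π.ker : ℤ) • s (H.comap π) (u, u')
              + dOne (ρA.comp (H.comap π).subtype) b (u, u')) →
        ∃ y : H → C, ∀ a b : H,
          σ ((a : G), (b : G)) = sH (a, b) + dOne (ρC.comp H.subtype) y (a, b) := by
  classical
  have hp : p.Prime := Fact.out
  -- a global inverse of `c` modulo the orders of all `p`-subgroups
  obtain ⟨c', hc'⟩ : ∃ c' : ℤ, ∀ U : Subgroup Gt, IsPGroup p U →
      (Nat.card U : ℤ) ∣ c * c' - 1 := by
    have hcop : IsCoprime c ((p : ℤ) ^ (Nat.card Gt).factorization p) :=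
      IsCoprime.pow_right
        ((Nat.prime_iff_prime_int.mp hp).irreducible.coprime_iff_not_dvd.mpr hc).symm
    obtain ⟨a, b, hab⟩ := hcop
    refine ⟨a, fun U hU => ?_⟩
    obtain ⟨n, hn⟩ := hU.exists_card_eq
    have h1 : p ^ n ∣ Nat.card Gt := hn ▸ Subgroup.card_subgroup_dvd_card U
    have h2 : n ≤ (Nat.card Gt).factorization p :=
      (hp.pow_dvd_iff_le_factorization Nat.card_pos.ne').mp h1
    have h3 : ((Nat.card U : ℕ) : ℤ) ∣ (p : ℤ) ^ (Nat.card Gt).factorization p := by
      rw [hn]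
      push_cast
      exact pow_dvd_pow _ h2
    have e : c * a - 1 = -b * (p : ℤ) ^ (Nat.card Gt).factorization p := by
      linear_combination hab
    rw [e]
    exact Dvd.dvd.mul_left h3 _
  -- the bottom layer `U = ker π`
  obtain ⟨hsN, -, bN, hbN⟩ := hs π.ker hN le_rfl
  have h1 : H1Van ρA π.ker := fun c₁ hc₁ => hsN.2.1 c₁ (fun a b => hc₁ a b)
  obtain ⟨xN, hxN⟩ := card_zsmul_eq_dOne (ρA.comp π.ker.subtype) hsN.1
  obtain ⟨σ₀, x₀, hσ₀, hσx⟩ := descent_exists ρA ρC π j hπ hj hjπ hjr h1 X hX (c • xN + bN)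
    (fun n m => by
      have e1 := hbN n m
      have e2 := hxN n m
      show X ((n : Gt), (m : Gt)) = dOne (ρA.comp π.ker.subtype) (c • xN + bN) (n, m)
      rw [dOne_add_apply, dOne_zsmul_apply]
      linear_combination (norm := module) e1 + c • e2)
  refine ⟨c' • σ₀, isCoc_zsmul ρC hσ₀ c', fun H hH => ?_⟩
  -- the layer `U = π⁻¹ H`
  have hNU : π.ker ≤ H.comap π := fun n hn => by
    rw [Subgroup.mem_comap, MonoidHom.mem_ker.mp hn]
    exact one_mem H
  have hU : IsPGroup p (H.comap π) := hH.comap_of_ker_isPGroup π hN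
  obtain ⟨hsU, hsUord, bU, hbU⟩ := hs (H.comap π) hU hNU
  have key := classCoc_descent (ρA.comp (H.comap π).subtype) (ρC.comp H.subtype)
    (π.subgroupComap H) j (π.subgroupComap_surjective_of_surjective H hπ) hj
    (fun g c => hjπ g c)
    (fun a ha => hjr a (fun n hn => ha ⟨n, hNU hn⟩ (by
      rw [MonoidHom.mem_ker]
      exact Subtype.ext (MonoidHom.mem_ker.mp hn))))
    (fun c₁ hc₁ => by
      have hmem : ∀ n : π.ker, (⟨(n : Gt), hNU n.2⟩ : H.comap π) ∈ (π.subgroupComap H).ker :=
        fun n => by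
          rw [MonoidHom.mem_ker]
          exact Subtype.ext (MonoidHom.mem_ker.mp n.2)
      obtain ⟨a, ha⟩ := h1 (fun n => c₁ ⟨⟨(n : Gt), hNU n.2⟩, hmem n⟩)
        (fun n m => hc₁ ⟨⟨(n : Gt), hNU n.2⟩, hmem n⟩ ⟨⟨(m : Gt), hNU m.2⟩, hmem m⟩)
      refine ⟨a, fun n => ?_⟩
      have hn : ((n : H.comap π) : Gt) ∈ π.ker := by
        have := MonoidHom.mem_ker.mp n.2
        rw [MonoidHom.mem_ker]
        exact congrArg Subtype.val this
      exact ha ⟨((n : H.comap π) : Gt), hn⟩)
    (s (H.comap π)) hsU (Nat.card π.ker) (card_comap_eq π hπ H)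
    (fun m ⟨b, hb⟩ => hsUord m ⟨fun g => if h : g ∈ H.comap π then b ⟨g, h⟩ else 0,
      fun n n' hn hn' => by
        have hnU : n ∈ H.comap π := hNU (MonoidHom.mem_ker.mpr hn)
        have hn'U : n' ∈ H.comap π := hNU (MonoidHom.mem_ker.mpr hn')
        have hmul : n * n' ∈ H.comap π := mul_mem hnU hn'U
        have e := hb ⟨n, hnU⟩ ⟨n', hn'U⟩ (Subtype.ext hn) (Subtype.ext hn')
        simp only [dif_pos hn'U, dif_pos hmul, dif_pos hnU]
        exact e⟩)
    c c' (hc' _ hU) (fun q => σ₀ ((q.1 : G), (q.2 : G))) (fun a b d => hσ₀ a b d)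
    ⟨bU + (fun u : H.comap π => x₀ (u : Gt)), fun g h => by
      have e1 := hσx (g : Gt) (h : Gt)
      have e2 := hbU g h
      have e3 : dOne (ρA.comp (H.comap π).subtype) (fun u : H.comap π => x₀ (u : Gt)) (g, h)
          = dOne ρA x₀ ((g : Gt), (h : Gt)) := rfl
      rw [dOne_add_apply, e3]
      show j (σ₀ (π (g : Gt), π (h : Gt))) = _
      linear_combination (norm := abel) e1 + e2⟩
  exact key

end Layers

end Fermat.Agent.CFT.Glob.ClassP
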