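import Mathlib
import Fermat.Agent.CFT.Coh.Defs
import Fermat.Agent.CFT.Coh.InfRes2
import Fermat.Agent.CFT.Glob.ClassP
import Fermat.Agent.CFT.Global.Plan

/-!
# P3 / CFT, layer Global: `ClassFormationP` from the cyclotomic crossing ([F1])

`classFormationP_of_crossing :
  Plan.PGroupAxiom → Plan.CycloCrossing → Plan.ClassDescent → Plan.ClassFormationP`.

Proof.  Let `(G, L)` be a Galois pair and `(G', L', f, π, X)` the crossing datum:
`X ∈ H²(G', C_{L'})` dies on `N = ker π` (a `p`-group) and has order at least `|U| / |N|` on every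
`p`-subgroup `U ⊇ N`.  `H¹(N, C_{L'}) = 0` (`PGroupAxiom` for `(N, L')`) and Galois descent
(`ClassDescent`) give, by inflation–restriction in cocycle form (`ClassP.descent_exists`), a
`2`-cocycle `σ₀` of `G` in `C_L` whose inflation is cohomologous to `X`.  For a `p`-subgroup
`H ≤ G` put `U = π⁻¹ H`: if `k • σ₀|_H` is a coboundary, so is `k • X|_U`, hence
`|U| ∣ k · |N|`, i.e. `|H| ∣ k`.  As `|H²(H, C_L)|` divides `|H|` (`PGroupAxiom` for `(H, L)`),
`H²(H, C_L)` is cyclic of order `|H|`, generated by the restriction of `[σ₀]`.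

The file has three parts: the abstract order transfer (plain functions), the dictionary between
`groupCohomology` and cocycles for the restriction to a subgroup, and the assembly.
-/

set_option autoImplicit false

namespace Fermat.Agent.CFT.Glob.ClassPField

open Fermat.Agent.CFT.Coh.InfRes2Core Fermat.Agent.CFT.Glob.ClassP

/-! ## Abstract order transfer -/

section Abstract

variable {k Gt G A C : Type*} [CommRing k] [Group Gt] [Group G]
  [AddCommGroup A] [Module k A] [AddCommGroup C] [Module k C]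
  (ρA : Representation k Gt A) (ρC : Representation k G C) (π : Gt →* G) (j : C →+ A)

/-- If the inflation of `σ₀` is cohomologous to `X` and `z • σ₀` is a coboundary on `H`, then
`z • X` is a coboundary on `π⁻¹ H`. -/
theorem comap_trivialisation (hjπ : ∀ g c, j (ρC (π g) c) = ρA g (j c))
    (σ₀ : G × G → C) (X : Gt × Gt → A) (x : Gt → A)
    (hσ : ∀ g h, j (σ₀ (π g, π h)) = X (g, h) + dOne ρA x (g, h))
    (H : Subgroup G) (z : ℤ) (y : H → C)
    (hy : ∀ a b : H, z • σ₀ ((a : G), (b : G)) = ρC a (y b) - y (a * b) + y a) :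
    ∃ b : H.comap π → A, ∀ g h : H.comap π,
      z • X ((g : Gt), (h : Gt)) = ρA g (b h) - b (g * h) + b g := by
  refine ⟨fun g => j (y ⟨π g, g.2⟩) - z • x g, fun g h => ?_⟩
  have e1 := congrArg j (hy ⟨π g, g.2⟩ ⟨π h, h.2⟩)
  have e2 : (⟨π g, g.2⟩ * ⟨π h, h.2⟩ : H) = ⟨π ((g : Gt) * (h : Gt)), (g * h).2⟩ :=
    Subtype.ext (by simp)
  rw [map_zsmul, hσ, map_add, map_sub, hjπ, e2, dOne_apply] at e1
  simp only [map_sub, map_zsmul, Subgroup.coe_mul]
  simp only [smul_add, smul_sub] at e1
  linear_combination (norm := abel) e1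

/-- **Order transfer.**  `X` has order at least `|U| / |ker π|` on every `p`-subgroup
`U ⊇ ker π`, and the inflation of `σ₀` is cohomologous to `X`: then `σ₀` has order at least
`|H|` on every `p`-subgroup `H`. -/
theorem order_of_crossing [Finite Gt] (p : ℕ) [Fact p.Prime] (hπ : Function.Surjective π)
    (hjπ : ∀ g c, j (ρC (π g) c) = ρA g (j c))
    (σ₀ : G × G → C) (X : Gt × Gt → A) (x : Gt → A)
    (hσ : ∀ g h, j (σ₀ (π g, π h)) = X (g, h) + dOne ρA x (g, h))
    (hker : IsPGroup p π.ker)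
    (hord : ∀ U : Subgroup Gt, IsPGroup p U → π.ker ≤ U → ∀ z : ℤ,
      (∃ b : U → A, ∀ g h : U, z • X ((g : Gt), (h : Gt)) = ρA g (b h) - b (g * h) + b g) →
      (Nat.card U : ℤ) ∣ z * Nat.card π.ker)
    (H : Subgroup G) (hH : IsPGroup p H) (z : ℤ) (y : H → C)
    (hy : ∀ a b : H, z • σ₀ ((a : G), (b : G)) = ρC a (y b) - y (a * b) + y a) :
    (Nat.card H : ℤ) ∣ z := by
  have hcard := card_comap_eq π hπ H
  have hU : IsPGroup p (H.comap π) := by
    have : Finite G := Finite.of_surjective π hπ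
    obtain ⟨a, ha⟩ := IsPGroup.iff_card.1 hker
    obtain ⟨b, hb⟩ := IsPGroup.iff_card.1 hH
    exact IsPGroup.of_card (n := a + b) (by rw [hcard, ha, hb, pow_add])
  have hle : π.ker ≤ H.comap π := fun g hg => by
    rw [Subgroup.mem_comap, MonoidHom.mem_ker.1 hg]
    exact H.one_mem
  have h := hord (H.comap π) hU hle z (comap_trivialisation ρA ρC π j hjπ σ₀ X x hσ H z y hy)
  rw [hcard] at h
  have hne : (Nat.card π.ker : ℤ) ≠ 0 := by
    have : Nat.card π.ker ≠ 0 := Nat.card_pos.ne'
    exact_mod_cast this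
  push_cast at h
  rw [mul_comm (Nat.card π.ker : ℤ)] at h
  exact Int.dvd_of_mul_dvd_mul_right hne h

/-- A finite abelian group whose order divides `n` and which contains an element of order at
least `n` (in the divisibility sense) is cyclic of order `n`, generated by this element. -/
theorem cyclic_of_order {M : Type*} [AddCommGroup M] (x : M) (n : ℕ) (hn : 0 < n)
    (hcard : Nat.card M ∣ n) (hord : ∀ z : ℤ, z • x = 0 → (n : ℤ) ∣ z) :
    Nat.card M = n ∧ ∀ y : M, ∃ z : ℤ, y = z • x := by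
  have hM : Nat.card M ≠ 0 := fun h0 => by
    rw [h0, zero_dvd_iff] at hcard
    omega
  have hfin : Finite M := Nat.finite_of_card_ne_zero hM
  have h1 : addOrderOf x ∣ Nat.card M := addOrderOf_dvd_natCard x
  have h2 : n ∣ addOrderOf x := by
    have := hord (addOrderOf x) (by rw [natCast_zsmul]; exact addOrderOf_nsmul_eq_zero x)
    exact_mod_cast this
  have h3 : addOrderOf x = Nat.card M :=
    Nat.dvd_antisymm h1 (hcard.trans h2)
  have h4 : Nat.card M = n := Nat.dvd_antisymm hcard (h2.trans h1)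
  refine ⟨h4, fun y => ?_⟩
  have htop : AddSubgroup.zmultiples x = ⊤ := by
    apply AddSubgroup.eq_top_of_card_eq
    rw [Nat.card_zmultiples, h3]
  have hy : y ∈ AddSubgroup.zmultiples x := by rw [htop]; trivial
  obtain ⟨z, hz⟩ := AddSubgroup.mem_zmultiples_iff.1 hy
  exact ⟨z, hz.symm⟩

end Abstract

/- For `C : Rep ℤ G` instance search finds `AddCommGroup.toIntModule` before `C.hV2`; the
representation `C.ρ` is typed with `C.hV2`.  Locally prefer the field. -/
attribute [local instance 2000] Rep.hV2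

/-! ## `groupCohomology` of the restriction to a subgroup, in cocycle form -/

section Bridge

open CategoryTheory groupCohomology

variable {G : Type} [Group G]

/-- `z • res_U [X] = 0` in `H²(U, C)` iff `z • X` is a coboundary on `U` (pointwise form). -/
theorem rest_zsmul_eq_zero_iff (C : Rep.{0} ℤ G) (X : cocycles₂ C) (U : Subgroup G) (z : ℤ) :
    z • (Coh.rest C U 2).hom (H2π C X) = 0 ↔
      ∃ b : U → C, ∀ g h : U,
        z • X ((g : G), (h : G)) = C.ρ (g : G) (b h) - b (g * h) + b g := by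
  set XU : cocycles₂ (Rep.res U.subtype C) := mapCocycles₂ U.subtype (𝟙 _) X with hXU
  have hrest : (Coh.rest C U 2).hom (H2π C X) = H2π _ XU :=
    H2π_comp_map_apply U.subtype (𝟙 _) X
  rw [hrest, ← map_zsmul, H2π_eq_zero_iff]
  constructor
  · rintro ⟨b, hb⟩
    refine ⟨b, fun g h => ?_⟩
    have e := congrFun hb (g, h)
    exact e.symm
  · rintro ⟨b, hb⟩
    exact ⟨b, funext fun q => (hb q.1 q.2).symm⟩

/-- `H¹(U, C) = 0` in the elementwise form used by the cocycle calculus. -/
theorem h1Van_of_isZero (C : Rep.{0} ℤ G) (U : Subgroup G)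
    (h : Limits.IsZero (groupCohomology (Rep.res U.subtype C) 1)) : H1Van C.ρ U := by
  intro c hc
  have : Subsingleton (groupCohomology (Rep.res U.subtype C) 1) :=
    ModuleCat.subsingleton_of_isZero h
  obtain ⟨a, ha⟩ := (H1π_eq_zero_iff
    (⟨c, (mem_cocycles₁_iff (A := Rep.res U.subtype C) c).2 hc⟩ :
      cocycles₁ (Rep.res U.subtype C))).1 (Subsingleton.elim _ _)
  exact ⟨a, fun n => (congrFun ha n).symm⟩

end Bridge

/-! ## The theorem -/

section Main

open CategoryTheory groupCohomology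
open Fermat.Agent.CFT Fermat.Agent.CFT.Global

/-- **[F1]** `ClassFormationP` from `PGroupAxiom`, the cyclotomic crossing and Galois descent. -/
theorem classFormationP_of_crossing (hP : Plan.PGroupAxiom) (hX : Plan.CycloCrossing)
    (hD : Plan.ClassDescent) : Plan.ClassFormationP := by
  intro p _ hp G L _ _ _ _ _ _
  obtain ⟨L', _, _, G', _, _, _, f, π, hfaith, htower, hker, X, hX0, hXord⟩ := hX p hp G L
  have := hfaith
  obtain ⟨hj, hjr, hjπ⟩ := hD L L' G G' f π htower
  -- a cocycle representative of the crossing class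
  obtain ⟨X₀, rfl⟩ : ∃ X₀ : cocycles₂ (classRep G' L'), H2π _ X₀ = X :=
    H2_induction_on (C := fun x => ∃ X₀ : cocycles₂ (classRep G' L'), H2π _ X₀ = x) X
      (fun X₀ => ⟨X₀, rfl⟩)
  -- `H¹(ker π, C_{L'}) = 0`
  have h1 : H1Van (classRep G' L').ρ π.ker := by
    let _ : Fintype ↥π.ker := Fintype.ofFinite _
    exact h1Van_of_isZero _ _ (hP p hp (↥π.ker) L' hker).1
  -- `X` dies on `ker π`
  obtain ⟨u, hu⟩ := (rest_zsmul_eq_zero_iff (classRep G' L') X₀ π.ker 1).1
    (by rw [one_zsmul]; exact hX0)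
  simp only [one_zsmul] at hu
  have hXcoc : IsCoc (classRep G' L').ρ ⇑X₀ := (mem_cocycles₂_iff ⇑X₀).1 X₀.2
  -- descend
  obtain ⟨σ₀, x, hσ₀, hσx⟩ := descent_exists (classRep G' L').ρ (classRep G L).ρ π
    (classMap f).toAddMonoidHom htower.surj hj (fun g c => hjπ g c)
    (fun a ha => LinearMap.mem_range.1 (hjr a ha)) h1 ⇑X₀ hXcoc u hu
  refine ⟨H2π _ ⟨σ₀, (mem_cocycles₂_iff σ₀).2 hσ₀⟩, fun H hH => ?_⟩
  let _ : Fintype ↥H := Fintype.ofFinite _
  obtain ⟨hH1, hH2⟩ := hP p hp (↥H) L hH
  refine ⟨hH1, ?_⟩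
  apply cyclic_of_order _ (Nat.card H) Nat.card_pos hH2
  intro z hz
  obtain ⟨y, hy⟩ := (rest_zsmul_eq_zero_iff (classRep G L)
    ⟨σ₀, (mem_cocycles₂_iff σ₀).2 hσ₀⟩ H z).1 hz
  exact order_of_crossing (classRep G' L').ρ (classRep G L).ρ π (classMap f).toAddMonoidHom p
    htower.surj (fun g c => hjπ g c) σ₀ ⇑X₀ x hσx hker
    (fun U hU hle z' hb =>
      hXord U hU hle z' ((rest_zsmul_eq_zero_iff (classRep G' L') X₀ U z').2 hb))
    H hH z y hy

end Main

end Fermat.Agent.CFT.Glob.ClassPField
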