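import Mathlib

/-!
# Galois algebras over a field (semilocal algebras `L ⊗[K] F'`)

`F` a field, `A` a finite-dimensional reduced commutative `F`-algebra with an action of a finite
group `G` by `F`-algebra automorphisms such that `A^G = F` (`Algebra.IsInvariant F A G`).
For a maximal ideal `m` of `A` with stabiliser `H`:

* `exists_smul_eq`: `G` permutes the maximal ideals transitively;
* `toCoind`: `a ↦ (g ↦ g • a mod m)` is an injective `F`-algebra map `A → (G → A ⧸ m)` whose range
  is the coinduced algebra `{f | f (h * g) = h • f g}` (`mem_range_toCoind_iff`);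
* `isGalois_quotient`, `stabHom_surjective`: `A ⧸ m` is Galois over `F` and `H → Gal((A ⧸ m)/F)` is
  surjective;
* `stabHom_injective`: it is bijective as soon as `dim_F A = |G|`.
-/

set_option autoImplicit false
set_option linter.unusedSectionVars false

open scoped Pointwise

namespace Fermat.Agent.CFT.Glob.GaloisAlgebra

section Defs

variable (F : Type*) {A : Type*} (G : Type*) [Field F] [CommRing A] [Algebra F A]
  [Group G] [MulSemiringAction G A] [SMulCommClass G F A]
variable (m : Ideal A)

/-- The stabiliser of `m` acts on `A ⧸ m` by `F`-algebra automorphisms. -/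
def stabHom : MulAction.stabilizer G m →* ((A ⧸ m) ≃ₐ[F] (A ⧸ m)) where
  toFun h := Ideal.quotientEquivAlg m m (MulSemiringAction.toAlgEquiv F A (h : G)) h.2.symm
  map_one' := by
    ext x
    obtain ⟨a, rfl⟩ := Ideal.Quotient.mk_surjective x
    exact congrArg (Ideal.Quotient.mk m) (one_smul G a)
  map_mul' g h := by
    ext x
    obtain ⟨a, rfl⟩ := Ideal.Quotient.mk_surjective x
    exact congrArg (Ideal.Quotient.mk m) (mul_smul (g : G) (h : G) a)

variable {G} in
@[simp] lemma stabHom_mk (h : MulAction.stabilizer G m) (a : A) :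
    stabHom F G m h (Ideal.Quotient.mk m a) = Ideal.Quotient.mk m ((h : G) • a) := rfl

/-- `a ↦ (g ↦ g • a mod m)`. -/
def toCoind : A →ₐ[F] (G → A ⧸ m) :=
  AlgHom.pi (fun g => (Ideal.Quotient.mkₐ F m).comp (MulSemiringAction.toAlgHom F A g))

variable {G} in
@[simp] lemma toCoind_apply (a : A) (g : G) :
    toCoind F G m a g = Ideal.Quotient.mk m (g • a) := rfl

variable {G} in
lemma toCoind_smul (g' : G) (a : A) (g : G) :
    toCoind F G m (g' • a) g = toCoind F G m a (g * g') := by
  rw [toCoind_apply, toCoind_apply, mul_smul]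

variable {G} in
lemma toCoind_stab (h : MulAction.stabilizer G m) (a : A) (g : G) :
    toCoind F G m a ((h : G) * g) = stabHom F G m h (toCoind F G m a g) := by
  rw [toCoind_apply, toCoind_apply, stabHom_mk, mul_smul]

end Defs

section Main

variable (F : Type*) {A : Type*} (G : Type*) [Field F] [CommRing A] [Algebra F A]
  [Module.Finite F A] [IsReduced A]
  [Group G] [Finite G] [MulSemiringAction G A] [SMulCommClass G F A] [Algebra.IsInvariant F A G]

omit [Module.Finite F A] [IsReduced A] in
lemma under_eq_bot (m : Ideal A) [m.IsPrime] : m.under F = ⊥ := by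
  rcases Ideal.eq_bot_or_top (m.under F) with h | h
  · exact h
  · exact absurd h (Ideal.comap_ne_top _ (Ideal.IsPrime.ne_top inferInstance))

include F G

/-- `G` permutes the maximal ideals transitively. -/
theorem exists_smul_eq (m m' : Ideal A) [m.IsMaximal] [m'.IsMaximal] : ∃ g : G, m' = g • m :=
  Algebra.IsInvariant.exists_smul_of_under_eq F A G m m'
    ((under_eq_bot F m).trans (under_eq_bot F m').symm)

variable (m : Ideal A) [m.IsMaximal]

lemma isMaximal_smul (g : G) : (g • m).IsMaximal := by
  have : IsArtinianRing A := IsArtinianRing.of_finite F A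
  have : (g • m).IsPrime := (inferInstance : m.IsPrime).smul g
  exact IsArtinianRing.isMaximal_of_isPrime _

/-- An element all of whose conjugates lie in `m` is zero. -/
theorem eq_zero_of_forall_smul_mem {a : A} (h : ∀ g : G, g • a ∈ m) : a = 0 := by
  have : IsArtinianRing A := IsArtinianRing.of_finite F A
  apply (IsArtinianRing.equivPi A).injective
  rw [map_zero]
  funext I
  rw [IsArtinianRing.equivPi_apply, Pi.zero_apply, Ideal.Quotient.eq_zero_iff_mem]
  have := I.isMaximal
  obtain ⟨g, hg⟩ := exists_smul_eq F G m I.asIdeal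
  rw [hg, Ideal.mem_pointwise_smul_iff_inv_smul_mem]
  exact h g⁻¹

theorem toCoind_injective : Function.Injective (toCoind F G m) := by
  rw [injective_iff_map_eq_zero]
  intro a ha
  apply eq_zero_of_forall_smul_mem F G m
  intro g
  rw [← Ideal.Quotient.eq_zero_iff_mem, ← toCoind_apply F, ha, Pi.zero_apply]

/-- The range of `toCoind` is the coinduced algebra. -/
theorem mem_range_toCoind_iff (f : G → A ⧸ m) :
    f ∈ Set.range (toCoind F G m) ↔
      ∀ (h : MulAction.stabilizer G m) (g : G), f ((h : G) * g) = stabHom F G m h (f g) := by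
  constructor
  · rintro ⟨a, rfl⟩ h g
    exact toCoind_stab F m h a g
  · intro hf
    have : IsArtinianRing A := IsArtinianRing.of_finite F A
    -- for each maximal ideal `I` choose `g_I` with `g_I • I = m`
    have hex : ∀ I : MaximalSpectrum A, ∃ g : G, I.asIdeal = g⁻¹ • m := by
      intro I
      have := I.isMaximal
      obtain ⟨g, hg⟩ := exists_smul_eq F G m I.asIdeal
      exact ⟨g⁻¹, by rw [inv_inv]; exact hg⟩
    choose γ hγ using hex
    -- lifts of the values
    have hlift : ∀ I : MaximalSpectrum A, ∃ b : A, Ideal.Quotient.mk m b = f (γ I) :=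
      fun I => Ideal.Quotient.mk_surjective _
    choose b hb using hlift
    obtain ⟨a, ha⟩ := (IsArtinianRing.equivPi A).surjective
      (fun I => Ideal.Quotient.mk I.asIdeal ((γ I)⁻¹ • b I))
    have ha' : ∀ I : MaximalSpectrum A, Ideal.Quotient.mk m (γ I • a) = f (γ I) := by
      intro I
      have h1 := congrFun ha I
      rw [IsArtinianRing.equivPi_apply, Ideal.Quotient.eq, hγ I,
        Ideal.mem_inv_pointwise_smul_iff, smul_sub, smul_inv_smul] at h1
      rw [← hb I]
      exact Ideal.Quotient.eq.mpr h1
    refine ⟨a, ?_⟩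
    funext g
    rw [toCoind_apply]
    -- the maximal ideal `g⁻¹ • m`
    have := isMaximal_smul F G m g⁻¹
    let I : MaximalSpectrum A := ⟨g⁻¹ • m, inferInstance⟩
    have hI : g⁻¹ • m = (γ I)⁻¹ • m := hγ I
    have hstab : g * (γ I)⁻¹ ∈ MulAction.stabilizer G m := by
      rw [MulAction.mem_stabilizer_iff, mul_smul, ← hI, smul_inv_smul]
    have hg : g = (⟨g * (γ I)⁻¹, hstab⟩ : MulAction.stabilizer G m) * γ I := by
      show g = g * (γ I)⁻¹ * γ I
      rw [inv_mul_cancel_right]
    have key := hf ⟨g * (γ I)⁻¹, hstab⟩ (γ I)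
    rw [← ha' I, stabHom_mk, ← mul_smul] at key
    have hgg : ((⟨g * (γ I)⁻¹, hstab⟩ : MulAction.stabilizer G m) : G) * γ I = g := by
      show g * (γ I)⁻¹ * γ I = g
      rw [inv_mul_cancel_right]
    rw [hgg] at key
    exact key.symm

/-- Elements of `A ⧸ m` fixed by the stabiliser of `m` come from `F`. -/
theorem exists_algebraMap_eq_of_fixed (x : A ⧸ m)
    (hx : ∀ h : MulAction.stabilizer G m, stabHom F G m h x = x) :
    ∃ c : F, algebraMap F (A ⧸ m) c = x := by
  have hmem : (fun _ : G => x) ∈ Set.range (toCoind F G m) := by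
    rw [mem_range_toCoind_iff]
    intro h g
    exact (hx h).symm
  obtain ⟨b, hb⟩ := hmem
  have hfix : ∀ g : G, g • b = b := by
    intro g
    apply toCoind_injective F G m
    funext k
    rw [toCoind_smul, hb]
  obtain ⟨c, hc⟩ := Algebra.IsInvariant.isInvariant (A := F) (G := G) b hfix
  refine ⟨c, ?_⟩
  have h1 := congrFun hb 1
  rw [toCoind_apply, one_smul] at h1
  rw [← h1, ← hc]
  rfl

lemma finite_quotient : Module.Finite F (A ⧸ m) :=
  Module.Finite.of_surjective (Ideal.Quotient.mkₐ F m).toLinearMap
    (Ideal.Quotient.mkₐ_surjective F m)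

/-- `A ⧸ m` is Galois over `F`. -/
theorem isGalois_quotient : letI := Ideal.Quotient.field m; IsGalois F (A ⧸ m) := by
  let _ := Ideal.Quotient.field m
  have : FiniteDimensional F (A ⧸ m) := finite_quotient F G m
  apply IsGalois.of_fixedField_eq_bot
  rw [eq_bot_iff]
  intro x hx
  rw [IntermediateField.mem_fixedField_iff] at hx
  obtain ⟨c, hc⟩ := exists_algebraMap_eq_of_fixed F G m x
    (fun h => hx _ (Subgroup.mem_top _))
  rw [IntermediateField.mem_bot]
  exact ⟨c, hc⟩

/-- The stabiliser of `m` surjects onto `Gal((A ⧸ m)/F)`. -/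
theorem stabHom_surjective : Function.Surjective (stabHom F G m) := by
  let _ := Ideal.Quotient.field m
  have : FiniteDimensional F (A ⧸ m) := finite_quotient F G m
  rw [← MonoidHom.range_eq_top]
  have h1 : IntermediateField.fixedField (stabHom F G m).range = ⊥ := by
    rw [eq_bot_iff]
    intro x hx
    rw [IntermediateField.mem_fixedField_iff] at hx
    obtain ⟨c, hc⟩ := exists_algebraMap_eq_of_fixed F G m x (fun h => hx _ ⟨h, rfl⟩)
    rw [IntermediateField.mem_bot]
    exact ⟨c, hc⟩
  rw [← IntermediateField.fixingSubgroup_fixedField (stabHom F G m).range, h1,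
    IntermediateField.fixingSubgroup_bot]

/-- The maximal ideals form one orbit: their number is the index of the stabiliser. -/
theorem card_maximalSpectrum :
    Nat.card (MaximalSpectrum A) = (MulAction.stabilizer G m).index := by
  rw [Subgroup.index, ← Nat.card_congr (MulAction.orbitEquivQuotientStabilizer G m)]
  refine Nat.card_congr
    { toFun := fun I => ⟨I.asIdeal, by
        have := I.isMaximal
        obtain ⟨g, hg⟩ := exists_smul_eq F G m I.asIdeal
        exact ⟨g, hg.symm⟩⟩
      invFun := fun J => ⟨J.1, by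
        obtain ⟨g, hg⟩ := J.2
        rw [← hg]
        exact isMaximal_smul F G m g⟩
      left_inv := fun I => rfl
      right_inv := fun J => rfl }

/-- `dim_F A = (number of maximal ideals) * dim_F (A ⧸ m)`. -/
theorem finrank_eq_card_mul :
    Module.finrank F A = Nat.card (MaximalSpectrum A) * Module.finrank F (A ⧸ m) := by
  have : IsArtinianRing A := IsArtinianRing.of_finite F A
  let _ : Fintype (MaximalSpectrum A) := Fintype.ofFinite _
  have hfin : ∀ I : MaximalSpectrum A, Module.Finite F (A ⧸ I.asIdeal) := fun I =>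
    Module.Finite.of_surjective (Ideal.Quotient.mkₐ F I.asIdeal).toLinearMap
      (Ideal.Quotient.mkₐ_surjective F I.asIdeal)
  have hdim : ∀ I : MaximalSpectrum A,
      Module.finrank F (A ⧸ I.asIdeal) = Module.finrank F (A ⧸ m) := by
    intro I
    have := I.isMaximal
    obtain ⟨g, hg⟩ := exists_smul_eq F G m I.asIdeal
    rw [hg]
    exact (Ideal.quotientEquivAlg m (g • m) (MulSemiringAction.toAlgEquiv F A g)
      rfl).toLinearEquiv.finrank_eq.symm
  have e : A ≃ₗ[F] (∀ I : MaximalSpectrum A, A ⧸ I.asIdeal) :=
    ((IsArtinianRing.equivPi A).restrictScalars F).toLinearEquiv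
  rw [e.finrank_eq, Module.finrank_pi_fintype F, Finset.sum_congr rfl (fun I _ => hdim I),
    Finset.sum_const, Finset.card_univ, smul_eq_mul, Nat.card_eq_fintype_card]

/-- If `dim_F A = |G|` then the stabiliser of `m` has as many elements as `Gal((A ⧸ m)/F)`. -/
theorem card_stabilizer (hcard : Module.finrank F A = Nat.card G) :
    Nat.card (MulAction.stabilizer G m) = Nat.card ((A ⧸ m) ≃ₐ[F] (A ⧸ m)) := by
  let _ := Ideal.Quotient.field m
  have : FiniteDimensional F (A ⧸ m) := finite_quotient F G m
  have : IsGalois F (A ⧸ m) := isGalois_quotient F G m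
  have h1 := finrank_eq_card_mul F G m
  rw [hcard, card_maximalSpectrum F G m, ← IsGalois.card_aut_eq_finrank,
    ← Subgroup.index_mul_card (MulAction.stabilizer G m)] at h1
  exact Nat.eq_of_mul_eq_mul_left (Nat.pos_of_ne_zero Subgroup.index_ne_zero_of_finite) h1

/-- If `dim_F A = |G|` then `H → Gal((A ⧸ m)/F)` is injective (no inertia). -/
theorem stabHom_injective (hcard : Module.finrank F A = Nat.card G) :
    Function.Injective (stabHom F G m) :=
  ((stabHom_surjective F G m).bijective_of_nat_card_le
    (card_stabilizer F G m hcard).le).injective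

theorem stabHom_bijective (hcard : Module.finrank F A = Nat.card G) :
    Function.Bijective (stabHom F G m) :=
  ⟨stabHom_injective F G m hcard, stabHom_surjective F G m⟩

end Main

end Fermat.Agent.CFT.Glob.GaloisAlgebra
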