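import Mathlib

/-!
# Galois algebras: a ring with a finite group action is coinduced from its local components

`A` is a commutative ring with an action of a finite group `G` by ring automorphisms, and
`π : A →+* E` is a surjection onto a field (a "local component").  `stab π` is the stabiliser of
`ker π`, it acts on `E` (`stabAct`), and `a ↦ (g ↦ π (g • a))` maps `A` onto the functions
`f : G → E` with `f (h * g) = h • f g` for `h ∈ stab π` (Chinese remainder theorem).
-/

namespace Fermat.Agent.CFT.Glob.GaloisCoind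

section Stab

variable {A : Type*} [CommRing A] {G : Type*} [Group G] [MulSemiringAction G A]
variable {E : Type*} [Field E]

/-- The stabiliser of `ker π` (the decomposition group of the local component `π`). -/
def stab (π : A →+* E) : Subgroup G where
  carrier := {g | ∀ a : A, π (g • a) = 0 ↔ π a = 0}
  one_mem' := fun a => by simp
  mul_mem' := fun {g h} hg hh a => by rw [mul_smul, hg, hh]
  inv_mem' := fun {g} hg a => by rw [← hg (g⁻¹ • a), smul_inv_smul]

theorem mem_stab {π : A →+* E} {g : G} :
    g ∈ stab π ↔ ∀ a : A, π (g • a) = 0 ↔ π a = 0 := Iff.rfl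

/-- The kernel of `a ↦ π (g • a)`. -/
def kerAt (π : A →+* E) (g : G) : Ideal A :=
  RingHom.ker (π.comp (MulSemiringAction.toRingHom G A g))

theorem mem_kerAt {π : A →+* E} {g : G} {a : A} : a ∈ kerAt π g ↔ π (g • a) = 0 := Iff.rfl

theorem kerAt_isMaximal {π : A →+* E} (hπ : Function.Surjective π) (g : G) :
    (kerAt π g).IsMaximal :=
  RingHom.ker_isMaximal_of_surjective _ (hπ.comp (MulAction.surjective g))

theorem kerAt_one (π : A →+* E) : kerAt π (1 : G) = RingHom.ker π := by
  ext a; simp [mem_kerAt, RingHom.mem_ker]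

/-- For a surjection onto a field one inclusion of kernels is enough. -/
theorem mem_stab_of_forall {π : A →+* E} (hπ : Function.Surjective π) {g : G}
    (h : ∀ a : A, π a = 0 → π (g • a) = 0) : g ∈ stab π := by
  have h1 : (RingHom.ker π).IsMaximal := RingHom.ker_isMaximal_of_surjective π hπ
  have h2 : RingHom.ker π = kerAt π g :=
    h1.eq_of_le (kerAt_isMaximal hπ g).ne_top (fun a ha => mem_kerAt.2 (h a ((RingHom.mem_ker).1 ha)))
  intro a
  rw [← mem_kerAt, ← h2, RingHom.mem_ker]

theorem map_smul_eq_of_map_eq {π : A →+* E} {g : G} (hg : g ∈ stab π) {a b : A}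
    (hab : π a = π b) : π (g • a) = π (g • b) := by
  have := (hg (a - b)).2 (by rw [map_sub, hab, sub_self])
  rwa [smul_sub, map_sub, sub_eq_zero] at this

/-- The ring endomorphism of `E` induced by an element of the stabiliser. -/
noncomputable def stabFun (π : A →+* E) (hπ : Function.Surjective π) (h : stab (G := G) π) :
    E →+* E where
  toFun e := π (h.1 • Function.surjInv hπ e)
  map_one' := by
    have := map_smul_eq_of_map_eq h.2 (show π (Function.surjInv hπ 1) = π 1 by
      rw [Function.surjInv_eq hπ, map_one])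
    rw [this, smul_one, map_one]
  map_mul' x y := by
    have := map_smul_eq_of_map_eq h.2 (show π (Function.surjInv hπ (x * y)) =
      π (Function.surjInv hπ x * Function.surjInv hπ y) by
        rw [map_mul, Function.surjInv_eq hπ, Function.surjInv_eq hπ, Function.surjInv_eq hπ])
    rw [this, smul_mul', map_mul]
  map_zero' := by
    have := map_smul_eq_of_map_eq h.2 (show π (Function.surjInv hπ 0) = π 0 by
      rw [Function.surjInv_eq hπ, map_zero])
    rw [this, smul_zero, map_zero]
  map_add' x y := by
    have := map_smul_eq_of_map_eq h.2 (show π (Function.surjInv hπ (x + y)) =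
      π (Function.surjInv hπ x + Function.surjInv hπ y) by
        rw [map_add, Function.surjInv_eq hπ, Function.surjInv_eq hπ, Function.surjInv_eq hπ])
    rw [this, smul_add, map_add]

theorem stabFun_map (π : A →+* E) (hπ : Function.Surjective π) (h : stab (G := G) π) (a : A) :
    stabFun π hπ h (π a) = π (h.1 • a) :=
  map_smul_eq_of_map_eq h.2 (Function.surjInv_eq hπ (π a))

/-- The action of the stabiliser of `ker π` on the field `E`: `h • π a = π (h • a)`. -/
noncomputable def stabAct (π : A →+* E) (hπ : Function.Surjective π) :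
    stab (G := G) π →* (E ≃+* E) where
  toFun h := RingEquiv.ofRingHom (stabFun π hπ h) (stabFun π hπ h⁻¹)
    (by
      ext e; obtain ⟨a, rfl⟩ := hπ e
      simp [stabFun_map, smul_smul])
    (by
      ext e; obtain ⟨a, rfl⟩ := hπ e
      simp [stabFun_map, smul_smul])
  map_one' := by
    ext e; obtain ⟨a, rfl⟩ := hπ e
    simp [stabFun_map]
  map_mul' h h' := by
    ext e; obtain ⟨a, rfl⟩ := hπ e
    simp [stabFun_map, mul_smul]

@[simp]
theorem stabAct_map (π : A →+* E) (hπ : Function.Surjective π) (h : stab (G := G) π) (a : A) :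
    stabAct π hπ h (π a) = π (h.1 • a) :=
  stabFun_map π hπ h a

end Stab

section CRT

variable {A : Type*} [CommRing A] {G : Type*} [Group G] [Finite G] [MulSemiringAction G A]
variable {ι : Type*} [Finite ι] {E : ι → Type*} [∀ i, Field (E i)]
variable (π : ∀ i, A →+* E i) (hπ : ∀ i, Function.Surjective (π i))

include hπ in
/-- Separating elements: `e` is `1` at the component `π i` and `0` at every other translate of
every component. -/
theorem exists_separator
    (hdisj : ∀ (i j : ι) (g : G), (∀ a : A, π i a = 0 ↔ π j (g • a) = 0) → i = j) (i : ι) :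
    ∃ e : A, π i e = 1 ∧ ∀ (j : ι) (g : G), (j ≠ i ∨ g ∉ stab (π i)) → π j (g • e) = 0 := by
  classical
  cases nonempty_fintype ι
  cases nonempty_fintype G
  let J : ι × G → Ideal A := fun x => kerAt (π x.1) x.2
  let s : Finset (ι × G) := Finset.univ.filter (fun x => x.1 ≠ i ∨ x.2 ∉ stab (π i))
  have h1 : (RingHom.ker (π i)).IsMaximal := RingHom.ker_isMaximal_of_surjective _ (hπ i)
  have key : RingHom.ker (π i) ⊔ ⨅ x ∈ s, J x = ⊤ := by
    refine Ideal.sup_iInf_eq_top (fun x hx => ?_)
    refine Ideal.IsMaximal.coprime_of_ne h1 (kerAt_isMaximal (hπ x.1) x.2) (fun heq => ?_)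
    have h2 : ∀ a : A, π i a = 0 ↔ π x.1 (x.2 • a) = 0 := fun a => by
      rw [← RingHom.mem_ker, heq]; exact mem_kerAt
    have h3 : i = x.1 := hdisj i x.1 x.2 h2
    obtain ⟨j, g⟩ := x
    simp only at h3
    subst h3
    have h4 : g ∈ stab (π i) := fun a => (h2 a).symm
    simp only [s, Finset.mem_filter, Finset.mem_univ, true_and] at hx
    rcases hx with hx | hx
    · exact hx rfl
    · exact hx h4
  have h1A : (1 : A) ∈ RingHom.ker (π i) ⊔ ⨅ x ∈ s, J x := key ▸ Submodule.mem_top
  obtain ⟨u, hu, v, hv, huv⟩ := Submodule.mem_sup.1 h1A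
  refine ⟨v, ?_, fun j g hjg => ?_⟩
  · have := congrArg (π i) huv
    rw [map_add, (RingHom.mem_ker).1 hu, zero_add, map_one] at this
    exact this
  · have hmem : (j, g) ∈ s := by
      simp only [s, Finset.mem_filter, Finset.mem_univ, true_and]; exact hjg
    have hv' : v ∈ J (j, g) := by
      have := (Submodule.mem_iInf _).1 hv (j, g)
      exact (Submodule.mem_iInf _).1 this hmem
    exact mem_kerAt.1 hv'

include hπ in
/-- **Coinduction (Chinese remainder theorem).**  Every family of functions `f i : G → E i` which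
is equivariant for the stabilisers is of the form `g ↦ π i (g • a)`. -/
theorem exists_forall_eq
    (hdisj : ∀ (i j : ι) (g : G), (∀ a : A, π i a = 0 ↔ π j (g • a) = 0) → i = j)
    (f : ∀ i, G → E i)
    (hf : ∀ (i : ι) (h : stab (G := G) (π i)) (g : G),
      f i (h.1 * g) = stabAct (π i) (hπ i) h (f i g)) :
    ∃ a : A, ∀ (i : ι) (g : G), π i (g • a) = f i g := by
  classical
  cases nonempty_fintype ι
  cases nonempty_fintype G
  choose e he1 he0 using exists_separator π hπ hdisj
  choose b hb using fun (i : ι) (g : G) => hπ i (f i g)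
  let _ : ∀ i, Fintype (Quotient (QuotientGroup.rightRel (stab (G := G) (π i)))) :=
    fun i => Fintype.ofFinite _
  refine ⟨∑ i, ∑ q : Quotient (QuotientGroup.rightRel (stab (G := G) (π i))),
    (q.out)⁻¹ • (e i * b i q.out), fun j g => ?_⟩
  rw [Finset.smul_sum, map_sum, Finset.sum_eq_single j]
  · rw [Finset.smul_sum, map_sum,
      Finset.sum_eq_single (Quotient.mk (QuotientGroup.rightRel (stab (G := G) (π j))) g)]
    · set t : G := (Quotient.mk (QuotientGroup.rightRel (stab (G := G) (π j))) g).out with ht
      have hrel : QuotientGroup.rightRel (stab (G := G) (π j)) t g := Quotient.mk_out (s := QuotientGroup.rightRel (stab (G := G) (π j))) g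
      have hmem : g * t⁻¹ ∈ stab (π j) := QuotientGroup.rightRel_apply.1 hrel
      rw [smul_smul, smul_mul', map_mul]
      have h1 := stabAct_map (π j) (hπ j) ⟨g * t⁻¹, hmem⟩ (e j)
      have h2 := stabAct_map (π j) (hπ j) ⟨g * t⁻¹, hmem⟩ (b j t)
      simp only at h1 h2
      rw [← h1, ← h2, he1, map_one, one_mul, hb, ← hf]
      simp
    · intro q _ hq
      rw [smul_smul, smul_mul', map_mul, he0 j j (g * (q.out)⁻¹) (Or.inr ?_), zero_mul]
      intro hmem
      apply hq
      have hrel : QuotientGroup.rightRel (stab (G := G) (π j)) q.out g :=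
        QuotientGroup.rightRel_apply.2 hmem
      rw [← Quotient.out_eq q]
      exact Quotient.sound hrel
    · intro h; exact absurd (Finset.mem_univ _) h
  · intro i _ hij
    rw [Finset.smul_sum, map_sum]
    refine Finset.sum_eq_zero (fun q _ => ?_)
    rw [smul_smul, smul_mul', map_mul, he0 i j _ (Or.inl (Ne.symm hij)), zero_mul]
  · intro h; exact absurd (Finset.mem_univ _) h

omit [Finite G] [Finite ι] in
/-- The map `a ↦ (g ↦ π (g • a))` is equivariant for right translation. -/
theorem map_smul_smul (i : ι) (g g' : G) (a : A) : π i (g • g' • a) = π i ((g * g') • a) := by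
  rw [mul_smul]

omit [Finite G] [Finite ι] in
/-- In an Artinian reduced ring an element which vanishes at all translates of a covering family
of local components is zero. -/
theorem eq_zero_of_forall_eq_zero [IsArtinianRing A] [IsReduced A]
    (hcover : ∀ m : Ideal A, m.IsMaximal → ∃ (i : ι) (g : G), ∀ a : A, π i (g • a) = 0 → a ∈ m)
    {a : A} (ha : ∀ (i : ι) (g : G), π i (g • a) = 0) : a = 0 := by
  have h1 : a ∈ Ideal.jacobson (⊥ : Ideal A) := by
    rw [Ideal.jacobson, Ideal.mem_sInf]
    rintro m ⟨-, hm⟩
    obtain ⟨i, g, h⟩ := hcover m hm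
    exact h a (ha i g)
  obtain ⟨n, hn⟩ := IsArtinianRing.isNilpotent_jacobson_bot (R := A)
  have h2 : a ^ n ∈ (Ideal.jacobson (⊥ : Ideal A)) ^ n := Ideal.pow_mem_pow h1 n
  rw [hn] at h2
  exact IsReduced.eq_zero a ⟨n, h2⟩

include hπ in
/-- Unit version of `exists_forall_eq`, for a separating family of local components. -/
theorem existsUnique_unit_forall_eq
    (hdisj : ∀ (i j : ι) (g : G), (∀ a : A, π i a = 0 ↔ π j (g • a) = 0) → i = j)
    (hsep : ∀ a : A, (∀ (i : ι) (g : G), π i (g • a) = 0) → a = 0)
    (f : ∀ i, G → (E i)ˣ)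
    (hf : ∀ (i : ι) (h : stab (G := G) (π i)) (g : G),
      ((f i (h.1 * g) : (E i)ˣ) : E i) = stabAct (π i) (hπ i) h (f i g)) :
    ∃! u : Aˣ, ∀ (i : ι) (g : G), π i (g • (u : A)) = f i g := by
  obtain ⟨a, ha⟩ := exists_forall_eq π hπ hdisj (fun i g => (f i g : E i)) hf
  obtain ⟨b, hb⟩ := exists_forall_eq π hπ hdisj (fun i g => (((f i g)⁻¹ : (E i)ˣ) : E i))
    (fun i h g => by
      rw [Units.val_inv_eq_inv_val, Units.val_inv_eq_inv_val, hf, map_inv₀])
  have hab : a * b = 1 := by
    rw [← sub_eq_zero]
    refine hsep _ (fun i g => ?_)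
    rw [smul_sub, smul_mul', smul_one, map_sub, map_mul, map_one, ha, hb, Units.mul_inv, sub_self]
  refine ⟨Units.mkOfMulEqOne a b hab, fun i g => by simpa using ha i g, fun u hu => ?_⟩
  ext
  rw [← sub_eq_zero]
  refine hsep _ (fun i g => ?_)
  rw [smul_sub, map_sub, hu, sub_eq_zero]
  simpa using (ha i g).symm

end CRT

end Fermat.Agent.CFT.Glob.GaloisCoind
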