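import Mathlib
import Fermat.Agent.CFT.Glob.GaloisCoind

/-!
# The decomposition group of a local component is the Galois group of the local extension

`G` finite acting on `A`, `B → A` with `A^G = B` (`Algebra.IsInvariant B A G`), `π : A →+* E` a
surjection onto a field and `ρ : B →+* F` a surjection onto a field below it
(`algebraMap F E (ρ b) = π (algebraMap B A b)`).  Then `E/F` is normal, `stab π → Aut_F(E)` is
surjective, and it is injective as soon as `G` acts faithfully on a field mapping equivariantly
to `A`.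
-/

namespace Fermat.Agent.CFT.Glob.GaloisRel

open Fermat.Agent.CFT.Glob.GaloisCoind
open scoped Pointwise

section Basic

variable {A : Type*} [CommRing A] {G : Type*} [Group G] [MulSemiringAction G A]
variable {E : Type*} [Field E] (π : A →+* E)

/-- `stab π` is the stabiliser of `ker π` for the pointwise action on ideals. -/
theorem stab_eq_stabilizer : stab (G := G) π = MulAction.stabilizer G (RingHom.ker π) := by
  ext g
  rw [MulAction.mem_stabilizer_iff]
  constructor
  · intro hg
    ext a
    rw [Ideal.mem_pointwise_smul_iff_inv_smul_mem, RingHom.mem_ker, RingHom.mem_ker]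
    exact (stab π).inv_mem hg a
  · intro hg a
    rw [← RingHom.mem_ker, ← RingHom.mem_ker]
    conv_lhs => rw [← hg]
    exact Ideal.smul_mem_pointwise_smul_iff

variable (hπ : Function.Surjective π)

/-- The action of `stab π` on `E` is faithful as soon as `G` acts faithfully on a field `L`
mapping equivariantly into `A`. -/
theorem stabAct_injective {L : Type*} [Field L] [MulAction G L] [FaithfulSMul G L]
    (j : L →+* A) (hj : ∀ (g : G) (l : L), j (g • l) = g • j l) :
    Function.Injective (stabAct (G := G) π hπ) := by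
  refine (injective_iff_map_eq_one _).2 (fun h hh => ?_)
  apply Subtype.ext
  refine FaithfulSMul.eq_of_smul_eq_smul (α := L) (fun l => ?_)
  rw [Subgroup.coe_one, one_smul]
  apply (π.comp j).injective
  have h1 := stabAct_map π hπ h (j l)
  rw [hh] at h1
  simp only [RingHom.comp_apply, hj]
  exact h1.symm

end Basic

section Invariant

variable {A : Type*} [CommRing A] {G : Type*} [Group G] [Finite G] [MulSemiringAction G A]
variable {B : Type*} [CommRing B] [Algebra B A] [SMulCommClass G B A] [Algebra.IsInvariant B A G]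
variable {E : Type*} [Field E] (π : A →+* E) (hπ : Function.Surjective π)

include hπ in
/-- **Surjectivity**: every automorphism of `E` fixing the image of `B` comes from `stab π`. -/
theorem exists_stabAct_eq (σ : E ≃+* E)
    (hσ : ∀ b : B, σ (π (algebraMap B A b)) = π (algebraMap B A b)) :
    ∃ h : stab (G := G) π, stabAct π hπ h = σ := by
  let Q : Ideal A := RingHom.ker π
  have : Q.IsPrime := RingHom.ker_isPrime π
  let P : Ideal B := Q.under B
  let e : A ⧸ Q ≃+* E := RingHom.quotientKerEquivOfSurjective hπ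
  have he : ∀ a : A, e (Ideal.Quotient.mk Q a) = π a := fun a => rfl
  let σ' : (A ⧸ Q) ≃ₐ[B ⧸ P] (A ⧸ Q) :=
    AlgEquiv.ofRingEquiv (f := e.trans (σ.trans e.symm)) (by
      intro r
      obtain ⟨b, rfl⟩ := Ideal.Quotient.mk_surjective r
      rw [Ideal.Quotient.algebraMap_mk_of_liesOver]
      simp only [RingEquiv.trans_apply, he, hσ]
      rw [← he, RingEquiv.symm_apply_apply])
  obtain ⟨g, hg⟩ := Ideal.Quotient.stabilizerHom_surjective G P Q σ'
  have hgmem : (g : G) ∈ stab (G := G) π := by
    rw [stab_eq_stabilizer]; exact g.2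
  refine ⟨⟨g, hgmem⟩, ?_⟩
  apply RingEquiv.ext
  intro x
  obtain ⟨a, rfl⟩ := hπ x
  rw [stabAct_map]
  have h1 : σ' (Ideal.Quotient.mk Q a) = Ideal.Quotient.mk Q ((g : G) • a) := by
    rw [← hg]; rfl
  have h2 : σ' (Ideal.Quotient.mk Q a) = e.symm (σ (π a)) := rfl
  rw [h2] at h1
  have h3 := congrArg e h1
  rw [RingEquiv.apply_symm_apply, he] at h3
  exact h3.symm

variable {F : Type*} [Field F] [Algebra F E] (ρ : B →+* F) (hρ : Function.Surjective ρ)
  (hc : ∀ b : B, algebraMap F E (ρ b) = π (algebraMap B A b))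

omit [Finite G] [Algebra.IsInvariant B A G] in
include hρ hc in
/-- Elements of `stab π` act `F`-linearly on `E`. -/
theorem stabAct_algebraMap (h : stab (G := G) π) (r : F) :
    stabAct π hπ h (algebraMap F E r) = algebraMap F E r := by
  obtain ⟨b, rfl⟩ := hρ r
  rw [hc, stabAct_map, smul_algebraMap]

omit [Finite G] [Algebra.IsInvariant B A G] in
/-- The action of the decomposition group by `F`-algebra automorphisms of `E`. -/
noncomputable def stabAlgEquiv : stab (G := G) π →* (E ≃ₐ[F] E) where
  toFun h := AlgEquiv.ofRingEquiv (f := stabAct π hπ h) (stabAct_algebraMap π hπ ρ hρ hc h)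
  map_one' := by
    apply AlgEquiv.ext; intro x; simp
  map_mul' h h' := by
    apply AlgEquiv.ext; intro x; simp

omit [Finite G] [Algebra.IsInvariant B A G] in
@[simp]
theorem stabAlgEquiv_apply (h : stab (G := G) π) (x : E) :
    stabAlgEquiv π hπ ρ hρ hc h x = stabAct π hπ h x := rfl

omit [Finite G] [Algebra.IsInvariant B A G] in
theorem stabAlgEquiv_map (h : stab (G := G) π) (a : A) :
    stabAlgEquiv π hπ ρ hρ hc h (π a) = π (h.1 • a) := stabAct_map π hπ h a

/-- `stab π → Aut_F(E)` is surjective. -/
theorem stabAlgEquiv_surjective :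
    Function.Surjective (stabAlgEquiv (G := G) π hπ ρ hρ hc) := by
  intro τ
  obtain ⟨h, hh⟩ := exists_stabAct_eq (G := G) (B := B) π hπ τ.toRingEquiv (fun b => by
    rw [← hc]; exact τ.commutes (ρ b))
  refine ⟨h, ?_⟩
  apply AlgEquiv.ext
  intro x
  rw [stabAlgEquiv_apply, hh]; rfl

omit [Finite G] [Algebra.IsInvariant B A G] in
/-- `stab π → Aut_F(E)` is injective when `G` acts faithfully on a field mapping to `A`. -/
theorem stabAlgEquiv_injective {L : Type*} [Field L] [MulAction G L] [FaithfulSMul G L]
    (j : L →+* A) (hj : ∀ (g : G) (l : L), j (g • l) = g • j l) :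
    Function.Injective (stabAlgEquiv (G := G) π hπ ρ hρ hc) := by
  intro h h' hh
  apply stabAct_injective π hπ j hj
  apply RingEquiv.ext
  intro x
  have := congrArg (fun τ : E ≃ₐ[F] E => τ x) hh
  simpa using this

variable (G) in
omit [SMulCommClass G B A] in
include G hπ hc in
/-- `E` is normal over `F`. -/
theorem normal : Normal F E := by
  cases nonempty_fintype G
  rw [normal_iff]
  intro x
  obtain ⟨a, rfl⟩ := hπ x
  obtain ⟨p, hp1, -, hp2⟩ := Polynomial.lifts_and_natDegree_eq_and_monic
    (Algebra.IsInvariant.charpoly_mem_lifts B A G a) (MulSemiringAction.monic_charpoly G a)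
  have hmap : (p.map ρ).map (algebraMap F E) = (MulSemiringAction.charpoly G a).map π := by
    rw [Polynomial.map_map, ← hp1, Polynomial.map_map]
    congr 1
    ext b
    simp [hc]
  have hroot : Polynomial.aeval (π a) (p.map ρ) = 0 := by
    rw [Polynomial.aeval_def, ← Polynomial.eval_map, hmap, Polynomial.eval_map,
      Polynomial.eval₂_at_apply, MulSemiringAction.eval_charpoly, map_zero]
  have hmonic : (p.map ρ).Monic := hp2.map ρ
  have hint : IsIntegral F (π a) := ⟨p.map ρ, hmonic, hroot⟩
  refine ⟨hint, ?_⟩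
  have hdvd : minpoly F (π a) ∣ p.map ρ := minpoly.dvd F (π a) hroot
  have hsplit : ((MulSemiringAction.charpoly G a).map π).Splits :=
    (MulSemiringAction.splits_charpoly G a).map π
  refine Polynomial.Splits.of_dvd (hmap ▸ hsplit) ?_ (Polynomial.map_dvd _ hdvd)
  exact (hmonic.map _).ne_zero

variable (G) in
omit [SMulCommClass G B A] in
include G hπ hc in
/-- `E` is Galois over `F` when it is separable (e.g. in characteristic zero). -/
theorem isGalois [Algebra.IsSeparable F E] : IsGalois F E :=
  haveI := normal G π hπ ρ hc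
  ⟨⟩

/-- The decomposition group is the Galois group: `stab π ≃* Gal(E/F)`. -/
noncomputable def stabEquivGal {L : Type*} [Field L] [MulAction G L] [FaithfulSMul G L]
    (j : L →+* A) (hj : ∀ (g : G) (l : L), j (g • l) = g • j l) :
    stab (G := G) π ≃* (E ≃ₐ[F] E) :=
  MulEquiv.ofBijective (stabAlgEquiv (G := G) π hπ ρ hρ hc)
    ⟨stabAlgEquiv_injective π hπ ρ hρ hc j hj, stabAlgEquiv_surjective π hπ ρ hρ hc⟩

theorem stabEquivGal_apply {L : Type*} [Field L] [MulAction G L] [FaithfulSMul G L]
    (j : L →+* A) (hj : ∀ (g : G) (l : L), j (g • l) = g • j l) (h : stab (G := G) π) (a : A) :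
    stabEquivGal π hπ ρ hρ hc j hj h (π a) = π (h.1 • a) :=
  stabAct_map π hπ h a

include hπ hρ hc in
/-- `|stab π| = [E : F]`. -/
theorem card_stab {L : Type*} [Field L] [MulAction G L] [FaithfulSMul G L]
    (j : L →+* A) (hj : ∀ (g : G) (l : L), j (g • l) = g • j l)
    [FiniteDimensional F E] [Algebra.IsSeparable F E] :
    Nat.card (stab (G := G) π) = Module.finrank F E := by
  have := isGalois G π hπ ρ hc
  rw [Nat.card_congr (stabEquivGal π hπ ρ hρ hc j hj).toEquiv, IsGalois.card_aut_eq_finrank]

end Invariant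

section Family

variable {A : Type*} [CommRing A] {G : Type*} [Group G] [Finite G] [MulSemiringAction G A]
variable {B : Type*} [CommRing B] [Algebra B A] [SMulCommClass G B A] [Algebra.IsInvariant B A G]
variable {ι : Type*} {E : ι → Type*} [∀ i, Field (E i)] (π : ∀ i, A →+* E i)
variable {F : ι → Type*} [∀ i, Field (F i)] [∀ i, Algebra (F i) (E i)] (ρ : ∀ i, B →+* F i)
  (hc : ∀ (i : ι) (b : B), algebraMap (F i) (E i) (ρ i b) = π i (algebraMap B A b))

omit [Finite G] [Algebra.IsInvariant B A G] in
include hc in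
/-- Local components of `A` over pairwise different local components of `B` lie in different
`G`-orbits: the hypothesis `hdisj` of `GaloisCoind.exists_forall_eq`. -/
theorem hdisj_of_base
    (hρ : ∀ i j : ι, (∀ b : B, ρ i b = 0 ↔ ρ j b = 0) → i = j) :
    ∀ (i j : ι) (g : G), (∀ a : A, π i a = 0 ↔ π j (g • a) = 0) → i = j := by
  intro i j g h
  refine hρ i j (fun b => ?_)
  have h1 := h (algebraMap B A b)
  rw [smul_algebraMap, ← hc, ← hc, map_eq_zero_iff _ (algebraMap (F i) (E i)).injective,
    map_eq_zero_iff _ (algebraMap (F j) (E j)).injective] at h1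
  exact h1

include hc in
/-- If every maximal ideal of `B` is the kernel of some `ρ i`, then every maximal ideal of `A`
is a translate of some `ker (π i)`: the hypothesis `hcover` of
`GaloisCoind.eq_zero_of_forall_eq_zero`. -/
theorem hcover_of_base (hρs : ∀ i, Function.Surjective (ρ i))
    (hB : ∀ n : Ideal B, n.IsMaximal → ∃ i : ι, ∀ b : B, ρ i b = 0 → b ∈ n) :
    ∀ m : Ideal A, m.IsMaximal → ∃ (i : ι) (g : G), ∀ a : A, π i (g • a) = 0 → a ∈ m := by
  intro m hm
  have hint : Algebra.IsIntegral B A := Algebra.IsInvariant.isIntegral B A G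
  have hn : (m.under B).IsMaximal := Ideal.isMaximal_comap_of_isIntegral_of_isMaximal m
  obtain ⟨i, hi⟩ := hB _ hn
  have hker : RingHom.ker (ρ i) = m.under B :=
    (RingHom.ker_isMaximal_of_surjective (ρ i) (hρs i)).eq_of_le hn.ne_top
      (fun b hb => hi b ((RingHom.mem_ker).1 hb))
  have hQ : (RingHom.ker (π i)).IsPrime := RingHom.ker_isPrime (π i)
  have hmp : m.IsPrime := hm.isPrime
  have hunder : (RingHom.ker (π i)).under B = m.under B := by
    rw [← hker]
    ext b
    rw [Ideal.under_def, Ideal.mem_comap, RingHom.mem_ker, RingHom.mem_ker, ← hc,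
      map_eq_zero_iff _ (algebraMap (F i) (E i)).injective]
  obtain ⟨g, hg⟩ := Algebra.IsInvariant.exists_smul_of_under_eq B A G (RingHom.ker (π i)) m hunder
  refine ⟨i, g⁻¹, fun a ha => ?_⟩
  rw [hg, Ideal.mem_pointwise_smul_iff_inv_smul_mem, RingHom.mem_ker]
  exact ha

include hc in
/-- **Semilocal coinduction for units.**  `A` Artinian and reduced, `A^G = B`; `ρ i` a full set of
pairwise different local components of `B` and `π i` a local component of `A` above `ρ i`.  Then
`Aˣ` is the product of the groups coinduced from `(E i)ˣ`: every family of functions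
`f i : G → (E i)ˣ`, equivariant for the decomposition groups, comes from a unique unit of `A`. -/
theorem existsUnique_unit_forall_eq [Finite ι] [IsArtinianRing A] [IsReduced A]
    (hπ : ∀ i, Function.Surjective (π i)) (hρs : ∀ i, Function.Surjective (ρ i))
    (hρ : ∀ i j : ι, (∀ b : B, ρ i b = 0 ↔ ρ j b = 0) → i = j)
    (hB : ∀ n : Ideal B, n.IsMaximal → ∃ i : ι, ∀ b : B, ρ i b = 0 → b ∈ n)
    (f : ∀ i, G → (E i)ˣ)
    (hf : ∀ (i : ι) (h : stab (G := G) (π i)) (g : G),
      ((f i (h.1 * g) : (E i)ˣ) : E i) = stabAct (π i) (hπ i) h (f i g)) :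
    ∃! u : Aˣ, ∀ (i : ι) (g : G), π i (g • (u : A)) = f i g :=
  GaloisCoind.existsUnique_unit_forall_eq π hπ (hdisj_of_base π ρ hc hρ)
    (fun _ ha => eq_zero_of_forall_eq_zero π (hcover_of_base π ρ hc hρs hB) ha) f hf

end Family

end Fermat.Agent.CFT.Glob.GaloisRel
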