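import Mathlib
import Fermat.Agent.CFT.Glob.GaloisCoind
import Fermat.Agent.CFT.Glob.GaloisRel
import Fermat.Agent.CFT.Glob.GaloisTensor

/-!
# Local components of `L ⊗[k] M`

The results of `GaloisCoind`, `GaloisRel` and `GaloisTensor` combined for the semilocal algebra
`A = L ⊗[k] M` with `G = Gal(L/K)` acting on the left factor, over `B = K ⊗[k] M`.
-/

namespace Fermat.Agent.CFT.Glob.GaloisSemilocal

open Fermat.Agent.CFT.Glob.GaloisCoind Fermat.Agent.CFT.Glob.GaloisRel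
  Fermat.Agent.CFT.Glob.GaloisTensor
open scoped TensorProduct

variable (k K L M : Type*) [Field k] [Field K] [Field L] [Algebra k K] [Algebra k L]
  [Algebra K L] [IsScalarTower k K L] [FiniteDimensional K L] [IsGalois K L]
  [CommRing M] [Algebra k M]

attribute [local instance] tensorAction baseAlgebra

variable {E : Type*} [Field E] (π : L ⊗[k] M →+* E) (hπ : Function.Surjective π)
  {F : Type*} [Field F] [Algebra F E] (ρ : K ⊗[k] M →+* F) (hρ : Function.Surjective ρ)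
  (hc : ∀ y : K ⊗[k] M, algebraMap F E (ρ y) = π (baseMap k K L M y))

/-- The decomposition group of a local component `π` of `L ⊗[k] M` is the Galois group of the
local extension `E/F`. -/
noncomputable def stabEquivGal : stab (G := L ≃ₐ[K] L) π ≃* (E ≃ₐ[F] E) :=
  haveI : SMulCommClass (L ≃ₐ[K] L) (K ⊗[k] M) (L ⊗[k] M) := smulCommClass k K L M
  haveI : Algebra.IsInvariant (K ⊗[k] M) (L ⊗[k] M) (L ≃ₐ[K] L) := isInvariant k K L M
  GaloisRel.stabEquivGal (G := L ≃ₐ[K] L) (B := K ⊗[k] M) π hπ ρ hρ hc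
    (L := L) (Algebra.TensorProduct.includeLeft : L →ₐ[k] L ⊗[k] M).toRingHom
    (fun g l => (smul_tmul k K L M g l 1).symm)

theorem stabEquivGal_apply (h : stab (G := L ≃ₐ[K] L) π) (a : L ⊗[k] M) :
    stabEquivGal k K L M π hπ ρ hρ hc h (π a) = π (h.1 • a) :=
  stabAct_map π hπ h a

include hπ ρ hc in
/-- `E/F` is normal. -/
theorem normal : Normal F E :=
  haveI : Algebra.IsInvariant (K ⊗[k] M) (L ⊗[k] M) (L ≃ₐ[K] L) := isInvariant k K L M
  GaloisRel.normal (L ≃ₐ[K] L) (B := K ⊗[k] M) π hπ ρ hc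

include hπ ρ hc in
/-- `E/F` is Galois as soon as it is separable. -/
theorem isGalois [Algebra.IsSeparable F E] : IsGalois F E :=
  haveI : Algebra.IsInvariant (K ⊗[k] M) (L ⊗[k] M) (L ≃ₐ[K] L) := isInvariant k K L M
  GaloisRel.isGalois (L ≃ₐ[K] L) (B := K ⊗[k] M) π hπ ρ hc

section Units

variable {ι : Type*} [Finite ι] {E' : ι → Type*} [∀ i, Field (E' i)]
  {F' : ι → Type*} [∀ i, Field (F' i)] [∀ i, Algebra (F' i) (E' i)]
  (M' : Type*) [Field M'] [Algebra k M'] [FiniteDimensional k L] [Algebra.IsSeparable k L]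
  (π' : ∀ i, L ⊗[k] M' →+* E' i) (ρ' : ∀ i, K ⊗[k] M' →+* F' i)
  (hc' : ∀ (i : ι) (y : K ⊗[k] M'), algebraMap (F' i) (E' i) (ρ' i y) = π' i (baseMap k K L M' y))

include hc' in
/-- **`(L ⊗[k] M')ˣ` is a product of coinduced modules.**  `M'` a field, `L/k` finite separable,
`L/K` Galois with group `G`; `ρ' i` a full set of pairwise different local components of
`K ⊗[k] M'` and `π' i` a local component of `L ⊗[k] M'` above `ρ' i`.  Every family of functions
`f i : G → (E' i)ˣ` which is equivariant for the decomposition groups `stab (π' i)` is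
`g ↦ π' i (g • u)` for a unique unit `u` of `L ⊗[k] M'`. -/
theorem existsUnique_unit_forall_eq
    (hπ' : ∀ i, Function.Surjective (π' i)) (hρs : ∀ i, Function.Surjective (ρ' i))
    (hρ : ∀ i j : ι, (∀ y : K ⊗[k] M', ρ' i y = 0 ↔ ρ' j y = 0) → i = j)
    (hB : ∀ n : Ideal (K ⊗[k] M'), n.IsMaximal → ∃ i : ι, ∀ y : K ⊗[k] M', ρ' i y = 0 → y ∈ n)
    (f : ∀ i, (L ≃ₐ[K] L) → (E' i)ˣ)
    (hf : ∀ (i : ι) (h : stab (G := L ≃ₐ[K] L) (π' i)) (g : L ≃ₐ[K] L),
      ((f i (h.1 * g) : (E' i)ˣ) : E' i) = stabAct (π' i) (hπ' i) h (f i g)) :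
    ∃! u : (L ⊗[k] M')ˣ, ∀ (i : ι) (g : L ≃ₐ[K] L), π' i (g • (u : L ⊗[k] M')) = f i g :=
  haveI : SMulCommClass (L ≃ₐ[K] L) (K ⊗[k] M') (L ⊗[k] M') := smulCommClass k K L M'
  haveI : Algebra.IsInvariant (K ⊗[k] M') (L ⊗[k] M') (L ≃ₐ[K] L) := isInvariant k K L M'
  haveI : IsArtinianRing (L ⊗[k] M') := isArtinianRing k L M'
  haveI : IsReduced (L ⊗[k] M') := isReduced k L M'
  GaloisRel.existsUnique_unit_forall_eq (G := L ≃ₐ[K] L) (B := K ⊗[k] M') π' ρ' hc' hπ' hρs hρ hB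
    f hf

end Units

end Fermat.Agent.CFT.Glob.GaloisSemilocal
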