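import Mathlib
import Fermat.Agent.CFT.Coh.InfRes2
import Fermat.Agent.CFT.Glob.ClassP
import Fermat.Agent.CFT.Triv.ClassAt

/-!
# P3 / CFT, layer L9 (Global exports): the abstract local–global statement [LG]

Pure finite-group statements; no number fields.

* `conj_homotopy`: for a `2`-cocycle `τ` of `D` and `g : D`, the conjugate cocycle
  `(x, y) ↦ g • τ (g⁻¹ x g, g⁻¹ y g)` equals `τ + d (z ↦ τ (g, g⁻¹ z g) - τ (z, g))`.
* `conj_transport`: a cohomology relation `j ∘ σB ∼ σC` on a subgroup `P₀` propagates to the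
  conjugate subgroup `g P₀ g⁻¹`.
* `isClassCoc_of_isClassAt`, `isClassAt_of_isClassCoc`: dictionary between `Triv.IsClassAt`
  (Mathlib `Rep` vocabulary) and `ClassP.IsClassCoc` (plain functions).
* `isClassCoc_zsmul_unit`: a class cocycle times a unit modulo the group order is a class cocycle.
* `sylow_adjust`: on one subgroup of prime-power order, a multiple of the local class maps to
  the global class.
* `exists_local_class_of_injective`: the same as `exists_local_class`, from injectivity of `j`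
  on `H²(P, -)`.
* `exists_local_class_zsmul`, `exists_normalised`, `exists_normalised_class`: the same with the
  multiplier exposed: `σw = k • σloc`, `k` prime to `p`.
* `exists_local_class`: **[LG]** in the literal shape of `Top.Plan.FinLevelData` /
  `Formation.FinDuality`: `D ≤ G` finite, `C : Rep ℤ G` with a `p`-class cocycle `σ`,
  `B : Rep ℤ D` with a `p`-class cocycle `σloc`, `j : B → C` equivariant such that `j ∘ σloc`
  still has order `|P|` on every `p`-subgroup `P ≤ D` (e.g. because `j` is injective on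
  `H²(P, -)`).  Then some multiple `σw = k' • σloc` is a `p`-class cocycle of `B` with
  `j ∘ σw ∼ σ` on EVERY `p`-subgroup of `D`.
-/

set_option autoImplicit false

namespace Fermat.Agent.CFT.Glob.LGAbstract

open Fermat.Agent.CFT.Coh.InfRes2Core Fermat.Agent.CFT.Glob.ClassP

section Core

variable {k D V W : Type*} [CommRing k] [Group D] [AddCommGroup V] [Module k V]
  [AddCommGroup W] [Module k W]

/-- **Conjugation acts trivially on `H²`, explicitly.** -/
theorem conj_homotopy (ρ : Representation k D V) {τ : D × D → V} (hτ : IsCoc ρ τ) (g x y : D) :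
    ρ g (τ (g⁻¹ * x * g, g⁻¹ * y * g)) =
      τ (x, y) + dOne ρ (fun z => τ (g, g⁻¹ * z * g) - τ (z, g)) (x, y) := by
  have eA := hτ x y g
  have eB := hτ x g (g⁻¹ * y * g)
  have eC := hτ g (g⁻¹ * x * g) (g⁻¹ * y * g)
  have h1 : g * (g⁻¹ * y * g) = y * g := by group
  have h2 : g * (g⁻¹ * x * g) = x * g := by group
  have h3 : g⁻¹ * x * g * (g⁻¹ * y * g) = g⁻¹ * (x * y) * g := by group
  rw [h1] at eB
  rw [h2, h3] at eC
  simp only [dOne_apply, map_sub]
  linear_combination (norm := abel) eB - eA - eC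

/-- **Transport of a local–global relation to a conjugate subgroup.** -/
theorem conj_transport (ρB : Representation k D V) (ρC : Representation k D W) (j : V →+ W)
    (hj : ∀ g v, j (ρB g v) = ρC g (j v))
    {σB : D × D → V} (hB : IsCoc ρB σB) {σC : D × D → W} (hC : IsCoc ρC σC)
    (P₀ : Subgroup D) (b₀ : D → W)
    (h₀ : ∀ x ∈ P₀, ∀ y ∈ P₀, j (σB (x, y)) = σC (x, y) + dOne ρC b₀ (x, y)) (g : D) :
    ∃ b : D → W, ∀ x y : D, g⁻¹ * x * g ∈ P₀ → g⁻¹ * y * g ∈ P₀ →
      j (σB (x, y)) = σC (x, y) + dOne ρC b (x, y) := by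
  refine ⟨fun z => (σC (g, g⁻¹ * z * g) - σC (z, g)) + ρC g (b₀ (g⁻¹ * z * g))
      - j (σB (g, g⁻¹ * z * g) - σB (z, g)), fun x y hx hy => ?_⟩
  have e1 := congrArg j (conj_homotopy ρB hB g x y)
  have e2 := conj_homotopy ρC hC g x y
  have e3 := congrArg (ρC g) (h₀ _ hx _ hy)
  have h2 : g * (g⁻¹ * x * g) = x * g := by group
  have h3 : g⁻¹ * x * g * (g⁻¹ * y * g) = g⁻¹ * (x * y) * g := by group
  have h4 : ρC g (ρC (g⁻¹ * x * g) (b₀ (g⁻¹ * y * g))) = ρC x (ρC g (b₀ (g⁻¹ * y * g))) := by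
    rw [← Module.End.mul_apply, ← map_mul, h2, map_mul, Module.End.mul_apply]
  simp only [dOne_apply, map_add, map_sub, hj, h3, h4] at e1 e2 e3 ⊢
  linear_combination (norm := abel) -e1 + e2 + e3

end Core

section Unit

variable {k H V : Type*} [CommRing k] [Group H] [Finite H] [AddCommGroup V] [Module k V]

/-- A class cocycle multiplied by `c'`, where `c * c' ≡ 1` modulo `|H|`, is a class cocycle. -/
theorem isClassCoc_zsmul_unit (ρ : Representation k H V) {s : H × H → V} (hs : IsClassCoc ρ s)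
    (c c' : ℤ) (hcc : (Nat.card H : ℤ) ∣ c * c' - 1) : IsClassCoc ρ (c' • s) := by
  obtain ⟨hcoc, h1, hgen, hord⟩ := hs
  obtain ⟨u, hu⟩ := hcc
  obtain ⟨x, hx⟩ := card_zsmul_eq_dOne ρ hcoc
  refine ⟨isCoc_zsmul ρ hcoc c', h1, fun T hT => ?_, fun m ⟨b, hb⟩ => ?_⟩
  · obtain ⟨m, b, hb⟩ := hgen T hT
    refine ⟨m * c, b - (m * u) • x, fun a a' => ?_⟩
    have e1 := hb a a'
    have e2 := hx a a'
    rw [dOne_sub_apply, dOne_zsmul_apply, Pi.smul_apply]
    linear_combination (norm := module) e1 - (m * u) • e2 - m • hu • s (a, a')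
  · have h2 : (Nat.card H : ℤ) ∣ m * c' := hord (m * c') ⟨b, fun a a' => by
      have e := hb a a'
      rw [Pi.smul_apply, smul_smul] at e
      exact e⟩
    have h3 : m = m * c' * c - m * (c * c' - 1) := by ring
    rw [h3]
    exact dvd_sub (h2.mul_right c) (Dvd.dvd.mul_left ⟨u, hu⟩ m)

/-- **Adjusting a local class on one subgroup of prime-power order.**  If `j ∘ σB` is a multiple
`k₀ • σC` (up to a coboundary) on `P` and still has order `|P| = p ^ e` there, then `k₀` is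
invertible modulo `|P|`, and for a suitable inverse `a` (prime to `p`) the cocycle
`j ∘ (a • σB)` is cohomologous to `σC` on `P`. -/
theorem sylow_adjust_coprime {k D V W : Type*} [CommRing k] [Group D] [AddCommGroup V]
    [Module k V] [AddCommGroup W] [Module k W] (p : ℕ) [Fact p.Prime]
    (ρC : Representation k D W) (j : V →+ W)
    (σB : D × D → V) (σC : D × D → W) (P : Subgroup D) [Finite P] (e : ℕ)
    (hP : Nat.card P = p ^ e)
    (hcoc : IsCoc (ρC.comp P.subtype) (fun q : P × P => σC ((q.1 : D), (q.2 : D))))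
    (hgen : ∃ (k₀ : ℤ) (b₁ : P → W), ∀ x y : P,
      j (σB ((x : D), (y : D))) = k₀ • σC ((x : D), (y : D)) + dOne (ρC.comp P.subtype) b₁ (x, y))
    (hord : ∀ m : ℤ, (∃ b : P → W, ∀ g h : P, m • j (σB ((g : D), (h : D))) =
        dOne (ρC.comp P.subtype) b (g, h)) → (Nat.card P : ℤ) ∣ m) :
    ∃ (k₀ a : ℤ), IsCoprime a (p : ℤ) ∧ (Nat.card P : ℤ) ∣ k₀ * a - 1 ∧
      ∃ b₀ : D → W, ∀ x ∈ P, ∀ y ∈ P,
        j (a • σB (x, y)) = σC (x, y) + dOne ρC b₀ (x, y) := by
  classical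
  have hp : p.Prime := Fact.out
  obtain ⟨k₀, b₁, hb₁⟩ := hgen
  obtain ⟨x₀, hx₀'⟩ := card_zsmul_eq_dOne (ρC.comp P.subtype) hcoc
  obtain ⟨N, hN⟩ : ∃ N : ℤ, N = ((Nat.card P : ℕ) : ℤ) := ⟨_, rfl⟩
  have hx₀ : ∀ x y : P, N • σC ((x : D), (y : D)) = dOne (ρC.comp P.subtype) x₀ (x, y) :=
    fun x y => by
      rw [hN]
      exact hx₀' x y
  -- `k₀` is prime to `|P|`; choose an inverse prime to `p`
  obtain ⟨a, t, hat, hap⟩ : ∃ a t : ℤ, a * k₀ + t * N = 1 ∧ IsCoprime a (p : ℤ) := by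
    rcases Nat.eq_zero_or_pos e with he0 | he0
    · refine ⟨1, 1 - k₀, ?_, isCoprime_one_left⟩
      have hN1 : N = 1 := by rw [hN, hP, he0, pow_zero, Nat.cast_one]
      rw [hN1]
      ring
    · have hne : N = (p : ℤ) ^ (e - 1) * p := by
        rw [hN, hP, ← pow_succ, Nat.sub_add_cancel he0]
        push_cast
        rfl
      have hpk : ¬ (p : ℤ) ∣ k₀ := by
        rintro ⟨k₁, hk₁⟩
        obtain ⟨M, hM⟩ : ∃ M : ℤ, M = (p : ℤ) ^ (e - 1) := ⟨_, rfl⟩
        have hMk : M * k₀ = k₁ * N := by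
          rw [hk₁, hne, hM]
          ring
        have hdiv := hord M ⟨M • b₁ + k₁ • x₀, fun g h => by
          have e1 := hb₁ g h
          have e2 := hx₀ g h
          rw [dOne_add_apply, dOne_zsmul_apply, dOne_zsmul_apply]
          linear_combination (norm := module) M • e1 + k₁ • e2 + hMk • σC ((g : D), (h : D))⟩
        rw [hP, hM] at hdiv
        have h2 : p ^ e ∣ p ^ (e - 1) := by
          have : ((p ^ e : ℕ) : ℤ) ∣ ((p ^ (e - 1) : ℕ) : ℤ) := by
            push_cast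
            exact hdiv
          exact Int.natCast_dvd_natCast.mp this
        have h3 := (Nat.pow_dvd_pow_iff_le_right hp.one_lt).mp h2
        omega
      have hcop : IsCoprime k₀ N := by
        rw [hN, hP]
        push_cast
        exact IsCoprime.pow_right
          ((Nat.prime_iff_prime_int.mp hp).irreducible.coprime_iff_not_dvd.mpr hpk).symm
      obtain ⟨a, t, hat⟩ := hcop
      refine ⟨a, t, hat, ⟨k₀, t * (p : ℤ) ^ (e - 1), ?_⟩⟩
      rw [hne] at hat
      linear_combination hat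
  refine ⟨k₀, a, hap, ?_, ?_⟩
  · rw [← hN]
    exact ⟨-t, by linear_combination hat⟩
  let bP : P → W := a • b₁ + (-t) • x₀
  refine ⟨fun z => if hz : z ∈ P then bP ⟨z, hz⟩ else 0, fun x hx y hy => ?_⟩
  have e1 := hb₁ ⟨x, hx⟩ ⟨y, hy⟩
  have e2 := hx₀ ⟨x, hx⟩ ⟨y, hy⟩
  have e3 : dOne ρC (fun z => if hz : z ∈ P then bP ⟨z, hz⟩ else 0) (x, y)
      = dOne (ρC.comp P.subtype) bP (⟨x, hx⟩, ⟨y, hy⟩) := by
    simp only [dOne_apply, dif_pos hx, dif_pos hy, dif_pos (mul_mem hx hy)]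
    rfl
  rw [e3, dOne_add_apply, dOne_zsmul_apply, dOne_zsmul_apply, map_zsmul]
  linear_combination (norm := module) a • e1 - t • e2 + hat • σC (x, y)

/-- `sylow_adjust_coprime` without the coprimality statement. -/
theorem sylow_adjust {k D V W : Type*} [CommRing k] [Group D] [AddCommGroup V] [Module k V]
    [AddCommGroup W] [Module k W] (p : ℕ) [Fact p.Prime]
    (ρC : Representation k D W) (j : V →+ W)
    (σB : D × D → V) (σC : D × D → W) (P : Subgroup D) [Finite P] (e : ℕ)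
    (hP : Nat.card P = p ^ e)
    (hcoc : IsCoc (ρC.comp P.subtype) (fun q : P × P => σC ((q.1 : D), (q.2 : D))))
    (hgen : ∃ (k₀ : ℤ) (b₁ : P → W), ∀ x y : P,
      j (σB ((x : D), (y : D))) = k₀ • σC ((x : D), (y : D)) + dOne (ρC.comp P.subtype) b₁ (x, y))
    (hord : ∀ m : ℤ, (∃ b : P → W, ∀ g h : P, m • j (σB ((g : D), (h : D))) =
        dOne (ρC.comp P.subtype) b (g, h)) → (Nat.card P : ℤ) ∣ m) :
    ∃ (k₀ a : ℤ), (Nat.card P : ℤ) ∣ k₀ * a - 1 ∧ ∃ b₀ : D → W, ∀ x ∈ P, ∀ y ∈ P,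
      j (a • σB (x, y)) = σC (x, y) + dOne ρC b₀ (x, y) := by
  obtain ⟨k₀, a, -, h1, h2⟩ := sylow_adjust_coprime p ρC j σB σC P e hP hcoc hgen hord
  exact ⟨k₀, a, h1, h2⟩

end Unit

/- For `C : Rep ℤ G` instance search finds `AddCommGroup.toIntModule` before `C.hV2`; the
representation `C.ρ` is typed with `C.hV2`.  Locally prefer the field. -/
attribute [local instance 2000] Rep.hV2

section Bridge

open CategoryTheory groupCohomology Fermat.Agent.CFT.Triv

variable {G H : Type} [Group G] [Group H]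

/-- `Triv.IsClassAt` (Mathlib `Rep` vocabulary) gives `ClassP.IsClassCoc` (plain functions). -/
theorem isClassCoc_of_isClassAt (C : Rep.{0} ℤ G) (σ : cocycles₂ C) (f : H →* G)
    (h : IsClassAt C σ f) :
    IsClassCoc (C.ρ.comp f) (fun q : H × H => σ (f q.1, f q.2)) := by
  refine ⟨fun a b c => ?_, fun c hc => ?_, fun T hT => ?_, fun m hm => ?_⟩
  · have e := (mem_cocycles₂_iff (⇑σ)).1 σ.2 (f a) (f b) (f c)
    simp only [map_mul]
    exact e
  · obtain ⟨v, hv⟩ := h.h1 ⟨c, (mem_cocycles₁_iff (A := Rep.res f C) c).2 hc⟩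
    exact ⟨v, fun a => (congrFun hv a).symm⟩
  · obtain ⟨m, b, hb⟩ := h.gen ⟨T, (mem_cocycles₂_iff (A := Rep.res f C) T).2 hT⟩
    exact ⟨m, b, fun x y => congrFun hb (x, y)⟩
  · obtain ⟨b, hb⟩ := hm
    exact h.ord m ⟨b, funext fun q => hb q.1 q.2⟩

/-- `ClassP.IsClassCoc` (plain functions) gives `Triv.IsClassAt` (Mathlib `Rep` vocabulary). -/
theorem isClassAt_of_isClassCoc (C : Rep.{0} ℤ G) (σ : cocycles₂ C) (f : H →* G)
    (h : IsClassCoc (C.ρ.comp f) (fun q : H × H => σ (f q.1, f q.2))) : IsClassAt C σ f where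
  h1 := fun c => by
    obtain ⟨v, hv⟩ := h.2.1 c ((mem_cocycles₁_iff (A := Rep.res f C) c).1 c.2)
    exact ⟨v, funext fun a => (hv a).symm⟩
  gen := fun τ => by
    obtain ⟨m, b, hb⟩ := h.2.2.1 τ ((mem_cocycles₂_iff (A := Rep.res f C) τ).1 τ.2)
    exact ⟨m, b, funext fun q => hb q.1 q.2⟩
  ord := fun m ⟨b, hb⟩ => h.2.2.2 m ⟨b, fun x y => congrFun hb (x, y)⟩

end Bridge

section Main

open CategoryTheory groupCohomology Fermat.Agent.CFT.Triv

variable {G : Type} [Group G]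

/-- **[LG], abstract form, with the multiplier exposed.**  `D ≤ G` finite, `(C, σ)` a
`p`-class module for `G`, `(B, σloc)` a `p`-class module for `D`, `j : B → C` a `D`-map such
that `j ∘ σloc` has order (at least) `|P|` in `H²(P, C)` for every `p`-subgroup `P ≤ D`.  Then
there is an integer `a` prime to `p` such that `a • σloc` is a `p`-class cocycle of `B` with
`j ∘ (a • σloc) ∼ σ` on every `p`-subgroup of `D`. -/
theorem exists_local_class_zsmul (p : ℕ) [Fact p.Prime] (D : Subgroup G) [Finite D]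
    (C : Rep.{0} ℤ G) (σ : cocycles₂ C) (hσ : IsPClassModule p C σ)
    (B : Rep.{0} ℤ D) (σloc : cocycles₂ B) (hloc : IsPClassModule p B σloc)
    (j : B →+ C) (hj : ∀ (g : D) (c : B), j (B.ρ g c) = C.ρ (g : G) (j c))
    (hord : ∀ P : Subgroup D, IsPGroup p P → ∀ m : ℤ,
      (∃ b : P → C, ∀ g h : P, m • j (σloc ((g : D), (h : D))) =
        C.ρ ((g : D) : G) (b h) - b (g * h) + b g) → (Nat.card P : ℤ) ∣ m) :
    ∃ a : ℤ, IsCoprime a (p : ℤ) ∧ IsPClassModule p B (a • σloc) ∧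
      ∀ H : Subgroup D, IsPGroup p H → ∃ b : H → C, ∀ g h : H,
        j ((a • σloc) ((g : D), (h : D))) =
          σ (((g : D) : G), ((h : D) : G)) + (C.ρ ((g : D) : G) (b h) - b (g * h) + b g) := by
  classical
  have hp : p.Prime := Fact.out
  -- representations and cocycles as plain functions
  let ρC : Representation ℤ D C := C.ρ.comp D.subtype
  let sC : D × D → C := fun q => σ ((q.1 : G), (q.2 : G))
  have hB : IsCoc B.ρ (⇑σloc) := fun a b c => (mem_cocycles₂_iff (⇑σloc)).1 σloc.2 a b c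
  have hC : IsCoc ρC sC := fun a b c =>
    (mem_cocycles₂_iff (⇑σ)).1 σ.2 (a : G) (b : G) (c : G)
  -- a Sylow subgroup
  obtain ⟨P₀⟩ : Nonempty (Sylow p D) := inferInstance
  let P : Subgroup D := (P₀ : Subgroup D)
  have hPp : IsPGroup p P := P₀.isPGroup'
  let f₀ : P →* G := D.subtype.comp P.subtype
  have hf₀ : Function.Injective f₀ :=
    (Subgroup.subtype_injective D).comp (Subgroup.subtype_injective _)
  have hcP := isClassCoc_of_isClassAt C σ f₀ (hσ _ f₀ hf₀ hPp)
  -- `j ∘ σloc` on `P₀`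
  have hT : IsCoc (C.ρ.comp f₀) (fun q : P × P => j (σloc ((q.1 : D), (q.2 : D)))) := by
    intro a b c
    have e := congrArg j (hB (a : D) (b : D) (c : D))
    simp only [map_add, hj] at e
    exact e
  set e := (Nat.card D).factorization p with he
  have hn₀ : Nat.card P = p ^ e := P₀.card_eq_multiplicity
  obtain ⟨k, a, hap, hka, b₀, h₀⟩ := sylow_adjust_coprime p ρC j (⇑σloc) sC P e hn₀ hcP.1
    (hcP.2.2.1 _ hT) (hord P hPp)
  -- the local class
  have hBa : IsCoc B.ρ (⇑(a • σloc)) := isCoc_zsmul B.ρ hB a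
  have hσw : IsPClassModule p B (a • σloc) := by
    intro H _ _ f hf hH
    have h := isClassCoc_of_isClassAt B σloc f (hloc H f hf hH)
    apply isClassAt_of_isClassCoc
    have hdvd : (Nat.card H : ℤ) ∣ k * a - 1 := by
      obtain ⟨i, hi⟩ := hH.exists_card_eq
      have h1 : p ^ i ∣ Nat.card D := hi ▸ Subgroup.card_dvd_of_injective f hf
      have h2 : i ≤ e := (hp.pow_dvd_iff_le_factorization Nat.card_pos.ne').mp h1
      have h3 : (Nat.card H : ℤ) ∣ ((Nat.card P : ℕ) : ℤ) := by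
        rw [hi, hn₀]
        push_cast
        exact pow_dvd_pow _ h2
      exact h3.trans hka
    exact isClassCoc_zsmul_unit (B.ρ.comp f) h k a hdvd
  -- every `p`-subgroup is conjugate into `P₀`
  refine ⟨a, hap, hσw, fun H hH => ?_⟩
  obtain ⟨Q, hQ⟩ := hH.exists_le_sylow
  obtain ⟨g, hg⟩ := MulAction.exists_smul_eq D P₀ Q
  obtain ⟨b, hb⟩ := conj_transport B.ρ ρC j (fun g v => hj g v) hBa hC P b₀
    (fun x hx y hy => h₀ x hx y hy) g
  have hmem : ∀ z : H, g⁻¹ * (z : D) * g ∈ P := by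
    intro z
    have hz : (z : D) ∈ (Q : Subgroup D) := hQ z.2
    rw [← hg, Sylow.coe_subgroup_smul, Subgroup.mem_pointwise_smul_iff_inv_smul_mem] at hz
    simpa [MulAut.smul_def] using hz
  exact ⟨fun z => b z, fun x y => hb x y (hmem x) (hmem y)⟩

/-- **[LG], abstract form** (the literal shape of the `[LG]` clause of `Top.Plan.FinLevelData` and
of `Formation.FinDuality`).  `D ≤ G` finite, `(C, σ)` a `p`-class module for `G`, `(B, σloc)` a
`p`-class module for `D`, `j : B → C` a `D`-map such that `j ∘ σloc` has order (at least) `|P|`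
in `H²(P, C)` for every `p`-subgroup `P ≤ D`.  Then there is a `p`-class cocycle `σw` of `B`
(an integer multiple of `σloc`) with `j ∘ σw ∼ σ` on every `p`-subgroup of `D`. -/
theorem exists_local_class (p : ℕ) [Fact p.Prime] (D : Subgroup G) [Finite D]
    (C : Rep.{0} ℤ G) (σ : cocycles₂ C) (hσ : IsPClassModule p C σ)
    (B : Rep.{0} ℤ D) (σloc : cocycles₂ B) (hloc : IsPClassModule p B σloc)
    (j : B →+ C) (hj : ∀ (g : D) (c : B), j (B.ρ g c) = C.ρ (g : G) (j c))
    (hord : ∀ P : Subgroup D, IsPGroup p P → ∀ m : ℤ,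
      (∃ b : P → C, ∀ g h : P, m • j (σloc ((g : D), (h : D))) =
        C.ρ ((g : D) : G) (b h) - b (g * h) + b g) → (Nat.card P : ℤ) ∣ m) :
    ∃ σw : cocycles₂ B, IsPClassModule p B σw ∧
      ∀ H : Subgroup D, IsPGroup p H → ∃ b : H → C, ∀ g h : H,
        j (σw ((g : D), (h : D))) =
          σ (((g : D) : G), ((h : D) : G)) + (C.ρ ((g : D) : G) (b h) - b (g * h) + b g) := by
  obtain ⟨a, -, h1, h2⟩ := exists_local_class_zsmul p D C σ hσ B σloc hloc j hj hord
  exact ⟨a • σloc, h1, h2⟩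

/-- The order hypothesis of `exists_local_class` follows from injectivity of `j` on `H²(P, -)`
for the `p`-subgroups `P ≤ D` (cocycle form). -/
theorem hord_of_injective (p : ℕ) (D : Subgroup G)
    (C : Rep.{0} ℤ G) (B : Rep.{0} ℤ D) (σloc : cocycles₂ B) (hloc : IsPClassModule p B σloc)
    (j : B →+ C)
    (hinj : ∀ P : Subgroup D, IsPGroup p P → ∀ τ : P × P → B,
      (∀ a b c : P, τ (a * b, c) + τ (a, b) = B.ρ (a : D) (τ (b, c)) + τ (a, b * c)) →
      (∃ b : P → C, ∀ g h : P, j (τ (g, h)) = C.ρ ((g : D) : G) (b h) - b (g * h) + b g) →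
      ∃ b : P → B, ∀ g h : P, τ (g, h) = B.ρ (g : D) (b h) - b (g * h) + b g)
    (P : Subgroup D) [Finite P] (hP : IsPGroup p P) (m : ℤ)
    (hm : ∃ b : P → C, ∀ g h : P, m • j (σloc ((g : D), (h : D))) =
        C.ρ ((g : D) : G) (b h) - b (g * h) + b g) : (Nat.card P : ℤ) ∣ m := by
  obtain ⟨b, hb⟩ := hm
  have hB : IsCoc B.ρ (⇑σloc) := fun a b c => (mem_cocycles₂_iff (⇑σloc)).1 σloc.2 a b c
  have hcl := isClassCoc_of_isClassAt B σloc P.subtype
    (hloc P P.subtype (Subgroup.subtype_injective P) hP)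
  obtain ⟨b', hb'⟩ := hinj P hP (fun q => m • σloc ((q.1 : D), (q.2 : D)))
    (fun a b c => by
      have e := hB (a : D) (b : D) (c : D)
      show m • σloc (((a : D) * (b : D)), (c : D)) + m • σloc ((a : D), (b : D)) =
        B.ρ (a : D) (m • σloc ((b : D), (c : D))) + m • σloc ((a : D), (b : D) * (c : D))
      rw [map_zsmul, ← zsmul_add, ← zsmul_add, e])
    ⟨b, fun g h => by
      rw [map_zsmul]
      exact hb g h⟩
  exact hcl.2.2.2 m ⟨b', fun x y => hb' x y⟩

/-- **[LG], abstract form, from injectivity.**  Same as `exists_local_class`, with the order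
hypothesis replaced by: `j` is injective on `H²(P, -)` for every `p`-subgroup `P ≤ D`
(cocycle form). -/
theorem exists_local_class_of_injective (p : ℕ) [Fact p.Prime] (D : Subgroup G) [Finite D]
    (C : Rep.{0} ℤ G) (σ : cocycles₂ C) (hσ : IsPClassModule p C σ)
    (B : Rep.{0} ℤ D) (σloc : cocycles₂ B) (hloc : IsPClassModule p B σloc)
    (j : B →+ C) (hj : ∀ (g : D) (c : B), j (B.ρ g c) = C.ρ (g : G) (j c))
    (hinj : ∀ P : Subgroup D, IsPGroup p P → ∀ τ : P × P → B,
      (∀ a b c : P, τ (a * b, c) + τ (a, b) = B.ρ (a : D) (τ (b, c)) + τ (a, b * c)) →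
      (∃ b : P → C, ∀ g h : P, j (τ (g, h)) = C.ρ ((g : D) : G) (b h) - b (g * h) + b g) →
      ∃ b : P → B, ∀ g h : P, τ (g, h) = B.ρ (g : D) (b h) - b (g * h) + b g) :
    ∃ σw : cocycles₂ B, IsPClassModule p B σw ∧
      ∀ H : Subgroup D, IsPGroup p H → ∃ b : H → C, ∀ g h : H,
        j (σw ((g : D), (h : D))) =
          σ (((g : D) : G), ((h : D) : G)) + (C.ρ ((g : D) : G) (b h) - b (g * h) + b g) :=
  exists_local_class p D C σ hσ B σloc hloc j hj
    (fun P hP m hm => hord_of_injective p D C B σloc hloc j hinj P hP m hm)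

/-- **[NORM]** (the text of helper48's roster, board row 1820): the normalising multiplier `k`,
prime to `p`, with `j ∘ (k • σw) ∼ σ` on every `p`-subgroup of `D`. -/
theorem exists_normalised {p : ℕ} [Fact p.Prime] {Q : Type} [Group Q] [Finite Q]
    (C : Rep.{0} ℤ Q) (σ : cocycles₂ C) (hσ : IsPClassModule p C σ) (D : Subgroup Q)
    (Cw : Rep.{0} ℤ ↥D) (σw : cocycles₂ Cw) (hσw : IsPClassModule p Cw σw) (j : Cw →+ C)
    (hj : ∀ (g : ↥D) (c : Cw), j (Cw.ρ g c) = C.ρ (g : Q) (j c))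
    (hinj : ∀ H : Subgroup ↥D, IsPGroup p H → ∀ τ : H × H → Cw,
      (∀ g h k : H, τ (g * h, k) + τ (g, h) = Cw.ρ (g : ↥D) (τ (h, k)) + τ (g, h * k)) →
      (∃ b : H → C, ∀ g h : H, j (τ (g, h)) = C.ρ ((g : ↥D) : Q) (b h) - b (g * h) + b g) →
      ∃ a : H → Cw, ∀ g h : H, τ (g, h) = Cw.ρ (g : ↥D) (a h) - a (g * h) + a g) :
    ∃ k : ℤ, IsCoprime k (p : ℤ) ∧ ∀ H : Subgroup ↥D, IsPGroup p H → ∃ b : H → C,
      ∀ g h : H, j ((k • σw) ((g : ↥D), (h : ↥D))) =
        σ (((g : ↥D) : Q), ((h : ↥D) : Q)) + (C.ρ ((g : ↥D) : Q) (b h) - b (g * h) + b g) := by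
  obtain ⟨a, ha, -, h2⟩ := exists_local_class_zsmul p D C σ hσ Cw σw hσw j hj
    (fun P hP m hm => hord_of_injective p D C Cw σw hσw j hinj P hP m hm)
  exact ⟨a, ha, h2⟩

/-- `exists_normalised` together with the class-module property of the normalised cocycle. -/
theorem exists_normalised_class {p : ℕ} [Fact p.Prime] {Q : Type} [Group Q] [Finite Q]
    (C : Rep.{0} ℤ Q) (σ : cocycles₂ C) (hσ : IsPClassModule p C σ) (D : Subgroup Q)
    (Cw : Rep.{0} ℤ ↥D) (σw : cocycles₂ Cw) (hσw : IsPClassModule p Cw σw) (j : Cw →+ C)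
    (hj : ∀ (g : ↥D) (c : Cw), j (Cw.ρ g c) = C.ρ (g : Q) (j c))
    (hinj : ∀ H : Subgroup ↥D, IsPGroup p H → ∀ τ : H × H → Cw,
      (∀ g h k : H, τ (g * h, k) + τ (g, h) = Cw.ρ (g : ↥D) (τ (h, k)) + τ (g, h * k)) →
      (∃ b : H → C, ∀ g h : H, j (τ (g, h)) = C.ρ ((g : ↥D) : Q) (b h) - b (g * h) + b g) →
      ∃ a : H → Cw, ∀ g h : H, τ (g, h) = Cw.ρ (g : ↥D) (a h) - a (g * h) + a g) :
    ∃ k : ℤ, IsCoprime k (p : ℤ) ∧ IsPClassModule p Cw (k • σw) ∧
      ∀ H : Subgroup ↥D, IsPGroup p H → ∃ b : H → C,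
        ∀ g h : H, j ((k • σw) ((g : ↥D), (h : ↥D))) =
          σ (((g : ↥D) : Q), ((h : ↥D) : Q)) + (C.ρ ((g : ↥D) : Q) (b h) - b (g * h) + b g) :=
  exists_local_class_zsmul p D C σ hσ Cw σw hσw j hj
    (fun P hP m hm => hord_of_injective p D C Cw σw hσw j hinj P hP m hm)

end Main

end Fermat.Agent.CFT.Glob.LGAbstract
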