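import Mathlib
import Fermat.Agent.CFT.Coh.HerbrandCyclic

/-!
# Herbrand quotients of permutation lattices (Artin's lattice lemma)

`G` a finite group acting on a finite set `X`.

* `h0_permRep`, `hm1_permRep`: for the permutation module `ℤ[X] = (X → ℤ)`,
  `|Ĥ⁰| = ∏_{orbits} |Stab|` and `Ĥ⁻¹ = 0` (any finite `G`).
* `herbrand_permBasis`: the same for any `G`-module with a permuted `ℤ`-basis.
* `exists_equivariant_linearIndependent` (Artin's lemma): a `G`-stable full lattice in `ℝ^X`
  contains an equivariant `ℝ`-linearly independent family `Y : X → ℝ^X`.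
* `herbrand_of_lattice`: a `G`-module mapping equivariantly, with finite kernel, onto a full
  lattice of `ℝ^X` has Herbrand quotient `∏_{orbits} |Stab|` (`G` cyclic).
* `herbrand_of_logEmbedding`: a `G`-module mapping equivariantly, with finite kernel, onto a
  lattice spanning the hyperplane `∑ x, v x = 0` of `ℝ^X` has Herbrand quotient
  `(1 / |G|) * ∏_{orbits} |Stab|` (the shape of the `S`-unit theorem).
-/

namespace Fermat.Agent.CFT.Glob.LatticeHerbrand

open Fermat.Agent.CFT.Herbrand
open scoped BigOperators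

set_option linter.unusedSectionVars false

/-- The permutation module structure on `X → R`: `(g • f) x = f (g⁻¹ • x)`. -/
def permRep (G X R : Type*) [Group G] [MulAction G X] [AddCommGroup R] :
    G →* AddMonoid.End (X → R) where
  toFun g :=
    { toFun := fun f x => f (g⁻¹ • x)
      map_zero' := rfl
      map_add' := fun _ _ => rfl }
  map_one' := by
    ext f x
    show f ((1 : G)⁻¹ • x) = f x
    rw [inv_one, one_smul]
  map_mul' g h := by
    ext f x
    show f ((g * h)⁻¹ • x) = f (h⁻¹ • g⁻¹ • x)
    rw [mul_inv_rev, mul_smul]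

@[simp] theorem permRep_apply {G X R : Type*} [Group G] [MulAction G X] [AddCommGroup R]
    (g : G) (f : X → R) (x : X) : permRep G X R g f x = f (g⁻¹ • x) := rfl

theorem permRep_single {G X : Type*} [Group G] [MulAction G X] [DecidableEq X]
    {R : Type*} [AddCommGroup R] (g : G) (x : X) (r : R) :
    permRep G X R g (Pi.single x r) = Pi.single (g • x) r := by
  funext y
  rw [permRep_apply]
  by_cases h : y = g • x
  · subst h
    rw [inv_smul_smul, Pi.single_eq_same, Pi.single_eq_same]
  · rw [Pi.single_eq_of_ne h, Pi.single_eq_of_ne]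
    rintro h'
    exact h (by rw [← h', smul_inv_smul])

section Perm

variable {G : Type*} [Group G] [Fintype G] {X : Type*} [MulAction G X]

/-- The fibres of `g ↦ g • x` over the orbit all have the cardinality of the stabiliser. -/
theorem card_fiber (x : X) (h : G) [DecidablePred fun g : G => g • x = h • x] :
    (Finset.univ.filter (fun g : G => g • x = h • x)).card
      = Nat.card (MulAction.stabilizer G x) := by
  rw [← Fintype.card_subtype, ← Nat.card_eq_fintype_card]
  refine Nat.card_congr ?_
  exact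
    { toFun := fun g => ⟨h⁻¹ * g.1, by
        rw [MulAction.mem_stabilizer_iff, mul_smul, g.2, inv_smul_smul]⟩
      invFun := fun s => ⟨h * s.1, by
        rw [mul_smul, MulAction.mem_stabilizer_iff.1 s.2]⟩
      left_inv := fun g => by ext; simp
      right_inv := fun s => by ext; simp }

theorem card_stab_pos (x : X) : 0 < Nat.card (MulAction.stabilizer G x) := Nat.card_pos

theorem card_stab_eq {x y : X} (h : MulAction.orbitRel G X x y) :
    Nat.card (MulAction.stabilizer G x) = Nat.card (MulAction.stabilizer G y) :=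
  Nat.card_congr (MulAction.stabilizerEquivStabilizerOfOrbitRel h).toEquiv

variable [Fintype X]

/-- `∑_g f (g • y) = |Stab y| * ∑_{z ∈ orbit y} f z`. -/
theorem sum_smul_eq (f : X → ℤ) (y : X) :
    ∑ g : G, f (g • y) = (Nat.card (MulAction.stabilizer G y) : ℤ)
      * ∑ z : X, (open Classical in if z ∈ MulAction.orbit G y then f z else 0) := by
  classical
  have h1 : ∀ g : G, f (g • y) = ∑ z : X, if g • y = z then f z else 0 := fun g => by simp
  simp_rw [h1]
  rw [Finset.sum_comm, Finset.mul_sum]
  refine Finset.sum_congr rfl fun z _ => ?_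
  by_cases hz : z ∈ MulAction.orbit G y
  · rw [if_pos hz]
    obtain ⟨h, rfl⟩ := hz
    dsimp only
    rw [← Finset.sum_filter, Finset.sum_const, card_fiber, nsmul_eq_mul]
  · rw [if_neg hz, mul_zero]
    refine Finset.sum_eq_zero fun g _ => ?_
    rw [if_neg]
    rintro rfl
    exact hz ⟨g, rfl⟩

theorem nEnd_permRep_apply (f : X → ℤ) (y : X) :
    nEnd (permRep G X ℤ) f y = (Nat.card (MulAction.stabilizer G y) : ℤ)
      * ∑ z : X, (open Classical in if z ∈ MulAction.orbit G y then f z else 0) := by
  rw [nEnd_apply, Finset.sum_apply, ← sum_smul_eq]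
  simp only [permRep_apply]
  exact Fintype.sum_equiv (Equiv.inv G) _ _ (fun g => rfl)

end Perm

section PermH

variable {G : Type*} [Group G] [Fintype G] {X : Type*} [MulAction G X] [Fintype X]

/-- The chosen representative of the orbit of `x`. -/
noncomputable def orbRep (G : Type*) {X : Type*} [Group G] [MulAction G X] (x : X) : X :=
  Quotient.out (Quotient.mk (MulAction.orbitRel G X) x)

theorem orbRep_rel (x : X) : MulAction.orbitRel G X (orbRep G x) x :=
  Quotient.mk_out (s := MulAction.orbitRel G X) x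

theorem exists_smul_orbRep (x : X) : ∃ g : G, g • orbRep G x = x := by
  have h := MulAction.orbitRel_apply.1 ((MulAction.orbitRel G X).symm (orbRep_rel (G := G) x))
  exact h

theorem orbRep_out (o : Quotient (MulAction.orbitRel G X)) : orbRep G o.out = o.out := by
  unfold orbRep
  rw [Quotient.out_eq]

theorem orbRep_orbRep (x : X) : orbRep G (orbRep G x) = orbRep G x := orbRep_out _

theorem orbRep_eq_iff {x y : X} :
    orbRep G x = orbRep G y ↔ x ∈ MulAction.orbit G y := by
  unfold orbRep
  rw [Quotient.out_inj, Quotient.eq]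
  exact MulAction.orbitRel_apply

theorem mem_invariants_permRep {f : X → ℤ} :
    f ∈ invariants (permRep G X ℤ) ↔ ∀ (g : G) (x : X), f (g • x) = f x := by
  rw [mem_invariants]
  constructor
  · intro h g x
    have := congrFun (h g⁻¹) x
    rw [permRep_apply, inv_inv] at this
    exact this
  · intro h g
    funext x
    rw [permRep_apply, h]

theorem invariant_orbRep {f : X → ℤ} (hf : f ∈ invariants (permRep G X ℤ)) (x : X) :
    f (orbRep G x) = f x := by
  obtain ⟨g, hg⟩ := exists_smul_orbRep (G := G) x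
  conv_rhs => rw [← hg]
  exact ((mem_invariants_permRep.1 hf) g _).symm

/-- Evaluation at the orbit representatives, modulo the orders of the stabilisers. -/
noncomputable def evalRep (G X : Type*) [Group G] [MulAction G X] :
    (X → ℤ) →+ ((o : Quotient (MulAction.orbitRel G X)) →
      ZMod (Nat.card (MulAction.stabilizer G o.out))) where
  toFun f o := (f o.out : ZMod _)
  map_zero' := by
    funext o
    simp
  map_add' f g := by
    funext o
    simp

theorem evalRep_apply (f : X → ℤ) (o : Quotient (MulAction.orbitRel G X)) :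
    evalRep G X f o = (f o.out : ZMod (Nat.card (MulAction.stabilizer G o.out))) := rfl

theorem evalRep_surjective :
    Function.Surjective ((evalRep G X).comp (invariants (permRep G X ℤ)).subtype) := by
  intro t
  choose t' ht' using fun o => ZMod.intCast_surjective (t o)
  refine ⟨⟨fun x => t' (Quotient.mk (MulAction.orbitRel G X) x), ?_⟩, ?_⟩
  · rw [mem_invariants_permRep]
    intro g x
    have : Quotient.mk (MulAction.orbitRel G X) (g • x) = Quotient.mk (MulAction.orbitRel G X) x :=
      Quotient.sound (MulAction.orbitRel_apply.2 ⟨g, rfl⟩)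
    show t' _ = t' _
    rw [this]
  · funext o
    show ((t' (Quotient.mk (MulAction.orbitRel G X) o.out) : ℤ) : ZMod _) = t o
    rw [Quotient.out_eq, ht']

theorem evalRep_ker :
    ((evalRep G X).comp (invariants (permRep G X ℤ)).subtype).ker
      = (nEnd (permRep G X ℤ)).range.addSubgroupOf (invariants (permRep G X ℤ)) := by
  classical
  ext ⟨f, hf⟩
  rw [AddMonoidHom.mem_ker, AddSubgroup.mem_addSubgroupOf, AddMonoidHom.comp_apply]
  show evalRep G X f = 0 ↔ f ∈ (nEnd (permRep G X ℤ)).range
  constructor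
  · intro h
    have hdvd : ∀ o : Quotient (MulAction.orbitRel G X),
        (Nat.card (MulAction.stabilizer G o.out) : ℤ) ∣ f o.out := by
      intro o
      have := congrFun h o
      rw [evalRep_apply, Pi.zero_apply] at this
      exact (ZMod.intCast_zmod_eq_zero_iff_dvd _ _).1 this
    choose c hc using hdvd
    refine ⟨fun x => if x = orbRep G x then c (Quotient.mk (MulAction.orbitRel G X) x) else 0, ?_⟩
    funext y
    rw [nEnd_permRep_apply]
    have hsum : (∑ z : X, if z ∈ MulAction.orbit G y then
        (if z = orbRep G z then c (Quotient.mk (MulAction.orbitRel G X) z) else 0) else 0)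
        = c (Quotient.mk (MulAction.orbitRel G X) y) := by
      rw [Finset.sum_eq_single (orbRep G y)]
      · have h1 : orbRep G y ∈ MulAction.orbit G y := MulAction.orbitRel_apply.1 (orbRep_rel y)
        rw [if_pos h1, if_pos (orbRep_orbRep y).symm]
        congr 1
        exact Quotient.sound (orbRep_rel y)
      · intro z _ hz
        by_cases h1 : z ∈ MulAction.orbit G y
        · rw [if_pos h1, if_neg]
          intro h2
          apply hz
          rw [h2]
          exact orbRep_eq_iff.2 h1
        · rw [if_neg h1]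
      · intro h
        exact absurd (Finset.mem_univ _) h
    rw [hsum]
    have h2 := hc (Quotient.mk (MulAction.orbitRel G X) y)
    have h3 : f y = f (orbRep G y) := (invariant_orbRep hf y).symm
    rw [h3]
    show _ = f (Quotient.out (Quotient.mk (MulAction.orbitRel G X) y))
    rw [h2]
    congr 2
    exact card_stab_eq ((MulAction.orbitRel G X).symm (orbRep_rel y))
  · rintro ⟨e, rfl⟩
    funext o
    rw [evalRep_apply, Pi.zero_apply, nEnd_permRep_apply, Int.cast_mul, Int.cast_natCast,
      ZMod.natCast_self, zero_mul]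

/-- `|Ĥ⁰(G, ℤ[X])| = ∏_{orbits} |Stab|`. -/
theorem h0_permRep [Fintype (Quotient (MulAction.orbitRel G X))] :
    h0 (permRep G X ℤ)
      = ∏ o : Quotient (MulAction.orbitRel G X), Nat.card (MulAction.stabilizer G o.out) := by
  rw [h0, AddSubgroup.relIndex, ← evalRep_ker, AddSubgroup.index_ker,
    AddMonoidHom.range_eq_top.2 evalRep_surjective]
  rw [Nat.card_congr AddSubgroup.topEquiv.toEquiv, Nat.card_pi]
  simp only [Nat.card_zmod]

end PermH

section PermHm

variable {G : Type*} [Group G] [Fintype G] {X : Type*} [MulAction G X] [Fintype X]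

theorem ker_nEnd_permRep_le : (nEnd (permRep G X ℤ)).ker ≤ augRange (permRep G X ℤ) := by
  classical
  intro f hf
  rw [AddMonoidHom.mem_ker] at hf
  -- the orbit sums of `f` vanish
  have hsum : ∀ y : X, (∑ z : X, if z ∈ MulAction.orbit G y then f z else 0) = 0 := by
    intro y
    have h1 := congrFun hf y
    rw [nEnd_permRep_apply, Pi.zero_apply] at h1
    rcases mul_eq_zero.1 h1 with h2 | h2
    · exact absurd h2 (by exact_mod_cast (card_stab_pos (G := G) y).ne')
    · exact h2
  have hdecomp : f = ∑ x : X, f x • ((Pi.single x (1 : ℤ) : X → ℤ)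
        - (Pi.single (orbRep G x) (1 : ℤ) : X → ℤ))
      + ∑ x : X, f x • (Pi.single (orbRep G x) (1 : ℤ) : X → ℤ) := by
    rw [← Finset.sum_add_distrib]
    simp_rw [← smul_add, sub_add_cancel]
    funext y
    simp [Finset.sum_apply, Pi.single_apply]
  have hzero : ∑ x : X, f x • (Pi.single (orbRep G x) (1 : ℤ) : X → ℤ) = 0 := by
    funext y
    rw [Finset.sum_apply, Pi.zero_apply]
    simp only [Pi.smul_apply, Pi.single_apply, smul_eq_mul, mul_ite, mul_one, mul_zero]
    by_cases hy : orbRep G y = y
    · refine (Finset.sum_congr rfl fun x _ => ?_).trans (hsum y)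
      have : (y = orbRep G x) ↔ x ∈ MulAction.orbit G y := by
        rw [← orbRep_eq_iff, hy]
        exact eq_comm
      simp only [this]
    · refine Finset.sum_eq_zero fun x _ => ?_
      rw [if_neg]
      intro h
      apply hy
      rw [h, orbRep_orbRep]
  rw [hdecomp, hzero, add_zero]
  refine AddSubgroup.sum_mem _ fun x _ => ?_
  refine AddSubgroup.zsmul_mem _ ?_ _
  obtain ⟨g, hg⟩ := exists_smul_orbRep (G := G) x
  refine AddSubgroup.mem_iSup_of_mem g ⟨(Pi.single (orbRep G x) (1 : ℤ) : X → ℤ), ?_⟩
  rw [dEnd_apply, permRep_single, hg]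

/-- `Ĥ⁻¹(G, ℤ[X]) = 0`. -/
theorem hm1_permRep : hm1 (permRep G X ℤ) = 1 := by
  rw [hm1, AddSubgroup.relIndex_eq_one]
  exact ker_nEnd_permRep_le

end PermHm

section PermBasis

variable {G : Type*} [Group G] [Fintype G] {X : Type*} [MulAction G X] [Finite X]
  {A : Type*} [AddCommGroup A] (ρ : G →* AddMonoid.End A)

theorem equivFun_rho (b : Module.Basis X ℤ A) (hb : ∀ (g : G) (x : X), ρ g (b x) = b (g • x))
    (g : G) (a : A) :
    b.equivFun (ρ g a) = permRep G X ℤ g (b.equivFun a) := by
  classical
  have := Fintype.ofFinite X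
  have key : b.equivFun.toLinearMap ∘ₗ (ρ g : A →+ A).toIntLinearMap
      = (permRep G X ℤ g : (X → ℤ) →+ (X → ℤ)).toIntLinearMap ∘ₗ b.equivFun.toLinearMap := by
    refine b.ext fun x => ?_
    show b.equivFun (ρ g (b x)) = permRep G X ℤ g (b.equivFun (b x))
    funext y
    rw [hb, permRep_apply, b.equivFun_self, b.equivFun_self]
    simp only [eq_inv_smul_iff]
  exact LinearMap.congr_fun key a

/-- `|Ĥ⁰| = ∏_{orbits} |Stab|` for a `G`-module with a permuted `ℤ`-basis. -/
theorem h0_permBasis (b : Module.Basis X ℤ A) (hb : ∀ (g : G) (x : X), ρ g (b x) = b (g • x))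
    [Fintype (Quotient (MulAction.orbitRel G X))] :
    h0 ρ = ∏ o : Quotient (MulAction.orbitRel G X), Nat.card (MulAction.stabilizer G o.out) := by
  have := Fintype.ofFinite X
  rw [← h0_permRep]
  exact h0_congr b.equivFun.toAddEquiv (equivFun_rho ρ b hb)

/-- `Ĥ⁻¹ = 0` for a `G`-module with a permuted `ℤ`-basis. -/
theorem hm1_permBasis (b : Module.Basis X ℤ A) (hb : ∀ (g : G) (x : X), ρ g (b x) = b (g • x)) :
    hm1 ρ = 1 := by
  have := Fintype.ofFinite X
  rw [← hm1_permRep (G := G) (X := X)]
  exact hm1_congr b.equivFun.toAddEquiv (equivFun_rho ρ b hb)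

theorem prod_stab_ne_zero [Fintype (Quotient (MulAction.orbitRel G X))] :
    (∏ o : Quotient (MulAction.orbitRel G X), Nat.card (MulAction.stabilizer G o.out)) ≠ 0 :=
  Finset.prod_ne_zero_iff.2 fun o _ => (card_stab_pos (G := G) o.out).ne'

/-- **Herbrand quotient of a permutation lattice**: `∏_{orbits} |Stab|` (any finite `G`). -/
theorem herbrand_permBasis (b : Module.Basis X ℤ A)
    (hb : ∀ (g : G) (x : X), ρ g (b x) = b (g • x))
    [Fintype (Quotient (MulAction.orbitRel G X))] :
    IsFinH ρ ∧ herbrand ρ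
      = ∏ o : Quotient (MulAction.orbitRel G X),
          (Nat.card (MulAction.stabilizer G o.out) : ℚ) := by
  refine ⟨⟨?_, ?_⟩, ?_⟩
  · rw [h0_permBasis ρ b hb]
    exact prod_stab_ne_zero
  · rw [hm1_permBasis ρ b hb]
    exact one_ne_zero
  · rw [herbrand, h0_permBasis ρ b hb, hm1_permBasis ρ b hb]
    simp

end PermBasis

section Artin

variable {G : Type*} [Group G] [Fintype G] {X : Type*} [MulAction G X] [Fintype X]

/-- Every vector of `ℝ^X` is within bounded distance of a full lattice. -/
theorem exists_lattice_approx (L : Submodule ℤ (X → ℝ)) [DiscreteTopology L] [IsZLattice ℝ L] :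
    ∃ C : ℝ, 0 ≤ C ∧ ∀ v : X → ℝ, ∃ m ∈ L, ‖v - m‖ ≤ C := by
  classical
  let b := IsZLattice.basis L
  let bR := b.ofZLatticeBasis ℝ L
  refine ⟨∑ i, ‖bR i‖, Finset.sum_nonneg fun i _ => norm_nonneg _, fun v => ?_⟩
  refine ⟨(ZSpan.floor bR v : X → ℝ), ?_, ?_⟩
  · have h2 : ∀ w : X → ℝ, w ∈ Submodule.span ℤ (Set.range bR) → w ∈ L := fun w hw => by
      rwa [b.ofZLatticeBasis_span ℝ L] at hw
    exact h2 _ (ZSpan.floor bR v).2
  · have := ZSpan.norm_fract_le bR v
    rwa [ZSpan.fract_apply] at this

/-- **Artin's lattice lemma**: a `G`-stable full lattice of the permutation module `ℝ^X`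
contains a `G`-equivariant family `Y : X → ℝ^X` which is linearly independent over `ℝ`. -/
theorem exists_equivariant_linearIndependent (L : Submodule ℤ (X → ℝ)) [DiscreteTopology L]
    [IsZLattice ℝ L] (hL : ∀ (g : G), ∀ v ∈ L, permRep G X ℝ g v ∈ L) :
    ∃ Y : X → (X → ℝ), (∀ x, Y x ∈ L) ∧
      (∀ (g : G) (x : X), permRep G X ℝ g (Y x) = Y (g • x)) ∧ LinearIndependent ℝ Y := by
  classical
  obtain ⟨C, hC0, hC⟩ := exists_lattice_approx L
  set n : ℝ := (Fintype.card G : ℝ) with hn
  have hnpos : 0 < n := by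
    rw [hn]
    exact_mod_cast Fintype.card_pos
  set t : ℝ := C * Fintype.card X + 1 with ht
  choose Z hZL hZ using fun x : X => hC (t • (Pi.single x (1 : ℝ) : X → ℝ))
  have hδ : ∀ x y : X, |Z x y - t * (if x = y then 1 else 0)| ≤ C := by
    intro x y
    have h1 := (norm_le_pi_norm (t • (Pi.single x (1 : ℝ) : X → ℝ) - Z x) y).trans (hZ x)
    rw [Real.norm_eq_abs, Pi.sub_apply, Pi.smul_apply, Pi.single_apply, smul_eq_mul,
      abs_sub_comm] at h1
    simpa [eq_comm] using h1
  let Y : X → (X → ℝ) := fun x => ∑ g : G, permRep G X ℝ g (Z (g⁻¹ • x))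
  have hY : ∀ x y : X, Y x y = ∑ g : G, Z (g⁻¹ • x) (g⁻¹ • y) := by
    intro x y
    show (∑ g : G, permRep G X ℝ g (Z (g⁻¹ • x))) y = _
    rw [Finset.sum_apply]
    rfl
  refine ⟨Y, fun x => ?_, fun g x => ?_, ?_⟩
  · exact Submodule.sum_mem _ fun g _ => hL g _ (hZL _)
  · show permRep G X ℝ g (∑ h : G, permRep G X ℝ h (Z (h⁻¹ • x)))
      = ∑ h : G, permRep G X ℝ h (Z (h⁻¹ • g • x))
    rw [map_sum]
    refine Fintype.sum_equiv (Equiv.mulLeft g) _ _ fun h => ?_
    show permRep G X ℝ g (permRep G X ℝ h (Z (h⁻¹ • x)))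
      = permRep G X ℝ (g * h) (Z ((g * h)⁻¹ • g • x))
    rw [map_mul, mul_inv_rev, mul_smul, inv_smul_smul]
    rfl
  · -- diagonal dominance
    have hdiag : ∀ x : X, n * (t - C) ≤ Y x x := by
      intro x
      rw [hY, hn, ← nsmul_eq_mul, ← Finset.card_univ, ← Finset.sum_const]
      refine Finset.sum_le_sum fun g _ => ?_
      have := (abs_le.1 (hδ (g⁻¹ • x) (g⁻¹ • x))).1
      rw [if_pos rfl, mul_one] at this
      linarith
    have hoff : ∀ x y : X, y ≠ x → |Y x y| ≤ n * C := by
      intro x y hxy
      rw [hY, hn, ← nsmul_eq_mul, ← Finset.card_univ, ← Finset.sum_const]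
      refine (Finset.abs_sum_le_sum_abs _ _).trans (Finset.sum_le_sum fun g _ => ?_)
      have := hδ (g⁻¹ • x) (g⁻¹ • y)
      rw [if_neg, mul_zero, sub_zero] at this
      · exact this
      · intro h
        exact hxy (smul_left_cancel _ h).symm
    have hCX : C * Fintype.card X < t := by rw [ht]; linarith
    have hdet : (Matrix.of Y).det ≠ 0 := by
      refine det_ne_zero_of_sum_row_lt_diag fun x => ?_
      have h1 : ∑ y ∈ Finset.univ.erase x, ‖Matrix.of Y x y‖
          ≤ ((Fintype.card X : ℝ) - 1) * (n * C) := by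
        have : ∑ y ∈ Finset.univ.erase x, ‖Matrix.of Y x y‖
            ≤ ∑ _y ∈ Finset.univ.erase x, n * C := by
          refine Finset.sum_le_sum fun y hy => ?_
          rw [Matrix.of_apply, Real.norm_eq_abs]
          exact hoff x y (Finset.ne_of_mem_erase hy)
        refine this.trans (le_of_eq ?_)
        rw [Finset.sum_const, Finset.card_erase_of_mem (Finset.mem_univ x), Finset.card_univ,
          nsmul_eq_mul, Nat.cast_sub (Nat.succ_le_of_lt (Fintype.card_pos_iff.2 ⟨x⟩)), Nat.cast_one]
      have h2 : n * (t - C) ≤ ‖Matrix.of Y x x‖ := by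
        rw [Matrix.of_apply, Real.norm_eq_abs]
        exact (hdiag x).trans (le_abs_self _)
      have h3 : ((Fintype.card X : ℝ) - 1) * (n * C) < n * (t - C) := by
        have : n * (C * Fintype.card X) < n * t := mul_lt_mul_of_pos_left hCX hnpos
        nlinarith
      linarith
    exact (Matrix.linearIndependent_rows_iff_isUnit (A := Matrix.of Y)).2
      ((Matrix.isUnit_iff_isUnit_det _).2 (isUnit_iff_ne_zero.2 hdet))

end Artin

section General

variable {G : Type*} [Group G] [Fintype G]

/-- Restriction of a `G`-module structure to a `G`-stable subgroup. -/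
def subRep {A : Type*} [AddCommGroup A] (ρ : G →* AddMonoid.End A) {S : Type*} [SetLike S A]
    [AddSubgroupClass S A] (s : S) (hs : ∀ (g : G), ∀ a ∈ s, ρ g a ∈ s) :
    G →* AddMonoid.End s where
  toFun g :=
    { toFun := fun a => ⟨ρ g a, hs g a a.2⟩
      map_zero' := Subtype.ext (map_zero (ρ g))
      map_add' := fun a b => Subtype.ext (map_add (ρ g) (a : A) (b : A)) }
  map_one' := by
    refine AddMonoidHom.ext fun a => Subtype.ext ?_
    show ρ 1 (a : A) = a
    rw [map_one]
    rfl
  map_mul' g h := by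
    refine AddMonoidHom.ext fun a => Subtype.ext ?_
    show ρ (g * h) (a : A) = ρ g (ρ h a)
    rw [map_mul]
    rfl

@[simp] theorem subRep_apply_coe {A : Type*} [AddCommGroup A] (ρ : G →* AddMonoid.End A)
    {S : Type*} [SetLike S A] [AddSubgroupClass S A] (s : S)
    (hs : ∀ (g : G), ∀ a ∈ s, ρ g a ∈ s) (g : G) (a : s) :
    ((subRep ρ s hs g a : s) : A) = ρ g a := rfl

/-- The induced `G`-module structure on the quotient by a `G`-stable subgroup. -/
def quotRep {B : Type*} [AddCommGroup B] (ρ : G →* AddMonoid.End B) (N : AddSubgroup B)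
    (hN : ∀ (g : G), ∀ b ∈ N, ρ g b ∈ N) : G →* AddMonoid.End (B ⧸ N) where
  toFun g := QuotientAddGroup.map N N (ρ g) (fun b hb => hN g b hb)
  map_one' := by
    refine AddMonoidHom.ext fun q => ?_
    obtain ⟨b, rfl⟩ := QuotientAddGroup.mk_surjective q
    show ((ρ 1 b : B) : B ⧸ N) = (b : B ⧸ N)
    rw [map_one]
    rfl
  map_mul' g h := by
    refine AddMonoidHom.ext fun q => ?_
    obtain ⟨b, rfl⟩ := QuotientAddGroup.mk_surjective q
    show ((ρ (g * h) b : B) : B ⧸ N) = ((ρ g (ρ h b) : B) : B ⧸ N)
    rw [map_mul]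
    rfl

theorem quotRep_mk {B : Type*} [AddCommGroup B] (ρ : G →* AddMonoid.End B) (N : AddSubgroup B)
    (hN : ∀ (g : G), ∀ b ∈ N, ρ g b ∈ N) (g : G) (b : B) :
    quotRep ρ N hN g (b : B ⧸ N) = ((ρ g b : B) : B ⧸ N) := rfl

variable [IsCyclic G]

/-- An equivariant surjection with finite kernel preserves the Herbrand quotient. -/
theorem herbrand_eq_of_surjective_finite_ker {B C : Type*} [AddCommGroup B] [AddCommGroup C]
    (ρB : G →* AddMonoid.End B) (ρC : G →* AddMonoid.End C) (p : B →+ C)
    (hp : Function.Surjective p) (hpe : ∀ (g : G) (b : B), p (ρB g b) = ρC g (p b))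
    [Finite p.ker] : (IsFinH ρB ↔ IsFinH ρC) ∧ herbrand ρB = herbrand ρC := by
  have hs : ∀ (g : G), ∀ a ∈ p.ker, ρB g a ∈ p.ker := fun g a ha => by
    rw [AddMonoidHom.mem_ker] at ha ⊢
    rw [hpe, ha, map_zero]
  have h : EquivExact (subRep ρB p.ker hs) ρB ρC p.ker.subtype p :=
    { inj := Subtype.val_injective
      surj := hp
      exact := AddSubgroup.range_subtype _
      hi := fun g a => rfl
      hp := hpe }
  exact h.herbrand_eq_of_finite_ker

/-- An equivariant injection with finite cokernel preserves the Herbrand quotient. -/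
theorem herbrand_eq_of_injective_finite_coker {A B : Type*} [AddCommGroup A] [AddCommGroup B]
    (ρA : G →* AddMonoid.End A) (ρB : G →* AddMonoid.End B) (i : A →+ B)
    (hi : Function.Injective i) (hie : ∀ (g : G) (a : A), i (ρA g a) = ρB g (i a))
    [Finite (B ⧸ i.range)] : (IsFinH ρA ↔ IsFinH ρB) ∧ herbrand ρA = herbrand ρB := by
  have hN : ∀ (g : G), ∀ b ∈ i.range, ρB g b ∈ i.range := by
    rintro g _ ⟨a, rfl⟩
    exact ⟨ρA g a, hie g a⟩
  have h : EquivExact ρA ρB (quotRep ρB i.range hN) i (QuotientAddGroup.mk' i.range) :=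
    { inj := hi
      surj := QuotientAddGroup.mk'_surjective _
      exact := (QuotientAddGroup.ker_mk' _).symm
      hi := hie
      hp := fun g b => rfl }
  exact h.herbrand_eq_of_finite_coker

end General

section Lattice

variable {G : Type*} [Group G] [Fintype G] {X : Type*} [MulAction G X] [Fintype X]

/-- The Herbrand data of the permutation module `ℤ[X]`. -/
theorem herbrand_permRep [Fintype (Quotient (MulAction.orbitRel G X))] :
    IsFinH (permRep G X ℤ) ∧ herbrand (permRep G X ℤ)
      = ∏ o : Quotient (MulAction.orbitRel G X),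
          (Nat.card (MulAction.stabilizer G o.out) : ℚ) := by
  refine ⟨⟨?_, ?_⟩, ?_⟩
  · rw [h0_permRep]
    exact prod_stab_ne_zero
  · rw [hm1_permRep]
    exact one_ne_zero
  · rw [herbrand, h0_permRep, hm1_permRep]
    simp

variable [IsCyclic G]

/-- **Herbrand quotient of a full `G`-lattice in `ℝ^X`.**  A `G`-module `B` with an equivariant
map `Λ : B → ℝ^X` with finite kernel whose image is a full lattice has Herbrand quotient
`∏_{orbits} |Stab|`. -/
theorem herbrand_of_lattice {B : Type*} [AddCommGroup B] (ρ : G →* AddMonoid.End B)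
    (Λ : B →+ (X → ℝ)) (hΛ : ∀ (g : G) (b : B), Λ (ρ g b) = permRep G X ℝ g (Λ b))
    (hker : Finite Λ.ker) (hdisc : DiscreteTopology Λ.range)
    (hspan : Submodule.span ℝ (Λ.range : Set (X → ℝ)) = ⊤)
    [Fintype (Quotient (MulAction.orbitRel G X))] :
    IsFinH ρ ∧ herbrand ρ
      = ∏ o : Quotient (MulAction.orbitRel G X),
          (Nat.card (MulAction.stabilizer G o.out) : ℚ) := by
  classical
  let L : Submodule ℤ (X → ℝ) := AddSubgroup.toIntSubmodule Λ.range
  have : DiscreteTopology L := hdisc
  have : IsZLattice ℝ L := ⟨hspan⟩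
  have hL : ∀ (g : G), ∀ v ∈ L, permRep G X ℝ g v ∈ L := by
    rintro g _ ⟨b, rfl⟩
    exact ⟨ρ g b, hΛ g b⟩
  obtain ⟨Y, hYL, hYe, hYli⟩ := exists_equivariant_linearIndependent L hL
  let ρL := subRep (permRep G X ℝ) L hL
  -- step 1: `B → L` is surjective with finite kernel
  let p : B →+ L := Λ.codRestrict L (fun b => ⟨b, rfl⟩)
  have hp : Function.Surjective p := by
    rintro ⟨_, ⟨b, rfl⟩⟩
    exact ⟨b, rfl⟩
  have hpe : ∀ (g : G) (b : B), p (ρ g b) = ρL g (p b) := fun g b => Subtype.ext (hΛ g b)
  have hpk : p.ker = Λ.ker := by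
    ext b
    rw [AddMonoidHom.mem_ker, AddMonoidHom.mem_ker]
    exact ⟨fun h => congrArg Subtype.val h, fun h => Subtype.ext h⟩
  have : Finite p.ker := by
    rw [hpk]
    exact hker
  obtain ⟨h1, h2⟩ := herbrand_eq_of_surjective_finite_ker ρ ρL p hp hpe
  -- step 2: the permutation sublattice spanned by `Y`
  let φ : (X → ℤ) →ₗ[ℤ] L := Fintype.linearCombination ℤ (fun x => (⟨Y x, hYL x⟩ : L))
  have hφ : ∀ f : X → ℤ, ((φ f : L) : X → ℝ) = ∑ x, f x • Y x := by
    intro f
    show ((Fintype.linearCombination ℤ (fun x => (⟨Y x, hYL x⟩ : L)) f : L) : X → ℝ) = _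
    rw [Fintype.linearCombination_apply]
    simp
  have hφinj : Function.Injective φ := by
    refine (injective_iff_map_eq_zero φ).2 fun f hf => ?_
    have h0 : ∑ x, f x • Y x = 0 := by
      rw [← hφ, hf]
      rfl
    have h3 : ∑ x, (f x : ℝ) • Y x = 0 := by
      rw [← h0]
      exact Finset.sum_congr rfl fun x _ => Int.cast_smul_eq_zsmul ℝ (f x) (Y x)
    funext x
    have := Fintype.linearIndependent_iff.1 hYli (fun x => (f x : ℝ)) h3 x
    exact_mod_cast this
  have hφe : ∀ (g : G) (f : X → ℤ),
      φ.toAddMonoidHom (permRep G X ℤ g f) = ρL g (φ.toAddMonoidHom f) := by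
    intro g f
    refine Subtype.ext ?_
    show ((φ (permRep G X ℤ g f) : L) : X → ℝ) = permRep G X ℝ g ((φ f : L) : X → ℝ)
    rw [hφ, hφ, map_sum]
    refine Fintype.sum_equiv (MulAction.toPerm g⁻¹) _ _ fun x => ?_
    rw [map_zsmul, hYe, permRep_apply]
    simp [MulAction.toPerm_apply]
  have : Finite (L ⧸ φ.toAddMonoidHom.range) := by
    have hrank : Module.finrank ℤ (LinearMap.range φ) = Module.finrank ℤ L := by
      rw [← (LinearEquiv.ofInjective φ hφinj).finrank_eq, Module.finrank_fintype_fun_eq_card,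
        ZLattice.rank ℝ L, Module.finrank_fintype_fun_eq_card]
    have := Submodule.finiteQuotientOfFreeOfRankEq (LinearMap.range φ) hrank
    rw [← LinearMap.range_toAddSubgroup]
    exact this
  obtain ⟨h3, h4⟩ := herbrand_eq_of_injective_finite_coker (permRep G X ℤ) ρL
    φ.toAddMonoidHom hφinj hφe
  obtain ⟨h5, h6⟩ := herbrand_permRep (G := G) (X := X)
  exact ⟨h1.2 (h3.1 h5), by rw [h2, ← h4, h6]⟩

end Lattice

section LogEmbedding

variable {G : Type*} [Group G] [Fintype G] {X : Type*} [MulAction G X] [Fintype X]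

/-- The `G`-module `E × ℤ` with trivial action on the second factor. -/
def prodTriv {E : Type*} [AddCommGroup E] (ρ : G →* AddMonoid.End E) :
    G →* AddMonoid.End (E × ℤ) where
  toFun g := AddMonoidHom.prodMap (ρ g) (AddMonoidHom.id ℤ)
  map_one' := by
    refine AddMonoidHom.ext fun a => Prod.ext ?_ rfl
    show ρ 1 a.1 = a.1
    rw [map_one]
    rfl
  map_mul' g h := by
    refine AddMonoidHom.ext fun a => Prod.ext ?_ rfl
    show ρ (g * h) a.1 = ρ g (ρ h a.1)
    rw [map_mul]
    rfl

theorem prodTriv_apply {E : Type*} [AddCommGroup E] (ρ : G →* AddMonoid.End E) (g : G)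
    (a : E × ℤ) : prodTriv ρ g a = (ρ g a.1, a.2) := rfl

/-- The sum of the coordinates, as a linear form on `ℝ^X`. -/
noncomputable def sumForm (X : Type*) [Fintype X] : (X → ℝ) →ₗ[ℝ] ℝ :=
  ∑ x : X, LinearMap.proj x

theorem sumForm_apply (v : X → ℝ) : sumForm X v = ∑ x, v x := by
  simp [sumForm]

theorem abs_sumForm_le (v : X → ℝ) : |sumForm X v| ≤ Fintype.card X * ‖v‖ := by
  rw [sumForm_apply]
  refine (Finset.abs_sum_le_sum_abs _ _).trans ?_
  have : ∑ x : X, |v x| ≤ ∑ _x : X, ‖v‖ :=
    Finset.sum_le_sum fun x _ => (Real.norm_eq_abs (v x)) ▸ norm_le_pi_norm v x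
  refine this.trans (le_of_eq ?_)
  rw [Finset.sum_const, Finset.card_univ, nsmul_eq_mul]

theorem sumForm_permRep (g : G) (v : X → ℝ) : sumForm X (permRep G X ℝ g v) = sumForm X v := by
  rw [sumForm_apply, sumForm_apply]
  exact Fintype.sum_equiv (MulAction.toPerm g⁻¹) _ _ fun x => rfl

variable [IsCyclic G]

/-- **Herbrand quotient of a `G`-module with a logarithmic embedding** (the abstract form of
the `S`-unit computation).  If `L : E → ℝ^X` is equivariant with finite kernel and its image
is a lattice spanning the hyperplane `∑ x, v x = 0`, then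
`h(E) * |G| = ∏_{orbits of G on X} |Stab|`. -/
theorem herbrand_of_logEmbedding [Nonempty X] {E : Type*} [AddCommGroup E]
    (ρ : G →* AddMonoid.End E) (L : E →+ (X → ℝ))
    (hL : ∀ (g : G) (e : E), L (ρ g e) = permRep G X ℝ g (L e))
    (hker : Finite L.ker) (hdisc : DiscreteTopology L.range)
    (hspan : Submodule.span ℝ (L.range : Set (X → ℝ)) = LinearMap.ker (sumForm X))
    [Fintype (Quotient (MulAction.orbitRel G X))] :
    IsFinH ρ ∧ herbrand ρ * (Fintype.card G : ℚ)
      = ∏ o : Quotient (MulAction.orbitRel G X),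
          (Nat.card (MulAction.stabilizer G o.out) : ℚ) := by
  classical
  set one : X → ℝ := fun _ => 1 with hone
  have hcard : (0 : ℝ) < Fintype.card X := by exact_mod_cast Fintype.card_pos
  have hsum_one : sumForm X one = Fintype.card X := by
    rw [sumForm_apply]
    simp [hone]
  have hsumL : ∀ e : E, sumForm X (L e) = 0 := by
    intro e
    have : L e ∈ Submodule.span ℝ (L.range : Set (X → ℝ)) := Submodule.subset_span ⟨e, rfl⟩
    rw [hspan] at this
    exact this
  -- the extended map
  let Λ : E × ℤ →+ (X → ℝ) := L.coprod (zmultiplesHom (X → ℝ) one)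
  have hΛapp : ∀ a : E × ℤ, Λ a = L a.1 + a.2 • one := fun a => rfl
  have hsumΛ : ∀ a : E × ℤ, sumForm X (Λ a) = a.2 * Fintype.card X := by
    intro a
    rw [hΛapp, map_add, hsumL, zero_add, ← Int.cast_smul_eq_zsmul ℝ, map_smul, hsum_one,
      smul_eq_mul]
  have hΛe : ∀ (g : G) (a : E × ℤ), Λ (prodTriv ρ g a) = permRep G X ℝ g (Λ a) := by
    intro g a
    rw [hΛapp, hΛapp, prodTriv_apply, map_add, hL, map_zsmul]
    rfl
  have hsnd : ∀ a : E × ℤ, ‖Λ a‖ < 1 → a.2 = 0 := by
    intro a ha
    have h1 := abs_sumForm_le (Λ a)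
    rw [hsumΛ, abs_mul, abs_of_pos hcard] at h1
    have h2 : |(a.2 : ℝ)| < 1 := by
      by_contra hcon
      rw [not_lt] at hcon
      nlinarith [norm_nonneg (Λ a)]
    have h3 : |a.2| < 1 := by exact_mod_cast h2
    exact Int.abs_lt_one_iff.1 h3
  -- kernel
  have hkerΛ : Finite Λ.ker := by
    have hinj : Function.Injective (fun a : Λ.ker => (⟨a.1.1, by
        have ha := a.2
        rw [AddMonoidHom.mem_ker] at ha ⊢
        have h2 : a.1.2 = 0 := hsnd a.1 (by rw [ha, norm_zero]; exact one_pos)
        rw [hΛapp, h2, zero_smul, add_zero] at ha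
        exact ha⟩ : L.ker)) := by
      intro a b hab
      have h1 : a.1.1 = b.1.1 := congrArg Subtype.val hab
      have ha2 : a.1.2 = 0 := hsnd a.1 (by
        rw [(AddMonoidHom.mem_ker).1 a.2, norm_zero]; exact one_pos)
      have hb2 : b.1.2 = 0 := hsnd b.1 (by
        rw [(AddMonoidHom.mem_ker).1 b.2, norm_zero]; exact one_pos)
      exact Subtype.ext (Prod.ext h1 (ha2.trans hb2.symm))
    exact Finite.of_injective _ hinj
  -- discreteness
  have hdiscΛ : DiscreteTopology Λ.range := by
    obtain ⟨ε, hε, hball⟩ := Metric.isOpen_singleton_iff.1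
      (discreteTopology_iff_isOpen_singleton_zero.1 hdisc)
    refine discreteTopology_iff_isOpen_singleton_zero.2
      (Metric.isOpen_singleton_iff.2 ⟨min ε 1, lt_min hε one_pos, ?_⟩)
    rintro ⟨_, ⟨a, rfl⟩⟩ hdist
    have hnorm : ‖Λ a‖ < min ε 1 := by
      have := hdist
      rw [dist_eq_norm, sub_zero] at this
      exact this
    have h2 : a.2 = 0 := hsnd a (hnorm.trans_le (min_le_right _ _))
    have h3 : Λ a = L a.1 := by rw [hΛapp, h2, zero_smul, add_zero]
    have h4 : (⟨L a.1, ⟨a.1, rfl⟩⟩ : L.range) = 0 := by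
      apply hball
      rw [dist_eq_norm, sub_zero]
      show ‖L a.1‖ < ε
      rw [← h3]
      exact hnorm.trans_le (min_le_left _ _)
    refine Subtype.ext ?_
    show Λ a = 0
    rw [h3]
    exact congrArg Subtype.val h4
  -- span
  have hspanΛ : Submodule.span ℝ (Λ.range : Set (X → ℝ)) = ⊤ := by
    refine eq_top_iff.2 fun v _ => ?_
    have hone_mem : one ∈ Submodule.span ℝ (Λ.range : Set (X → ℝ)) :=
      Submodule.subset_span ⟨(0, 1), by rw [hΛapp]; simp⟩
    have hle : Submodule.span ℝ (L.range : Set (X → ℝ))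
        ≤ Submodule.span ℝ (Λ.range : Set (X → ℝ)) := by
      refine Submodule.span_mono ?_
      rintro _ ⟨e, rfl⟩
      exact ⟨(e, 0), by rw [hΛapp]; simp⟩
    have hv : v - (sumForm X v / Fintype.card X) • one ∈ LinearMap.ker (sumForm X) := by
      rw [LinearMap.mem_ker, map_sub, map_smul, hsum_one, smul_eq_mul,
        div_mul_cancel₀ _ hcard.ne', sub_self]
    rw [← hspan] at hv
    have := Submodule.add_mem _ (hle hv) (Submodule.smul_mem _ (sumForm X v / Fintype.card X)
      hone_mem)
    rwa [sub_add_cancel] at this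
  obtain ⟨hfin, hherb⟩ := herbrand_of_lattice (prodTriv ρ) Λ hΛe hkerΛ hdiscΛ hspanΛ
  -- the exact sequence `0 → E → E × ℤ → ℤ → 0`
  have hex : EquivExact ρ (prodTriv ρ) (1 : G →* AddMonoid.End ℤ) (AddMonoidHom.inl E ℤ)
      (AddMonoidHom.snd E ℤ) :=
    { inj := fun a b h => congrArg Prod.fst h
      surj := fun k => ⟨(0, k), rfl⟩
      exact := by
        ext a
        constructor
        · rintro ⟨e, rfl⟩
          rfl
        · intro ha
          exact ⟨a.1, Prod.ext rfl (by
            have : a.2 = 0 := ha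
            rw [this]; rfl)⟩
      hi := fun g a => Prod.ext rfl rfl
      hp := fun g b => rfl }
  have hZ : IsFinH (1 : G →* AddMonoid.End ℤ) := by
    refine ⟨?_, ?_⟩
    · rw [h0_int_trivial]
      exact Fintype.card_ne_zero
    · rw [hm1_int_trivial]
      exact one_ne_zero
  refine ⟨hex.isFinH_left hfin hZ, ?_⟩
  rw [← hherb, hex.herbrand_mul_of_right hZ, herbrand_int_trivial]

end LogEmbedding

section Consumer

variable {G : Type*} [Group G] [Fintype G] {X : Type*} [MulAction G X]

/-- Re-indexing of the product over orbits along any parametrisation `π : X → V` of the orbits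
(e.g. places of `L` above a set of places `V` of `K`). -/
theorem prod_orbits_eq {V : Type*} [Fintype V] (π : X → V) (hπs : Function.Surjective π)
    (hπ : ∀ x y : X, π x = π y ↔ x ∈ MulAction.orbit G y) (n : V → ℚ)
    (hn : ∀ x : X, n (π x) = Nat.card (MulAction.stabilizer G x))
    [Fintype (Quotient (MulAction.orbitRel G X))] :
    ∏ o : Quotient (MulAction.orbitRel G X), (Nat.card (MulAction.stabilizer G o.out) : ℚ)
      = ∏ v : V, n v := by
  let e : Quotient (MulAction.orbitRel G X) → V :=
    Quotient.lift π (fun a b hab => (hπ a b).2 (MulAction.orbitRel_apply.1 hab))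
  have he : Function.Bijective e := by
    constructor
    · intro a b
      refine Quotient.inductionOn₂ a b fun x y hxy => ?_
      exact Quotient.sound (MulAction.orbitRel_apply.2 ((hπ x y).1 hxy))
    · intro v
      obtain ⟨x, rfl⟩ := hπs v
      exact ⟨Quotient.mk _ x, rfl⟩
  refine Fintype.prod_bijective e he _ _ fun o => ?_
  have : e o = π o.out := by
    conv_lhs => rw [← Quotient.out_eq o]
    rfl
  rw [this, hn]

/-- A subgroup of a normed group meeting some closed ball around `0` in a finite set is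
discrete. -/
theorem discreteTopology_of_finite_closedBall {V : Type*} [NormedAddCommGroup V]
    (M : AddSubgroup V) {r : ℝ} (hr : 0 < r)
    (hfin : {v : V | v ∈ M ∧ ‖v‖ ≤ r}.Finite) : DiscreteTopology M := by
  refine discreteTopology_iff_isOpen_singleton_zero.2 ?_
  refine isOpen_singleton_of_finite_mem_nhds (0 : M)
    (s := {m : M | ‖(m : V)‖ ≤ r}) ?_ ?_
  · have : {m : M | ‖(m : V)‖ ≤ r} = Metric.closedBall (0 : M) r := by
      ext m
      rw [Metric.mem_closedBall, dist_eq_norm, sub_zero]
      rfl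
    rw [this]
    exact Metric.closedBall_mem_nhds _ hr
  · refine Set.Finite.of_finite_image (f := ((↑) : M → V)) (hfin.subset ?_)
      Subtype.val_injective.injOn
    rintro _ ⟨m, hm, rfl⟩
    exact ⟨m.2, hm⟩

end Consumer

end Fermat.Agent.CFT.Glob.LatticeHerbrand
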